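import Fermat.Agent.BAD.AtP.Drop.Main
import Fermat.Agent.Assembly.Frey

/-!
# Lowering the Frey representation at `p`

Mazur's principle at the residue characteristic removes `p` from a level of the Frey representation
in which it occurs once.
-/

set_option autoImplicit false

noncomputable section

namespace FermatAgent.BAD.TwoP

/-- **Lowering at `p`**: if the Frey representation occurs at a level divisible by `p` exactly once,
it occurs at that level divided by `p`. -/
theorem residual_div (P : FreyPackage) {N : ℕ} (hN : 0 < N) (hpN : P.p ∣ N)
    (hp2N : ¬ P.p ^ 2 ∣ N) (hirr : P.freyCurveInt.ModRepIsIrreducible P.p)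
    (hres : P.freyCurveInt.IsResiduallyModularOfLevel P.p N) :
    P.freyCurveInt.IsResiduallyModularOfLevel P.p (N / P.p) := by
  have := Fact.mk P.pp
  exact AtP.isResiduallyModularOfLevel_div (ECLocal.freyCurveInt_Δ_ne_zero P)
    (by have := P.hp5; omega) hirr
    (fun hd => ⟨Assembly.frey_semistable P _ P.pp hd, frey_dvd_padicValInt P⟩) hN hpN hp2N hres

end FermatAgent.BAD.TwoP

end
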