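import Fermat.Agent.PSEMI.Ord.Vanish

/-!
# Deep classes at `∞`

High iterates of `U` make classes which reduce to `p`-th powers trivial at `∞`.
-/

set_option autoImplicit false

open UpperHalfPlane CongruenceSubgroup IsLocalRing
open scoped MatrixGroups Matrix

noncomputable section

namespace FermatAgent.BAD.TwoP

open FermatAgent.ES (SerIn lexp lexp_eq HasLExp HasExp IsTwist IsParChar parGroup CPlace
  AuxLevel liftSer)
open FermatAgent.Period (TransferData)
open FermatAgent.PSEMI (Coeffs Fine Nice Triv TrivCl IsClass IsLevel red nrmIter)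
open ModularForm (heckeMatrix)

/-! ### Series -/

section Series

variable {p : ℕ} [hp : Fact p.Prime] {P : CPlace p} {K : Coeffs P}

/-- A reduced series which is a `p`-th power has a nice root up to reduction. -/
theorem exists_nice_root {s : LaurentSeries ℂ} (hs : Nice K s)
    (h : ∀ k : ℤ, ¬ (p : ℤ) ∣ k → (red (P := P) s).coeff k = 0) :
    ∃ w, Nice K w ∧ red (P := P) s = red (P := P) w ^ p := by
  obtain ⟨r, hr⟩ := PSEMI.exists_pow_of_supp K h
  obtain ⟨S, hS, hin⟩ := hs.1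
  have hO := K.isCDVR hS
  have hmem : ∀ k, r.coeff k ∈ PSEMI.resImage hO := fun k => by
    refine PSEMI.mem_resImage_of_pow K hO ?_
    have h1 := PSEMI.coeff_red_mem hO hin ((p : ℤ) * k)
    rw [hr, PSEMI.pow_char_expand, expandL_coeff_mul, ES.coeff_liftSer, frobenius_def] at h1
    exact h1
  obtain ⟨w, hw, hwr, -⟩ := PSEMI.exists_lift hO hmem
  refine ⟨w, ⟨⟨S, hS, hw⟩, ?_⟩, by rw [hwr, hr]⟩
  rw [← PSEMI.red_ne_zero_iff (PSEMI.serIn_mono hw hO.le), hwr]
  intro h0
  have h1 := (PSEMI.red_ne_zero_iff hs.serIn).mpr hs.2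
  exact h1 (by rw [hr, h0, zero_pow hp.out.ne_zero])

end Series

/-! ### Deep classes -/

section Deep

variable {p : ℕ} [hp : Fact p.Prime] {M : ℕ} [NeZero M] {Γ Γ' : Subgroup SL(2, ℤ)}
  {P : CPlace p} {K : Coeffs P} (hM : M.Coprime p) (L : IsLevel p M Γ Γ') {m : ℕ}
  (haux : AuxLevel M m) (D : TransferData Γ (ZMod p))
  (hD : ∀ j : ZMod p, D.rep j = heckeMatrix p j.val)

include hM L haux hD in
/-- **Deep.** Iterates of `U` make classes which are residually `p`-th powers trivial at `∞`. -/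
theorem exists_triv_opIter (χ : parGroup Γ p) {y w : LaurentSeries ℂ}
    (hy : IsClass K p (χ : Γ →* ℂˣ) y) (hw : Nice K w)
    (hred : red (P := P) y = red (P := P) w ^ p) :
    ∃ J : ℕ, ∀ j, J ≤ j → TrivCl K p (PSEMI.opIter D j (χ : Γ →* ℂˣ)) := by
  have hn0 := hp.out.ne_zero
  obtain ⟨v, hv, hvu, hle⟩ := hw.1.exists_invApprox hw.2 (ε := 1 / 2) (by norm_num) (by norm_num)
  have hwv : red (P := P) w * red (P := P) v = 1 := by
    rw [← PSEMI.red_mul hw.serIn hv.serIn, ← PSEMI.red_one (P := P),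
      PSEMI.red_eq_red_iff (hw.serIn.mul hv.serIn) SerIn.one]
    exact fun k => (hle k).trans_lt (by norm_num)
  set δ := y * v ^ p
  have hδ : Fine K δ := hy.1.1.mul (hv.pow _)
  have hδ1 : P.SerLT (δ - 1) := by
    intro k
    refine (PSEMI.red_eq_red_iff hδ.serIn SerIn.one).mp ?_ k
    rw [PSEMI.red_mul hy.1.serIn (hv.serIn.pow _), PSEMI.red_pow hv.serIn, hred, ← mul_pow, hwv,
      one_pow, PSEMI.red_one]
  have hpos : 0 < P.abv (p : ℂ) ^ 2 / 2 := by
    have := P.abv.pos (Nat.cast_ne_zero.mpr hn0 : (p : ℂ) ≠ 0)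
    positivity
  obtain ⟨J, hJ⟩ := PSEMI.exists_nrmIter_near hδ hδ1 hpos
  have hvn : Nice K v := ⟨hv, hvu⟩
  have hyJ : Nice K (nrmIter p J y) := hy.1.nrmIter J
  have hvJ : Nice K (nrmIter p J v) := hvn.nrmIter J
  have h1 : Triv K p (nrmIter p J δ) := PSEMI.triv_of_near_one hn0
    ((hy.1.mul (hvn.pow p)).nrmIter J).1 (half_lt_self (by linarith)) hJ
  rw [show nrmIter p J δ = nrmIter p J y * nrmIter p J v ^ p by
    simp only [δ, PSEMI.nrmIter_mul, PSEMI.nrmIter_pow]] at h1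
  have hT : Triv K p (nrmIter p J y) := h1.of_mul hn0 hyJ.serIn (hvJ.serIn.pow _)
    (hvJ.2.pow hvJ.serIn _) (PSEMI.triv_pow hvJ.1)
  refine ⟨J, fun j hj => ?_⟩
  have hTj : Triv K p (nrmIter p j y) := by
    induction j, hj using Nat.le_induction with
    | base => exact hT
    | succ j hj ih => exact PSEMI.Triv.nrm' (hy.1.nrmIter j).serIn ih
  have hmem : PSEMI.opIter D j (χ : Γ →* ℂˣ) ∈ parGroup Γ p := by
    clear hj hTj
    induction j with
    | zero => exact χ.2
    | succ j ih => exact ES.charOp_mem_parGroup D ih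
  exact TrivCl.of_one hM L haux (PSEMI.killsPm_of_parGroup ⟨_, hmem⟩) (hy.opIter D hD j) hTj

end Deep

end FermatAgent.BAD.TwoP
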