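import Fermat.Agent.BAD.TwoP.Good
import Mathlib.RingTheory.Trace.Basic

/-!
# Automorphisms fixing the coefficient field

An embedding of a field over the coefficient field extends to an automorphism fixing the latter.
-/

set_option autoImplicit false

open UpperHalfPlane CongruenceSubgroup
open scoped MatrixGroups

noncomputable section

namespace FermatAgent.BAD.TwoP

open FermatAgent.ES (BSub BRing act lexp lexp_eq zetaC AuxLevel CPlace GalRel mapSer haupt hauptSub
  vanishOrd padicSubring)
open CFT.Local (unramRoot botF Gal')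

variable {q : ℕ} [hq : Fact q.Prime] (Φ : ℂ ≃+* PadicAlgCl q) {n : ℕ} [NeZero n]

/-- `s` fixes the coefficient field. -/
def FixK (n : ℕ) [NeZero n] (s : Gal' q) : Prop := ∀ x ∈ kField q (zetaP Φ) n, s x = x

/-! ### Extensions of embeddings -/

variable {L : IntermediateField (kField q (zetaP Φ) n) (PadicAlgCl q)}

/-- An extension of an embedding of `L`. -/
def extEmb (σ : L →ₐ[kField q (zetaP Φ) n] PadicAlgCl q) : Gal' q :=
  (AlgEquiv.ofBijective (σ.liftNormal (PadicAlgCl q))
    (Algebra.IsAlgebraic.algHom_bijective _)).restrictScalars ℚ_[q]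

/-- The extension fixes the coefficient field. -/
theorem extEmb_fix (σ : L →ₐ[kField q (zetaP Φ) n] PadicAlgCl q) : FixK Φ n (extEmb Φ σ) :=
  fun x hx => (σ.liftNormal (PadicAlgCl q)).commutes ⟨x, hx⟩

/-- The extension restricts to the embedding. -/
theorem extEmb_apply (σ : L →ₐ[kField q (zetaP Φ) n] PadicAlgCl q) (x : L) :
    extEmb Φ σ (x : PadicAlgCl q) = σ x := by
  show σ.liftNormal (PadicAlgCl q) (algebraMap L (PadicAlgCl q) x) = _
  rw [AlgHom.liftNormal_commutes]
  rfl

end FermatAgent.BAD.TwoP
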