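import Fermat.Agent.BAD.Residual
import Fermat.Agent.BAD.Trace2
import Fermat.Agent.PSEMI.LevelMp.Compon

/-!
# Expansions in the parameter of level `M` at the cusps over `∞`, and the descent to level `2`

`resInf` is the residual series at a cusp over `∞`; it vanishes exactly on the functions small
at that cusp.
-/

set_option autoImplicit false

open UpperHalfPlane CongruenceSubgroup
open scoped MatrixGroups

noncomputable section

namespace FermatAgent.BAD.TwoP

open FermatAgent.ES (BSub BRing SerIn lexp lexp_eq hasLExp_lexp act zetaC AuxLevel CPlace GoodRoot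
  liftSer polRing modMat)

variable {q M : ℕ} [Fact q.Prime] [NeZero M] {O : Subring ℂ}

theorem exists_infSer (γ : SL(2, ℤ)) (hγ : γ ∈ Gamma0 q) (f : LRing q M O) :
    ∃ t : LaurentSeries O, expandL q t = serO M O q γ f := by
  obtain ⟨t, -, ht⟩ := exists_hasLExp_descend (hasLExp_lexp f.2.2.1 γ)
    fun n hn => coeff_eq_zero_of_not_dvd_type f.2.2 hγ hn
  obtain ⟨t', ht'⟩ := ES.exists_liftSer (O := O) (s := t) fun n => by
    rw [← expandL_coeff_mul q t, ← ht]
    exact serIn_serAt γ f _
  refine ⟨t', ES.liftSer_injective O.subtype_injective ?_⟩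
  rw [liftSer_expandL, ht', liftSer_serO, serAt_apply, ht]

/-- The expansion at a cusp over `∞` in the parameter of level `M`. -/
def infSer (γ : SL(2, ℤ)) (hγ : γ ∈ Gamma0 q) : LRing q M O →+* LaurentSeries O where
  toFun f := (exists_infSer γ hγ f).choose
  map_one' := expandL_injective q (by
    rw [(exists_infSer γ hγ _).choose_spec, map_one, map_one])
  map_mul' f g := expandL_injective q (by
    rw [(exists_infSer γ hγ _).choose_spec, map_mul, map_mul, (exists_infSer γ hγ _).choose_spec,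
      (exists_infSer γ hγ _).choose_spec])
  map_zero' := expandL_injective q (by
    rw [(exists_infSer γ hγ _).choose_spec, map_zero, map_zero])
  map_add' f g := expandL_injective q (by
    rw [(exists_infSer γ hγ _).choose_spec, map_add, map_add, (exists_infSer γ hγ _).choose_spec,
      (exists_infSer γ hγ _).choose_spec])

/-- The expansion in the parameter of level `M` gives that of level `q M`. -/
theorem expandL_infSer (γ : SL(2, ℤ)) (hγ : γ ∈ Gamma0 q) (f : LRing q M O) :
    expandL q (infSer γ hγ f) = serO M O q γ f := (exists_infSer γ hγ f).choose_spec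

theorem infSer_raiseL (γ : SL(2, ℤ)) (hγ : γ ∈ Gamma0 q) (x : BRing M O) :
    infSer γ hγ (raiseL M x) = ES.cuspSer O γ x :=
  expandL_injective q (by rw [expandL_infSer, serO_raiseL])

/-- The expansion of a constant. -/
theorem infSer_constL (γ : SL(2, ℤ)) (hγ : γ ∈ Gamma0 q) (r : O) :
    infSer γ hγ (constL r : LRing q M O) = HahnSeries.C r := by
  refine expandL_injective q ?_
  rw [expandL_infSer, HahnSeries.C_apply, expandL_single, mul_zero]
  refine serO_ext ?_
  rw [serAt_constL]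
  ext n
  rcases eq_or_ne n 0 with rfl | hn <;>
    simp [ES.coeff_liftSer, HahnSeries.C_apply, *]

/-- The coefficients of the expansion. -/
theorem coeff_infSer (γ : SL(2, ℤ)) (hγ : γ ∈ Gamma0 q) (f : LRing q M O) (n : ℤ) :
    ((infSer γ hγ f).coeff n : ℂ) = (serAt M O q γ f).coeff (q * n) := by
  rw [← liftSer_serO, ES.coeff_liftSer, ← expandL_infSer γ hγ, expandL_coeff_mul]
  rfl

section Res

variable [IsLocalRing O]

/-- The residual expansion at a cusp over `∞` in the parameter of level `M`. -/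
def resInf (γ : SL(2, ℤ)) (hγ : γ ∈ Gamma0 q) :
    LRing q M O →+* LaurentSeries (IsLocalRing.ResidueField O) :=
  (liftSer (IsLocalRing.residue O)).comp (infSer γ hγ)

/-- The residual expansion of a function of level `M`. -/
theorem resInf_raiseL (γ : SL(2, ℤ)) (hγ : γ ∈ Gamma0 q) (x : BRing M O) :
    resInf γ hγ (raiseL M x : LRing q M O) = resCusp M O γ x := by
  rw [resInf, resCusp, RingHom.comp_apply, RingHom.comp_apply, infSer_raiseL]

/-- The residual expansion of a constant. -/
theorem resInf_constL (γ : SL(2, ℤ)) (hγ : γ ∈ Gamma0 q) (r : O) :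
    resInf γ hγ (constL r : LRing q M O) = HahnSeries.C (IsLocalRing.residue O r) := by
  rw [resInf, RingHom.comp_apply, infSer_constL]
  ext n
  rcases eq_or_ne n 0 with rfl | hn <;>
    simp [ES.coeff_liftSer, HahnSeries.C_apply, *]

/-- The residual expansion vanishes exactly on the functions small at the cusp. -/
theorem resInf_eq_zero_iff {P : CPlace q} (hO' : P.IsCDVR O) (γ : SL(2, ℤ)) (hγ : γ ∈ Gamma0 q)
    (f : LRing q M O) : resInf γ hγ f = 0 ↔ P.SerLT (serAt M O q γ f) := by
  constructor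
  · intro h n
    by_cases hn : (q : ℤ) ∣ n
    · obtain ⟨k, rfl⟩ := hn
      have h1 := congrArg (fun s : LaurentSeries (IsLocalRing.ResidueField O) => s.coeff k) h
      simp only [resInf, RingHom.comp_apply, ES.coeff_liftSer, HahnSeries.coeff_zero,
        IsLocalRing.residue_eq_zero_iff] at h1
      rw [← coeff_infSer γ hγ]
      exact (hO'.mem_maximalIdeal_iff _).mp h1
    · rw [serAt_apply, coeff_eq_zero_of_not_dvd_type f.2.2 hγ hn, map_zero]
      exact one_pos
  · intro h
    ext n
    rw [resInf, RingHom.comp_apply, ES.coeff_liftSer, HahnSeries.coeff_zero,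
      IsLocalRing.residue_eq_zero_iff]
    refine (hO'.mem_maximalIdeal_iff _).mpr ?_
    rw [coeff_infSer]
    exact h _

end Res

/-! ### The trace -/

variable (hM : M.Coprime q) {P : CPlace q} (hO : O ≤ P.ring)

include hM in
/-- The trace to level `M` is the identity on the component at `∞`. -/
theorem sub_trB_mem_pInf (f : LRing q M O) : f - raiseL M (trB f) ∈ pInf hO := by
  intro γ hγ n
  have hL : (f : ℍ → ℂ) ∈ LRing q M P.ring := LRing_mono hO f.2
  have h := PSEMI.LevelMp.red_inf_eq hM (⟨_, hL⟩ : LRing q M P.ring) hγ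
  rw [PSEMI.LevelMp.rH_apply, PSEMI.red_eq_red_iff (PSEMI.LevelMp.serIn_inf hL hγ)
    ((trB (⟨_, hL⟩ : LRing q M P.ring)).2.2 γ)] at h
  rw [map_sub, serAt_apply, serAt_raiseL, PSEMI.LevelMp.lexp_inf_level f.2.2 hγ, ← map_sub]
  by_cases hn : (q : ℤ) ∣ n
  · obtain ⟨k, rfl⟩ := hn
    rw [expandL_coeff_mul]
    exact h k
  · rw [expandL_coeff_of_not_dvd q _ hn, map_zero]
    exact one_pos

/-- Every class modulo `M` has a representative in `Γ₀(q)`. -/
theorem exists_gamma0_modMat (hM : M.Coprime q) (δ : SL(2, ℤ)) :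
    ∃ l ∈ Gamma0 q, modMat M l = modMat M δ := by
  obtain ⟨u, v, huv⟩ := Int.isCoprime_iff_nat_coprime.mpr
    (show Int.natAbs q |>.Coprime (Int.natAbs M) by simpa using hM.symm)
  set N := q * M
  set e : ZMod N := ((u * q : ℤ) : ZMod N)
  have he : e * (1 - e) = 0 := by
    have h1 : e + ((v * M : ℤ) : ZMod N) = 1 := by rw [← Int.cast_add, huv, Int.cast_one]
    rw [show 1 - e = ((v * M : ℤ) : ZMod N) by linear_combination -h1, ← Int.cast_mul,
      ZMod.intCast_zmod_eq_zero_iff_dvd]
    exact ⟨u * v, by push_cast [N]; ring⟩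
  set d : Fin 2 → Fin 2 → ZMod N := fun i j => ((δ i j : ℤ) : ZMod N)
  have hdet : d 0 0 * d 1 1 - d 0 1 * d 1 0 = 1 := by
    have h := congrArg (Int.cast : ℤ → ZMod N) (Matrix.SpecialLinearGroup.det_coe δ)
    rw [Matrix.det_fin_two] at h
    push_cast at h
    exact h
  obtain ⟨l, hl⟩ := ES.exists_lift_modMat (a := e * d 0 0 + (1 - e)) (b := e * d 0 1)
    (c := e * d 1 0) (d := e * d 1 1 + (1 - e))
    (by linear_combination e ^ 2 * hdet + (d 0 0 + d 1 1 - 2) * he)
  have hp : ∀ {r : ℕ}, r ∣ N → ∀ (i j : Fin 2) (w : ℤ),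
      modMat N l i j = (w : ZMod N) → ((l i j : ℤ) : ZMod r) = w := by
    intro r hr i j w h
    have := congrArg (ZMod.castHom hr (ZMod r)) h
    simpa [ES.modMat] using this
  set w := fun i j : Fin 2 => if i = j then u * q * δ i j + (1 - u * q) else u * q * δ i j
  have hw : ∀ i j, modMat N l i j = ((w i j : ℤ) : ZMod N) := by
    intro i j
    rw [hl]
    fin_cases i <;> fin_cases j <;> simp [w, e, d]
  have hu : ((u * q : ℤ) : ZMod M) = 1 := by
    rw [show u * (q : ℤ) = 1 - v * M by linarith]; push_cast; simp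
  have hmod : modMat M l = modMat M δ := by
    ext i j
    show ((l i j : ℤ) : ZMod M) = ((δ i j : ℤ) : ZMod M)
    rw [hp (dvd_mul_left M q) i j _ (hw i j)]
    push_cast at hu
    fin_cases i <;> fin_cases j <;> simp [w, hu]
  refine ⟨l, Gamma0_mem.mpr ?_, hmod⟩
  rw [hp (dvd_mul_right q M) 1 0 _ (hw 1 0)]
  simp [w]

/-- Lifting a class of `Γ(M)` in `Γ(m)` to `Γ₀(q) ∩ Γ(m)`. -/
theorem exists_lam_mul_of_mem (hM : M.Coprime q) {m : ℕ} (hmM : m ∣ M) {δ : SL(2, ℤ)}
    (hδ : δ ∈ Gamma m) : ∃ l ∈ lam q m, δ * l⁻¹ ∈ Gamma M := by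
  obtain ⟨l, hl, hmod⟩ := exists_gamma0_modMat (q := q) hM δ
  refine ⟨l, ⟨hl, ES.mem_Gamma_of_modMat ?_⟩, ES.mem_Gamma_of_modMat ?_⟩
  · have h1 := ES.modMat_eq_one_of_mem hδ
    ext i j
    show ((l i j : ℤ) : ZMod m) = _
    have h2 := congrArg (ZMod.castHom hmM (ZMod m)) (congrFun (congrFun hmod i) j)
    simp only [ES.modMat, Matrix.map_apply, eq_intCast, map_intCast] at h2
    rw [h2, ← h1]
    rfl
  · rw [ES.modMat_mul, ← hmod, ← ES.modMat_mul, mul_inv_cancel, ES.modMat_one]

include hM in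
/-- The trace of a function invariant under `Γ₀(q) ∩ Γ(m)` is invariant under `Γ(m)`. -/
theorem act_trL_of_inv {m : ℕ} (hmM : m ∣ M) {f : ℍ → ℂ}
    (hinv : ∀ δ ∈ lam q m, act δ f = f) {δ : SL(2, ℤ)} (hδ : δ ∈ Gamma m) :
    act δ (trL q M f) = trL q M f := by
  have hlam : ∀ γ ∈ lam q M, act γ f = f := fun γ hγ =>
    hinv γ ⟨hγ.1, ES.gamma_le_of_dvd hmM hγ.2⟩
  obtain ⟨l, hl, hlδ⟩ := exists_lam_mul_of_mem hM hmM hδ
  have e : act δ (trL q M f) = act l (trL q M f) := by
    conv_lhs => rw [show δ = δ * l⁻¹ * l by group, ES.act_mul, act_trL hlam hlδ]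
  rw [e, trL, ES.act_sum]
  conv_rhs => rw [← sum_coset_conj hl.1 (fun g => act g⁻¹ f) (act_rep_inv hlam)]
  refine Finset.sum_congr rfl fun x _ => ?_
  rw [← ES.act_mul, show (l⁻¹ * cosetRep q M x * l)⁻¹ = l⁻¹ * ((cosetRep q M x)⁻¹ * l) by group]
  conv_rhs => rw [ES.act_mul, hinv _ (inv_mem hl)]

include hM in
/-- On the component at `∞` an invariant function comes from level `m`. -/
theorem exists_polRing_congr {m : ℕ} (haux : AuxLevel M m) (hA : GoodRoot M O (zetaC M))
    {f : LRing q M O} (hinv : ∀ δ ∈ lam q m, act δ (f : ℍ → ℂ) = f) :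
    ∃ g : BRing M O, (g : ℍ → ℂ) ∈ polRing haux O ∧ f - raiseL M g ∈ pInf hO :=
  ⟨trB f, ES.invariant_mem_polRing haux hA (trB f).2
    fun _ hδ => act_trL_of_inv hM haux.dvd hinv hδ, sub_trB_mem_pInf hM hO f⟩

end FermatAgent.BAD.TwoP
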