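import Fermat.Agent.BAD.AtP.Level.Form

/-!
# Orders of `q`-th powers at the cusps

A `q`-th power has orders divisible by `q` at the cusps over `∞`, and functions invariant under
translation and Atkin transforms have expansions in the parameter of level `M` there.
-/

set_option autoImplicit false

open UpperHalfPlane CongruenceSubgroup IsLocalRing
open scoped MatrixGroups Manifold

noncomputable section

namespace FermatAgent.BAD.TwoP

open FermatAgent.ES (BSub act lexp lexp_eq HasLExp hasLExp_lexp zetaC AuxLevel CPlace HasExp IsTwist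
  IsParChar parGroup conjChar goodLevel_Gamma0 auxW vanishOrd liftSer)
open CFT.Local (Gal')

section Roots

variable {q M : ℕ} [hq : Fact q.Prime] [NeZero M] {O : Subring ℂ}

/-- A `q`-th power of a function with expansions in the parameter of level `M` has multiplicities
divisible by `q` at a cusp over `∞`. -/
theorem dvd_infSer_order {f : LRing q M O} {h : ℍ → ℂ} (hf : (f : ℍ → ℂ) = h ^ q)
    {γ : SL(2, ℤ)} (hγ : γ ∈ Gamma0 q) {t : LaurentSeries ℂ}
    (ht : HasLExp (q * M) (act γ h) (expandL q t)) :
    (q : ℤ) ∣ (infSer γ hγ f).order := by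
  have e : serAt M O q γ f = expandL q t ^ q := by
    rw [serAt_apply, hf]
    exact lexp_eq ((ht.pow q).congr_fun fun τ => by simp)
  have e2 : liftSer O.subtype (infSer γ hγ f) = t ^ q := expandL_injective q (by
    rw [map_pow, ← e, ← liftSer_serO, ← expandL_infSer γ hγ f, liftSer_expandL])
  rw [← order_liftSer O.subtype O.subtype_injective, e2, HahnSeries.order_pow, nsmul_eq_mul]
  exact dvd_mul_right _ _

/-- A function invariant under translation has an expansion in the parameter of level `M`. -/
theorem exists_expandL_of_periodic {g : ℍ → ℂ} {s : LaurentSeries ℂ} (hs : HasLExp (q * M) g s)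
    (hT : act (ModularGroup.T ^ M) g = g) : ∃ t, HasLExp (q * M) g (expandL q t) := by
  obtain ⟨t, -, ht⟩ := exists_hasLExp_descend hs fun n hn => by
    have h := hs.series_unique
      ((ES.hasLExp_act_T_pow hs M).congr_fun fun τ => (congrFun hT τ).symm)
    have h2 := congrArg (fun s => HahnSeries.coeff s n) h
    simp only [ES.coeff_twistSer] at h2
    by_contra h0
    exact hn (((ES.zetaC_isPrimitiveRoot (q * M)).pow (NeZero.pos _)
      (mul_comm q M)).zpow_eq_one_iff_dvd n |>.mp
        (mul_left_cancel₀ h0 (by rw [← h2, mul_one])))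
  exact ⟨t, ht ▸ hs⟩

/-- The Atkin transform of a function with expansions has expansions in the parameter of level
`M` at the cusps over `∞`. -/
theorem exists_expandL_atkin (hM : M.Coprime q) {h : ℍ → ℂ}
    (hh : ∀ γ : SL(2, ℤ), ∃ s, HasLExp (q * M) (act γ h) s) {γ : SL(2, ℤ)} (hγ : γ ∈ Gamma0 q) :
    ∃ t, HasLExp (q * M) (act γ (atkin hM h)) (expandL q t) := by
  obtain ⟨γ', -, -, -, -, e⟩ := exists_dil_conj q γ (mem_Gamma0_dvd.mp hγ)
  obtain ⟨s, hs⟩ := hh (atkinMat hM * γ')
  exact ⟨s, (hasLExp_dilFun q hs).congr_fun fun τ => by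
    rw [ES.act_apply, atkin_apply_pt, e, dilFun_apply, ES.act_apply, mul_smul]⟩

end Roots

variable {q : ℕ} [hq : Fact q.Prime] (Φ : ℂ ≃+* PadicAlgCl q) 

/-- The coefficient fields grow with `n`. -/
theorem kField_mono {n N : ℕ} [NeZero n] [NeZero N] (h : n ∣ N) :
    kField q (zetaP Φ) n ≤ kField q (zetaP Φ) N :=
  sup_le_sup_right (lField_mono Φ h) _

end FermatAgent.BAD.TwoP
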