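import Fermat.Agent.TateRep.OrdinaryP
import Fermat.Agent.ECLocal.NodeTranslate

/-!
# A basis of `E[p]` at a multiplicative place over `p`

One vector spans the points reducing to the origin; the other lies off the identity component and
is taken with dominant `U`-coordinate, whose valuation is an integral power of that of `p` when
`p` divides the valuation of the discriminant.
-/

set_option autoImplicit false

noncomputable section

open WeierstrassCurve
open scoped WeierstrassCurve.Affine

namespace FermatAgent.BAD.TwoP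

open FermatAgent.TateRep FermatAgent.ECLocal

local notation "Qbar" => AlgebraicClosure ℚ
local notation "GQ" => AlgebraicClosure ℚ ≃ₐ[ℚ] AlgebraicClosure ℚ

variable {W : WeierstrassCurve ℤ} {p : ℕ} [hp : Fact p.Prime] {A : ValuationSubring Qbar}

/-- Reduction modulo `p` of a `p`-adic integer. -/
theorem toZModPow_one_val (u : ℤ_[p]) :
    ((PadicInt.toZModPow 1 u).val : ZMod p) = PadicInt.toZMod u := by
  have h : (u - ((PadicInt.toZModPow 1 u).val : ℤ_[p])) ∈
      RingHom.ker (PadicInt.toZMod (p := p)) := by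
    rw [PadicInt.ker_toZMod, PadicInt.maximalIdeal_eq_span_p, ← pow_one (p : ℤ_[p]),
      ← PadicInt.ker_toZModPow, RingHom.mem_ker, map_sub, map_natCast, ZMod.natCast_zmod_val,
      sub_self]
  rw [RingHom.mem_ker, map_sub, map_natCast, sub_eq_zero] at h
  exact h.symm

/-- Congruent multiples of a point of order `p` are equal. -/
theorem nsmul_eq_nsmul_of_cast {G : Type*} [AddMonoid G] {x : G} (hx : p • x = 0) {a b : ℕ}
    (h : (a : ZMod p) = b) : a • x = b • x := by
  rw [ZMod.natCast_eq_natCast_iff'] at h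
  rw [← Nat.mod_add_div a p, ← Nat.mod_add_div b p, h, add_nsmul, add_nsmul, mul_nsmul,
    mul_nsmul, hx, nsmul_zero, nsmul_zero]

/-- Equal multiples of a point of order `p` have congruent coefficients. -/
theorem cast_eq_cast_of_nsmul_eq {G : Type*} [AddGroup G] {x : G} (hx : p • x = 0) (h0 : x ≠ 0)
    {a b : ℕ} (h : a • x = b • x) : (a : ZMod p) = b := by
  have ho : addOrderOf x = p := addOrderOf_eq_prime hx h0
  rw [nsmul_eq_nsmul_iff_modEq, ho] at h
  exact (ZMod.natCast_eq_natCast_iff _ _ _).mpr h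

/-- The Galois action is additive. -/
theorem galois_smul_add (σ : GQ) (P Q : Pts W) : σ • (P + Q) = σ • P + σ • Q :=
  map_add (Affine.Point.map σ.toAlgHom) P Q

/-- Multiples of a point reducing to zero reduce to zero. -/
theorem isE1_nsmul (n : ℕ) {W' : WeierstrassCurve A} {T : (gen W').toAffine.Point} (hT : IsE1 T) :
    IsE1 (n • T) := by
  induction n with
  | zero => rw [zero_nsmul]; exact isE1_zero
  | succ m ih => rw [succ_nsmul]; exact IsE1.add ih hT

theorem neg_nsmul_eq {G : Type*} [AddCommGroup G] {x : G} (hx : p • x = 0) (v : ℕ) :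
    -(v • x) = (v * (p - 1)) • x := by
  rw [eq_comm, eq_neg_iff_add_eq_zero, ← add_nsmul, ← Nat.mul_succ,
    show (p - 1).succ = p by have := hp.out.pos; omega, mul_nsmul', hx, nsmul_zero]

/-- A basis adapted to the kernel of reduction. -/
structure Lines (W : WeierstrassCurve ℤ) (p : ℕ) (A : ValuationSubring Qbar) where
  /-- A point off the identity component. -/
  P : Pts W
  /-- A point in the kernel of reduction. -/
  C : Pts W
  tor_P : p • P = 0
  tor_C : p • C = 0
  C_ne_zero : C ≠ 0
  isE1_C : IsE1 (toGen W A C)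
  not_isE0_P : ¬ IsE0 (toGen W A P)
  span : ∀ R : Pts W, p • R = 0 → ∃ u v : ℕ, R = u • P + v • C
  act : ∀ σ ∈ A.decompositionSubgroup ℚ, ∀ a : ℕ, (∀ μ : Qbar, μ ^ p = 1 → σ μ = μ ^ a) →
    ∃ X Z c : ℕ, σ • C = X • C ∧ σ • P = Z • P + c • C ∧ (X : ZMod p) = a * Z ∧ (Z : ZMod p) ≠ 0

/-- The point off the component with the other sign. -/
def Lines.negP (S : Lines W p A) : Lines W p A where
  P := -S.P
  C := S.C
  tor_P := by rw [neg_nsmul, S.tor_P, neg_zero]
  tor_C := S.tor_C
  C_ne_zero := S.C_ne_zero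
  isE1_C := S.isE1_C
  not_isE0_P := fun h => S.not_isE0_P (by
    rw [map_neg] at h
    have := h.neg.1
    rwa [neg_neg] at this)
  span R hR := by
    obtain ⟨u, v, h⟩ := S.span (-R) (by rw [neg_nsmul, hR, neg_zero])
    refine ⟨u, v * (p - 1), ?_⟩
    rw [neg_nsmul, ← neg_nsmul_eq S.tor_C, ← neg_add, ← h, neg_neg]
  act σ hσ a ha := by
    obtain ⟨X, Z, c, hC, hP, hX, hZ⟩ := S.act σ hσ a ha
    refine ⟨X, Z, c * (p - 1), hC, ?_, hX, hZ⟩
    rw [← neg_nsmul_eq S.tor_C, neg_nsmul, ← neg_add, ← hP]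
    exact map_neg (Affine.Point.map σ.toAlgHom) S.P

variable (hA : A.LiesOverPrime p) (hΔ0 : W.Δ ≠ 0) (hΔ : (p : ℤ) ∣ W.Δ) (hc4 : ¬(p : ℤ) ∣ W.c₄)

include hA hΔ0 hΔ hc4

theorem nonempty_lines (hodd : Odd p) : Nonempty (Lines W p A) := by
  classical
  obtain ⟨b, hb⟩ := exists_basis_kernelLine hA hΔ0 hΔ hc4 hodd
  have hb0 : b 0 ∈ kernelLine W p A := hb ▸ Submodule.mem_span_singleton_self _
  have htor : ∀ x : Tate W p, p • Tate.at' 1 x = 0 := fun x => by
    have h := Tate.pow_nsmul_self x 1
    rwa [pow_one] at h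
  have hspan : ∀ R : Pts W, p • R = 0 →
      ∃ u v : ℕ, R = u • Tate.at' 1 (b 1) + v • Tate.at' 1 (b 0) := fun R hR => by
    obtain ⟨x, hx⟩ := Tate.exists_at' (p := p) hΔ0 (k := 1) (P := R) (by rwa [pow_one])
    exact ⟨_, _, by rw [← hx, at'_basis b x, add_comm]⟩
  refine ⟨⟨Tate.at' 1 (b 1), Tate.at' 1 (b 0), htor _, htor _, at'_one_basis_ne_zero b 0, hb0 1,
    fun h0 => ?_, hspan, fun σ hσ a ha => ?_⟩⟩
  · obtain ⟨R, hR, hR1⟩ := exists_not_isE1 hA hΔ0 hΔ hc4 hodd
    have hP1 := isE1_of_isE0_pow hA hΔ0 hΔ hc4 h0 (k := 1) (by rw [pow_one]; exact htor _)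
    obtain ⟨u, v, rfl⟩ := hspan R hR
    refine hR1 ?_
    rw [map_add, map_nsmul, map_nsmul]
    exact IsE1.add (isE1_nsmul u hP1) (isE1_nsmul v (hb0 1))
  obtain ⟨x, z, hx, hz, hxz⟩ := exists_characters hA hΔ0 hΔ hc4 hodd hσ
  have hc := hz (b 1)
  rw [hb, Submodule.mem_span_singleton] at hc
  obtain ⟨c, hc⟩ := hc
  have hX : ((PadicInt.toZModPow 1 x).val : ZMod p) =
      a * ((PadicInt.toZModPow 1 z).val : ZMod p) := by
    have h1 := hxz 1 a fun μ hμ => ha μ (by rwa [pow_one] at hμ)
    rw [pow_one, Ideal.mem_span_singleton] at h1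
    obtain ⟨t, ht⟩ := h1
    have h2 := congrArg PadicInt.toZMod ht
    rw [map_sub, map_mul, map_mul, map_natCast, map_natCast, ZMod.natCast_self, zero_mul,
      sub_eq_zero] at h2
    rw [toZModPow_one_val, toZModPow_one_val, h2]
  refine ⟨(PadicInt.toZModPow 1 x).val, (PadicInt.toZModPow 1 z).val,
    (PadicInt.toZModPow 1 c).val, ?_, ?_, hX, ?_⟩
  · rw [← Tate.at'_galois_smul, ← Tate.galEnd_apply, hx _ hb0, Tate.at'_smul_val]
  · rw [← Tate.at'_galois_smul, ← Tate.galEnd_apply, ← Tate.at'_smul_val, ← Tate.at'_smul_val,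
      ← map_add]
    exact congrArg (Tate.at' 1) (by rw [hc]; abel)
  · intro h0
    rw [h0, mul_zero] at hX
    have h3 : σ • Tate.at' 1 (b 0) = 0 := by
      rw [← Tate.at'_galois_smul, ← Tate.galEnd_apply, hx _ hb0, Tate.at'_smul_val,
        nsmul_eq_nsmul_of_cast (htor _) (b := 0) (by rw [hX, Nat.cast_zero]), zero_nsmul]
    refine at'_one_basis_ne_zero b 0 ?_
    rw [← inv_smul_smul σ (Tate.at' 1 (b 0)), h3]
    exact galois_smul_zero W σ⁻¹

omit hA hΔ0 hΔ hc4 in
/-- A point translated from the node model. -/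
theorem eq_some_of_translate {r t : A} {R : Pts W} {x y : Qbar}
    {h : (gen (translation r t • modelAt W A)).toAffine.Nonsingular x y}
    (e : translatePoint (modelAt W A) r t (.some x y h) = toGen W A R) :
    ∃ h', R = .some (x + (r : Qbar)) (y + (t : Qbar)) h' := by
  obtain ⟨h', e'⟩ := translatePoint_some (modelAt W A) r t h
  rw [e'] at e
  rcases R with _ | ⟨a, b, hab⟩
  · rw [← Affine.Point.zero_def, map_zero] at e
    exact absurd e (Affine.Point.some_ne_zero _)
  · rw [toGen_some] at e
    simp only [Affine.Point.some.injEq] at e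
    obtain ⟨rfl, rfl⟩ := e
    exact ⟨hab, rfl⟩

/-- The normalised basis: the point off the component has dominant `U`-coordinate, of integral
valuation. -/
theorem exists_lines_dominant (hodd : Odd p) (hpeu : p ∣ padicValInt p W.Δ) {r t : A}
    (M : NodeModel (translation r t • modelAt W A))
    (hv : A.valuation ((translation r t • modelAt W A).a₆ : Qbar) = A.valuation (W.Δ : Qbar)) :
    ∃ (S : Lines W p A) (x y : Qbar)
      (h : (gen (translation r t • modelAt W A)).toAffine.Nonsingular x y) (k : ℤ),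
      translatePoint (modelAt W A) r t (.some x y h) = toGen W A S.P ∧
      A.valuation x < 1 ∧ A.valuation (M.vcoord x y) ≤ A.valuation (M.uc x y) ∧
      A.valuation (M.uc x y) = A.valuation (p : Qbar) ^ k := by
  classical
  have key : ∀ (S : Lines W p A) (x y : Qbar)
      (h : (gen (translation r t • modelAt W A)).toAffine.Nonsingular x y),
      translatePoint (modelAt W A) r t (.some x y h) = toGen W A S.P → A.valuation x < 1 →
      A.valuation (M.vcoord x y) ≤ A.valuation (M.uc x y) →
      ∃ k : ℤ, A.valuation (M.uc x y) = A.valuation (p : Qbar) ^ k := by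
    intro S x y h e hx hle
    obtain ⟨j, hj⟩ := M.value_pow_eq (P := .some x y h) (n := p) (by
      rw [← map_nsmul]
      refine (congrArg M.componentHom ?_).trans (map_zero _)
      refine (translatePoint_bijective (modelAt W A) r t).1 ?_
      rw [map_nsmul, e, map_zero, ← map_nsmul, S.tor_P, map_zero])
    rw [M.value_some_off h hx, nodeValue, if_pos hle, hv,
      valuation_intCast_eq_pow hp.out hA hΔ0] at hj
    obtain ⟨i, hi⟩ := hpeu
    refine ⟨i * j, (pow_left_inj₀ zero_le zero_le hp.out.ne_zero).mp ?_⟩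
    rw [← hj, hi, ← zpow_natCast (A.valuation (p : Qbar)) (p * i), ← zpow_mul,
      ← zpow_natCast (A.valuation (p : Qbar) ^ ((i : ℤ) * j)), ← zpow_mul]
    push_cast
    ring_nf
  obtain ⟨S⟩ := nonempty_lines hA hΔ0 hΔ hc4 hodd
  obtain ⟨Q, hQ⟩ := (translatePoint_bijective (modelAt W A) r t).2 (toGen W A S.P)
  have hQ0 : ¬ IsE0 Q := fun h0 => S.not_isE0_P (hQ ▸ (isE0_translatePoint _ r t Q).mpr h0)
  obtain ⟨x, y, h, rfl, hx⟩ := M.exists_of_not_isE0 hQ0
  rcases le_total (A.valuation (M.vcoord x y)) (A.valuation (M.uc x y)) with hle | hle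
  · obtain ⟨k, hk⟩ := key S x y h hQ hx hle
    exact ⟨S, x, y, h, k, hQ, hx, hle, hk⟩
  · have hn := (Affine.nonsingular_neg x y).mpr h
    have hQ' : translatePoint (modelAt W A) r t (.some x _ hn) = toGen W A S.negP.P := by
      rw [show S.negP.P = -S.P from rfl, map_neg, ← hQ, ← map_neg, Affine.Point.neg_some]
    have hle' : A.valuation (M.vcoord x ((gen (translation r t • modelAt W A)).toAffine.negY x y)) ≤
        A.valuation (M.uc x ((gen (translation r t • modelAt W A)).toAffine.negY x y)) := by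
      rw [M.vcoord_negY, M.uc_negY, Valuation.map_neg, Valuation.map_neg]
      exact hle
    obtain ⟨k, hk⟩ := key S.negP x _ hn hQ' hx hle'
    exact ⟨S.negP, x, _, hn, k, hQ', hx, hle', hk⟩

omit hA hΔ0 hΔ hc4 in
/-- An element of the decomposition group fixing the slope fixes the component group. -/
theorem Lines.sign_eq_one (S : Lines W p A) {r t : A}
    (M : NodeModel (translation r t • modelAt W A)) {x y : Qbar}
    {h : (gen (translation r t • modelAt W A)).toAffine.Nonsingular x y}
    (hP : translatePoint (modelAt W A) r t (.some x y h) = toGen W A S.P)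
    {σ : GQ} (hσ : σ ∈ A.decompositionSubgroup ℚ) (hr : σ (r : Qbar) = r) (ht : σ (t : Qbar) = t)
    (hα : σ (M.α : Qbar) = M.α) (hβ : σ (M.β : Qbar) = M.β) {Z c : ℕ}
    (hσP : σ • S.P = Z • S.P + c • S.C) : (Z : ZMod p) = 1 := by
  classical
  let T := AddEquiv.ofBijective _ (translatePoint_bijective (modelAt W A) r t)
  obtain ⟨hab, hPe⟩ := eq_some_of_translate hP
  have hcomp : M.componentHom (T.symm (toGen W A (σ • S.P))) =
      M.componentHom (T.symm (toGen W A S.P)) := by
    obtain ⟨Q, hQ⟩ := T.surjective (toGen W A (σ • S.P))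
    rw [← hQ, ← hP, T.symm_apply_apply,
      show translatePoint (modelAt W A) r t (.some x y h) = T (.some x y h) from rfl,
      T.symm_apply_apply]
    rcases Q with _ | ⟨x', y', h'⟩
    · rw [← Affine.Point.zero_def, map_zero] at hQ
      have h0 : σ • S.P = 0 := (toGen W A).injective (hQ.symm.trans (map_zero _).symm)
      exfalso
      refine S.not_isE0_P ?_
      rw [← inv_smul_smul σ S.P, h0, galois_smul_zero, map_zero]
      exact isE0_zero
    · obtain ⟨hab', hPe'⟩ := eq_some_of_translate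
        (show translatePoint (modelAt W A) r t (.some x' y' h') = toGen W A (σ • S.P) from hQ)
      have e1 : σ • S.P = σ • (Affine.Point.some (x + (r : Qbar)) (y + (t : Qbar)) hab : Pts W) :=
        congrArg (σ • ·) hPe
      rw [hPe'] at e1
      change _ = Affine.Point.some (σ (x + (r : Qbar))) (σ (y + (t : Qbar))) _ at e1
      simp only [Affine.Point.some.injEq, map_add, hr, ht, add_left_inj] at e1
      obtain ⟨rfl, rfl⟩ := e1
      show NodeModel.cl _ (M.value (.some (σ x) (σ y) h')) = NodeModel.cl _ (M.value (.some x y h))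
      congr 1
      have hv := valuation_map_of_mem_decomposition A σ hσ
      simp only [NodeModel.value, hv]
      split_ifs with hx
      · have f1 : σ y - (M.α : Qbar) * σ x = σ (y - (M.α : Qbar) * x) := by
          rw [map_sub, map_mul, hα]
        have f2 : σ y - (M.β : Qbar) * σ x = σ (y - (M.β : Qbar) * x) := by
          rw [map_sub, map_mul, hβ]
        simp only [nodeValue, f1, f2, hv]
      · rfl
  set g := M.componentHom.comp (T.symm.toAddMonoidHom.comp (toGen W A).toAddMonoidHom)
  have hgP : g S.P ≠ 0 := fun h0 => S.not_isE0_P (by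
    rw [← T.apply_symm_apply (toGen W A S.P)]
    exact (isE0_translatePoint _ r t _).mpr (M.componentHom_eq_zero_iff.mp h0))
  have hgC : g S.C = 0 := by
    refine M.componentHom_eq_zero_iff.mpr ((isE0_translatePoint _ r t _).mp ?_)
    show IsE0 (T (T.symm (toGen W A S.C)))
    rw [T.apply_symm_apply]
    exact S.isE1_C.isE0
  have e : g (σ • S.P) = g S.P := hcomp
  rw [hσP, map_add, map_nsmul, map_nsmul, hgC, nsmul_zero, add_zero, ← one_nsmul (g S.P)] at e
  rw [← Nat.cast_one]
  refine cast_eq_cast_of_nsmul_eq ?_ hgP (b := 1) ?_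
  · rw [← map_nsmul, S.tor_P, map_zero]
  · simpa using e

end FermatAgent.BAD.TwoP
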