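import Fermat.Agent.BAD.TwoP.Kummer
import Fermat.Agent.BAD.TwoP.Descent
import Fermat.Agent.BAD.TwoP.TorsionLines
import Fermat.Agent.ECLocal.Frey
import Fermat.Agent.BAD.GaloisAut
import Fermat.Agent.BAD.AtP.Gal.Resolvent

/-!
# Peu ramifié torsion at a multiplicative place over `p`

If `p` divides the valuation of the discriminant, the automorphisms fixing
`ℚ_p(ζ_p, μ_(p ^ 2 - 1), (1 + p) ^ (1 / p))` fix all the points of order `p`.
-/

set_option autoImplicit false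

noncomputable section

open WeierstrassCurve IntermediateField
open scoped WeierstrassCurve.Affine Pointwise

namespace FermatAgent.BAD.TwoP

open FermatAgent.TateRep FermatAgent.ECLocal
open FermatAgent.ES (embC CPlace)
open CFT.Local (botF Gal' unramRoot res)

local notation "Qbar" => AlgebraicClosure ℚ
local notation "GQ" => AlgebraicClosure ℚ ≃ₐ[ℚ] AlgebraicClosure ℚ

variable {p : ℕ} [hp : Fact p.Prime] (Φ : ℂ ≃+* PadicAlgCl p)

/-- The embedding of `ℚ̄` attached to `Φ`. -/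
def embQ : Qbar →+* PadicAlgCl p := (Φ : ℂ →+* PadicAlgCl p).comp embC.toRingHom

theorem embQ_apply (x : Qbar) : embQ Φ x = Φ (embC x) := rfl

/-- The valuation of the place is read by the `p`-adic norm. -/
theorem val_le_iff_norm (x y : Qbar) :
    (CPlace.ofEquiv Φ).algVal.valuation x ≤ (CPlace.ofEquiv Φ).algVal.valuation y ↔
      ‖embQ Φ x‖ ≤ ‖embQ Φ y‖ := by
  rcases eq_or_ne y 0 with rfl | hy
  · rw [map_zero, map_zero, norm_zero, le_zero_iff, map_eq_zero, norm_le_zero_iff, map_eq_zero]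
  have hy' : 0 < (CPlace.ofEquiv Φ).algVal.valuation y :=
    zero_lt_iff.mpr ((Valuation.ne_zero_iff _).mpr hy)
  rw [← div_le_one₀ hy', ← map_div₀, ValuationSubring.valuation_le_one_iff, CPlace.mem_algVal,
    CPlace.ofEquiv_abv, ← embQ_apply, map_div₀, norm_div,
    div_le_one (norm_pos_iff.mpr ((map_ne_zero _).mpr hy))]

theorem val_lt_iff_norm (x y : Qbar) :
    (CPlace.ofEquiv Φ).algVal.valuation x < (CPlace.ofEquiv Φ).algVal.valuation y ↔
      ‖embQ Φ x‖ < ‖embQ Φ y‖ := by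
  rw [← not_le, ← not_le, val_le_iff_norm]

/-- Automorphisms of `PadicAlgCl p` restrict to `ℚ̄`. -/
theorem exists_restrict (s : Gal' p) : ∃ g : GQ, ∀ x, s (embQ Φ x) = embQ Φ (g x) := by
  let : Algebra Qbar (PadicAlgCl p) := (embQ Φ).toAlgebra
  have : IsScalarTower ℚ Qbar (PadicAlgCl p) :=
    IsScalarTower.of_algebraMap_eq' (Subsingleton.elim _ _)
  exact ⟨AlgHom.restrictNormal' (s : PadicAlgCl p →+* PadicAlgCl p).toRatAlgHom Qbar, fun x =>
    (AlgHom.restrictNormal_commutes (s : PadicAlgCl p →+* PadicAlgCl p).toRatAlgHom Qbar x).symm⟩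

/-- The restriction of a `p`-adic automorphism lies in the decomposition group. -/
theorem mem_decomposition_of_restrict {s : Gal' p} {g : GQ}
    (h : ∀ x, s (embQ Φ x) = embQ Φ (g x)) :
    g ∈ (CPlace.ofEquiv Φ).algVal.decompositionSubgroup ℚ := by
  show g • (CPlace.ofEquiv Φ).algVal = (CPlace.ofEquiv Φ).algVal
  ext x
  rw [ValuationSubring.mem_pointwise_smul_iff_inv_smul_mem, CPlace.mem_algVal, CPlace.mem_algVal,
    CPlace.ofEquiv_abv, CPlace.ofEquiv_abv, AlgEquiv.smul_def, ← embQ_apply, ← embQ_apply]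
  have hx : s (embQ Φ (g⁻¹ x)) = embQ Φ x := by
    rw [h, show g (g⁻¹ x) = x from g.apply_symm_apply x]
  rw [← hx, CFT.Local.norm_apply]

/-- The dominant coordinate in the node model, in `PadicAlgCl p`. -/
def ucoordPt {W : WeierstrassCurve ℤ} (ι : Qbar →+* PadicAlgCl p) (r t α : Qbar) :
    Pts W → PadicAlgCl p
  | .zero => 0
  | .some a b _ => ι ((b - t) - α * (a - r))

theorem ucoordPt_galois {W : WeierstrassCurve ℤ} {s : Gal' p} {g : GQ}
    (h : ∀ x, s (embQ Φ x) = embQ Φ (g x)) {r t α : Qbar} (hr : g r = r) (ht : g t = t)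
    (hα : g α = α) (R : Pts W) :
    ucoordPt (embQ Φ) r t α (g • R) = s (ucoordPt (embQ Φ) r t α R) := by
  rcases R with _ | ⟨a, b, hab⟩
  · exact (map_zero s).symm
  · refine Eq.trans ?_ (h _).symm
    refine congrArg (embQ Φ) ?_
    rw [map_sub g, map_mul g, map_sub g, map_sub g, hr, ht, hα]
    rfl

variable {W : WeierstrassCurve ℤ} (hodd : Odd p) (hΔ0 : W.Δ ≠ 0) (hΔ : (p : ℤ) ∣ W.Δ)
  (hc4 : ¬(p : ℤ) ∣ W.c₄)

/-- An automorphism fixing the quadratic unramified roots fixes the slopes. -/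
theorem slopes_eq_of_fix {r t : (CPlace.ofEquiv Φ).algVal}
    (M : NodeModel (translation r t • modelAt W (CPlace.ofEquiv Φ).algVal)) {s : Gal' p} {g : GQ}
    (h : ∀ x, s (embQ Φ x) = embQ Φ (g x))
    (hu : s (unramRoot (botF p) 2) = unramRoot (botF p) 2) :
    g (M.α : Qbar) = M.α ∧ g (M.β : Qbar) = M.β := by
  set ι := embQ Φ
  rcases slope_cases M (mem_decomposition_of_restrict Φ h) with hc | ⟨hαβ, -⟩
  · exact hc
  exfalso
  have hA1 : ∀ z : (CPlace.ofEquiv Φ).algVal, ‖ι (z : Qbar)‖ ≤ 1 := fun z => by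
    have := (CPlace.mem_algVal (P := CPlace.ofEquiv Φ)).mp z.2
    rwa [CPlace.ofEquiv_abv] at this
  have hrbot : ι (r : Qbar) ∈ botF p := by
    refine CFT.Local.exists_apply_eq_of_mem _ fun τ _ => ?_
    obtain ⟨gτ, hgτ⟩ := exists_restrict Φ τ
    rw [hgτ, (decomposition_translation_eq M (mem_decomposition_of_restrict Φ hgτ)).1]
  obtain ⟨r₀, hr₀⟩ := IntermediateField.mem_bot.mp hrbot
  -- the quadratic equation of the slope
  have e1 : (translation r t • modelAt W (CPlace.ofEquiv Φ).algVal).a₁ =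
      (W.a₁ : (CPlace.ofEquiv Φ).algVal) := by
    simp [translation, variableChange_def, modelAt]
  have e2 : (translation r t • modelAt W (CPlace.ofEquiv Φ).algVal).a₂ =
      (W.a₂ : (CPlace.ofEquiv Φ).algVal) + 3 * r := by
    simp [translation, variableChange_def, modelAt]
  have g1 := congrArg (ι.comp ((CPlace.ofEquiv Φ).algVal.subtype)) (M.a₁_eq.symm.trans e1)
  have g2 := congrArg (ι.comp ((CPlace.ofEquiv Φ).algVal.subtype)) (M.a₂_eq.symm.trans e2)
  simp only [RingHom.comp_apply, map_neg, map_add, map_mul, map_ofNat, map_intCast,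
    ValuationSubring.subtype_apply] at g1 g2
  set x := ι (M.α : Qbar)
  rw [← hr₀] at g2
  have hint := Algebra.IsIntegral.isIntegral (R := ℚ_[p]) x
  have : FiniteDimensional ℚ_[p] ℚ_[p]⟮x⟯ := adjoin.finiteDimensional hint
  have hroot : Polynomial.aeval x (Polynomial.X ^ 2 + Polynomial.C (W.a₁ : ℚ_[p]) * Polynomial.X -
      Polynomial.C ((W.a₂ : ℚ_[p]) + 3 * r₀)) = 0 := by
    simp only [map_sub, map_add, map_mul, map_pow, Polynomial.aeval_X, Polynomial.aeval_C,
      map_intCast, map_ofNat]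
    linear_combination (-x) * g1 + g2
  have hdeg : Module.finrank ℚ_[p] ℚ_[p]⟮x⟯ ≤ 2 := by
    rw [adjoin.finrank hint]
    refine (Polynomial.natDegree_le_of_dvd (minpoly.dvd ℚ_[p] x hroot) ?_).trans ?_
    · exact Polynomial.Monic.ne_zero (by monicity!)
    · compute_degree
  set f := CFT.Local.inertiaDeg ℚ_[p]⟮x⟯
  have hf : f ∣ 2 := by
    rw [CFT.Local.finrank_eq] at hdeg
    have h1 := CFT.Local.ramIdx_pos ℚ_[p]⟮x⟯
    have h2 : 0 < f := CFT.Local.inertiaDeg_pos _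
    have h3 : f ≤ 2 := (Nat.le_mul_of_pos_left f h1).trans hdeg
    interval_cases f <;> norm_num
  have hres := (CFT.Local.mem_resField_iff _).mp
    (CFT.Local.res_mem_resField ℚ_[p]⟮x⟯ (mem_adjoin_simple_self _ x) (hA1 M.α))
  rw [CFT.Local.resCard_eq] at hres
  change res x ^ p ^ f = res x at hres
  obtain ⟨z, hz1, hzs, hxz⟩ : ∃ z : PadicAlgCl p, ‖z‖ ≤ 1 ∧ s z = z ∧ ‖x - z‖ < 1 := by
    by_cases h0 : res x = 0
    · exact ⟨0, by simp, map_zero s, by simpa using (CFT.Local.res_eq_zero_iff (hA1 M.α)).mp h0⟩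
    rw [← Nat.sub_add_cancel (Nat.one_le_pow f p hp.out.pos), pow_succ,
      mul_eq_right₀ h0] at hres
    obtain ⟨d, hd⟩ := Nat.pow_sub_one_dvd_pow_sub_one p hf
    have h2 : res x ^ (p ^ 2 - 1) = 1 := by rw [hd, pow_mul, hres, one_pow]
    rw [← unramOrder_bot] at h2
    have : NeZero (CFT.Local.unramOrder (botF p) 2) :=
      ⟨(CFT.Local.unramOrder_pos (botF p) 2).ne'⟩
    obtain ⟨i, -, hi⟩ := (CFT.Local.res_unramRoot_spec (botF p) 2).eq_pow_of_pow_eq_one h2
    have hn : ‖unramRoot (botF p) 2 ^ i‖ ≤ 1 := by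
      rw [norm_pow, CFT.Local.norm_unramRoot, one_pow]
    refine ⟨unramRoot (botF p) 2 ^ i, hn, by rw [map_pow, hu],
      (CFT.Local.res_eq_res_iff (hA1 M.α) hn).mp ?_⟩
    rw [CFT.Local.res_pow (CFT.Local.norm_unramRoot _ 2).le, hi]
  have hlt : ‖s x - x‖ < 1 := by
    rw [show s x - x = s (x - z) - (x - z) by rw [map_sub, hzs]; ring, sub_eq_add_neg]
    exact lt_of_le_of_lt (IsUltrametricDist.norm_add_le_max _ _)
      (max_lt (by rwa [CFT.Local.norm_apply]) (by rwa [norm_neg]))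
  rw [h, hαβ, ← map_sub, ← norm_one (α := PadicAlgCl p), ← map_one ι, ← val_lt_iff_norm,
    M.val_sub', map_one] at hlt
  exact lt_irrefl _ hlt

/-- The dominant coordinate of a point given in the node model. -/
private theorem ucoordPt_of_translate {r t : (CPlace.ofEquiv Φ).algVal}
    (M : NodeModel (translation r t • modelAt W (CPlace.ofEquiv Φ).algVal)) {x y : Qbar}
    {h : (gen (translation r t • modelAt W (CPlace.ofEquiv Φ).algVal)).toAffine.Nonsingular x y}
    {R : Pts W} (e : translatePoint (modelAt W _) r t (.some x y h) = toGen W _ R) :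
    ucoordPt (embQ Φ) (r : Qbar) t M.α R = embQ Φ (M.uc x y) := by
  obtain ⟨h', rfl⟩ := eq_some_of_translate e
  show embQ Φ _ = embQ Φ _
  rw [add_sub_cancel_right, add_sub_cancel_right]

include hΔ0 hΔ in
/-- The translates by the kernel of reduction of the dominant point are far apart. -/
private theorem valuation_translate_gap_node {A : ValuationSubring Qbar} (hA : A.LiesOverPrime p)
    {r t : A} (M : NodeModel (translation r t • modelAt W A))
    (hv : A.valuation ((translation r t • modelAt W A).a₆ : Qbar) = A.valuation (W.Δ : Qbar))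
    (S : Lines W p A) {x y : Qbar}
    {hxy : (gen (translation r t • modelAt W A)).toAffine.Nonsingular x y}
    (hQ : translatePoint (modelAt W A) r t (.some x y hxy) = toGen W A S.P)
    (hx : A.valuation x < 1) (hdom : A.valuation (M.vcoord x y) ≤ A.valuation (M.uc x y))
    {i : ZMod p} (hi : i ≠ 0) :
    ∃ (x' y' : Qbar) (h' : (gen (translation r t • modelAt W A)).toAffine.Nonsingular x' y'),
      translatePoint (modelAt W A) r t (.some x' y' h') = toGen W A (S.P + i.val • S.C) ∧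
      A.valuation (p : Qbar) * A.valuation (M.uc x y) ^ (p - 1) ≤
        A.valuation (M.uc x' y' - M.uc x y) ^ (p - 1) := by
  let T := AddEquiv.ofBijective _ (translatePoint_bijective (modelAt W A) r t)
  set D := i.val • S.C with hDdef
  have hD0 : D ≠ 0 := fun h0 => hi (by
    rw [← ZMod.natCast_zmod_val i, ← Nat.cast_zero]
    exact cast_eq_cast_of_nsmul_eq S.tor_C S.C_ne_zero (by rwa [zero_nsmul]))
  have hDp : p • D = 0 := by rw [hDdef, smul_comm, S.tor_C, nsmul_zero]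
  have hD1 : IsE1 (toGen W A D) := by rw [hDdef, map_nsmul]; exact isE1_nsmul _ S.isE1_C
  obtain ⟨Q₀, hQ₀⟩ := T.surjective (toGen W A D)
  have hQ₀' : IsE1 Q₀ := (isE1_translatePoint _ r t Q₀).mp (hQ₀ ▸ hD1)
  have hQ₀p : p • Q₀ = 0 := T.injective (by
    rw [map_nsmul, hQ₀, ← map_nsmul, hDp, map_zero, map_zero])
  rcases Q₀ with _ | ⟨x₀, y₀, h₀⟩
  · rw [← Affine.Point.zero_def, map_zero] at hQ₀
    exact absurd ((toGen W A).injective (hQ₀.symm.trans (map_zero _).symm)) hD0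
  have hx₀ := (one_lt_valuation_iff A).mpr ((isE1_some_iff h₀).mp hQ₀')
  have hp1 : A.valuation (p : Qbar) < 1 := valuation_natCast_lt_one hA
  have hc : A.valuation ((translation r t • modelAt W A).a₆ : Qbar) ≤
      A.valuation (p : Qbar) := by
    rw [hv, valuation_intCast_eq_pow hp.out hA hΔ0]
    refine pow_le_of_le_one zero_le hp1.le fun h0 => ?_
    rcases (padicValInt_dvd_iff (p := p) 1 W.Δ).mp (by rwa [pow_one]) with h' | h'
    · exact hΔ0 h'
    · omega
  have hlow := M.le_pow_of_nsmul_eq_zero hp.out hp1 hc h₀ hx₀ hQ₀p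
  obtain ⟨x', y', h', hsum, hdiff⟩ := M.exists_add_off hxy h₀ hx hx₀ hdom
  refine ⟨x', y', h', ?_, ?_⟩
  · rw [← hsum, map_add, map_add, hQ]
    exact congrArg (_ + ·) hQ₀
  · rw [hdiff, mul_pow, mul_comm]
    exact mul_le_mul' le_rfl hlow

/-- The exponent on `ζ_p` governs the restriction on all roots of unity of order `p`. -/
theorem apply_root_of_restrict {τ : Gal' p} {g : GQ}
    (h : ∀ x, τ (embQ Φ x) = embQ Φ (g x)) {a : ℕ} (ha : τ (zetaP Φ) = zetaP Φ ^ a) {μ : Qbar}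
    (hμ : μ ^ p = 1) : g μ = μ ^ a := by
  have : NeZero p := ⟨hp.out.ne_zero⟩
  refine (embQ Φ).injective ?_
  obtain ⟨l, -, hl⟩ := (zetaP_spec Φ).eq_pow_of_pow_eq_one (ξ := embQ Φ μ)
    (by rw [← map_pow, hμ, map_one])
  rw [← h, map_pow, ← hl, map_pow, ha, ← pow_mul, ← pow_mul, mul_comm]

/-- **The Galois end.** An automorphism fixing the Kummer field fixes the `p`-torsion as soon as
a coordinate separates the translates of `P` by the multiples of `C`. -/
theorem fixes_torsion_of_coord (hp2 : p ≠ 2) {P C : Pts W} (hCp : p • C = 0)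
    (hC0 : C ≠ 0) (hspan : ∀ R : Pts W, p • R = 0 → ∃ u v : ℕ, R = u • P + v • C)
    (f : Pts W → PadicAlgCl p)
    (hf : ∀ τ ∈ (lField p (zetaP Φ) 2).fixingSubgroup, ∀ g : GQ,
      (∀ x, τ (embQ Φ x) = embQ Φ (g x)) → ∀ R, τ (f R) = f (g • R))
    (hfix : ∀ τ ∈ (lField p (zetaP Φ) 2).fixingSubgroup, ∀ g : GQ,
      (∀ x, τ (embQ Φ x) = embQ Φ (g x)) → ∃ c : ℕ, g • C = C ∧ g • P = P + c • C)
    (hact : ∀ (τ : Gal' p) (g : GQ), (∀ x, τ (embQ Φ x) = embQ Φ (g x)) → ∀ a : ℕ,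
      τ (zetaP Φ) = zetaP Φ ^ a → ∃ X Z d : ℕ, g • C = X • C ∧ g • P = Z • P + d • C ∧
        (X : ZMod p) = a * Z ∧ (Z : ZMod p) ≠ 0)
    {k : ℤ} (hnorm : ‖f P‖ = ‖(p : PadicAlgCl p)‖ ^ k)
    (hgap : ∀ i : ZMod p, i ≠ 0 →
      ‖(p : PadicAlgCl p)‖ * ‖f P‖ ^ (p - 1) ≤ ‖f (P + i.val • C) - f P‖ ^ (p - 1))
    {s : Gal' p} {g : GQ} (h : ∀ x, s (embQ Φ x) = embQ Φ (g x)) (hs : FixK Φ 2 s)
    {R : Pts W} (hR : p • R = 0) : g • R = R := by
  classical
  set ι := embQ Φ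
  set ζ := zetaP Φ
  have hζ : IsPrimitiveRoot ζ p := zetaP_spec Φ
  have : NeZero p := ⟨hp.out.ne_zero⟩
  choose G hG using exists_restrict Φ
  set L₀ := lField p ζ 2
  choose! c hC hP using fun τ hτ => hfix τ hτ (G τ) (hG τ)
  set U : ZMod p → PadicAlgCl p := fun i => f (P + i.val • C)
  have hU : ∀ τ ∈ L₀.fixingSubgroup, ∀ i, τ (U i) = U (i + (c τ : ZMod p)) := by
    intro τ hτ i
    show τ (f _) = f _
    rw [hf τ hτ _ (hG τ), galois_smul_add, galois_smul_nsmul, hC τ hτ, hP τ hτ, add_assoc,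
      ← add_nsmul]
    refine congrArg (fun D => f (P + D)) (nsmul_eq_nsmul_of_cast hCp ?_)
    rw [Nat.cast_add, ZMod.natCast_zmod_val, ZMod.natCast_zmod_val, add_comm]
  have hU0 : U 0 = f P := by
    show f _ = _
    rw [ZMod.val_zero, zero_nsmul, add_zero]
  have hT : ∀ τ : Gal' p, ∀ σ ∈ L₀.fixingSubgroup,
      ∃ a : ℕ, τ ζ = ζ ^ a ∧ (c σ : ZMod p) = a * (c (τ⁻¹ * σ * τ) : ZMod p) := by
    intro τ σ hσ
    obtain ⟨a, -, ha⟩ := hζ.eq_pow_of_pow_eq_one (ξ := τ ζ)
      (by rw [← map_pow, hζ.pow_eq_one, map_one])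
    have hσ' : τ⁻¹ * σ * τ ∈ L₀.fixingSubgroup := conj_mem_fixingSubgroup hζ τ hσ
    refine ⟨a, ha.symm, ?_⟩
    obtain ⟨X, Z, d, hCγ, hPγ, hXZ, hZ⟩ := hact τ (G τ) (hG τ) a ha.symm
    have hcomp : G σ * G τ = G τ * G (τ⁻¹ * σ * τ) := AlgEquiv.ext fun z => ι.injective (by
      rw [AlgEquiv.mul_apply, AlgEquiv.mul_apply, ← hG, ← hG, ← hG, ← hG]
      show σ (τ (ι z)) = τ (τ⁻¹ (σ (τ (ι z))))
      rw [show τ (τ⁻¹ (σ (τ (ι z)))) = σ (τ (ι z)) from τ.apply_symm_apply _])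
    have e := congrArg (· • P) hcomp
    simp only [mul_smul] at e
    rw [hPγ, hP _ hσ', galois_smul_add, galois_smul_add, galois_smul_nsmul, galois_smul_nsmul,
      galois_smul_nsmul, hP σ hσ, hC σ hσ, hPγ, hCγ, nsmul_add, ← mul_nsmul', ← mul_nsmul',
      add_right_comm] at e
    have h1 := cast_eq_cast_of_nsmul_eq hCp hC0 (add_left_cancel e)
    push_cast at h1
    rw [hXZ] at h1
    refine mul_left_cancel₀ hZ ?_
    linear_combination h1
  have hsL : s ∈ L₀.fixingSubgroup :=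
    (IntermediateField.mem_fixingSubgroup_iff _ s).mpr fun z hz => hs z (lField_le_kField 2 hz)
  have hc0 := AtP.shift_eq_zero hζ hp2 U (fun τ => (c τ : ZMod p)) hU hT
    (by rw [hU0]; exact hnorm) (by rw [hU0]; exact hgap) hsL (hs _ (wRoot_mem_kField 2))
  obtain rfl : g = G s := AlgEquiv.ext fun z => ι.injective ((h z).symm.trans (hG s z))
  have hPs := hP s hsL
  rw [nsmul_eq_nsmul_of_cast hCp (b := 0) (by rw [hc0, Nat.cast_zero]), zero_nsmul,
    add_zero] at hPs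
  obtain ⟨u, v, rfl⟩ := hspan R hR
  rw [galois_smul_add, galois_smul_nsmul, galois_smul_nsmul, hC s hsL, hPs]

include hodd hΔ0 hΔ hc4 in
/-- **Peu ramifié torsion is fixed over `ℚ_p(ζ_p, μ_(p ^ 2 - 1), (1 + p) ^ (1 / p))`.** -/
theorem fixes_torsion (hpeu : p ∣ padicValInt p W.Δ) {s : Gal' p} {g : GQ}
    (h : ∀ x, s (Φ (embC x)) = Φ (embC (g x))) (hs : FixK Φ 2 s) {R : Pts W} (hR : p • R = 0) :
    g • R = R := by
  classical
  set A := (CPlace.ofEquiv Φ).algVal
  set ι := embQ Φ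
  set ζ := zetaP Φ
  have hp2 : p ≠ 2 := fun h2 => by rw [h2] at hodd; exact absurd hodd (by decide)
  have hA : A.LiesOverPrime p := (CPlace.ofEquiv Φ).algVal_liesOverPrime
  obtain ⟨r, t, ⟨M⟩, hv⟩ := exists_nodeModel_at W A hp.out hA hΔ0 hΔ hc4
  obtain ⟨S, x, y, hxy, k, hQ, hx, hdom, hk⟩ :=
    exists_lines_dominant hA hΔ0 hΔ hc4 hodd hpeu M hv
  have hmove : ∀ τ ∈ (lField p ζ 2).fixingSubgroup, ∀ g : GQ, (∀ x, τ (ι x) = ι (g x)) →
      g (r : Qbar) = r ∧ g (t : Qbar) = t ∧ g (M.α : Qbar) = M.α ∧ g (M.β : Qbar) = M.β :=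
    fun τ hτ g hg => by
      obtain ⟨hα, hβ⟩ := slopes_eq_of_fix Φ M hg
        ((IntermediateField.mem_fixingSubgroup_iff _ τ).mp hτ _ (unramRoot_mem_lField 2))
      obtain ⟨hr, ht⟩ := decomposition_translation_eq M (mem_decomposition_of_restrict Φ hg)
      exact ⟨hr, ht, hα, hβ⟩
  refine fixes_torsion_of_coord Φ hp2 S.tor_C S.C_ne_zero S.span
    (ucoordPt ι (r : Qbar) (t : Qbar) (M.α : Qbar))
    (fun τ hτ g hg R => (ucoordPt_galois Φ hg (hmove τ hτ g hg).1 (hmove τ hτ g hg).2.1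
      (hmove τ hτ g hg).2.2.1 R).symm)
    (fun τ hτ g hg => ?_)
    (fun τ g hg a ha => S.act g (mem_decomposition_of_restrict Φ hg) a fun μ =>
      apply_root_of_restrict Φ hg ha)
    (k := k) ?_ (fun i hi => ?_) h hs hR
  · obtain ⟨hr, ht, hα, hβ⟩ := hmove τ hτ g hg
    have hD := mem_decomposition_of_restrict Φ hg
    obtain ⟨X, Z, c, hC, hP, hXZ, -⟩ := S.act _ hD 1 fun μ => apply_root_of_restrict Φ hg (by
      rw [pow_one]
      exact (IntermediateField.mem_fixingSubgroup_iff _ τ).mp hτ _ (zeta_mem_lField 2))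
    have hZ := S.sign_eq_one M hQ hD hr ht hα hβ hP
    rw [hZ, Nat.cast_one, one_mul] at hXZ
    refine ⟨c, ?_, ?_⟩
    · rw [hC, nsmul_eq_nsmul_of_cast S.tor_C (b := 1) (by rw [hXZ, Nat.cast_one]), one_nsmul]
    · rw [hP, nsmul_eq_nsmul_of_cast S.tor_P (b := 1) (by rw [hZ, Nat.cast_one]), one_nsmul]
  · rw [ucoordPt_of_translate Φ M hQ, ← map_natCast ι p, ← norm_zpow, ← map_zpow₀]
    exact le_antisymm ((val_le_iff_norm Φ _ _).mp (by rw [map_zpow₀]; exact hk.le))
      ((val_le_iff_norm Φ _ _).mp (by rw [map_zpow₀]; exact hk.ge))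
  · obtain ⟨x', y', h', e, hle⟩ := valuation_translate_gap_node hΔ0 hΔ hA M hv S hQ hx hdom hi
    rw [ucoordPt_of_translate Φ M e, ucoordPt_of_translate Φ M hQ, ← map_sub, ← norm_pow,
      ← norm_pow, ← norm_mul, ← map_pow, ← map_pow, ← map_natCast ι p, ← map_mul,
      ← val_le_iff_norm, map_mul, map_pow, map_pow]
    exact hle

/-- For a Frey curve `p` divides the valuation of the discriminant at `p`. -/
theorem frey_dvd_padicValInt (P : FreyPackage) [Fact P.p.Prime] :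
    P.p ∣ padicValInt P.p P.freyCurveInt.Δ := by
  have hp2 : P.p ≠ 2 := by have := P.hp5; omega
  have e := congrArg (padicValInt P.p) (frey_Δ P)
  rw [padicValInt.mul (by norm_num) (freyCurveInt_Δ_ne_zero P)] at e
  have h256 : padicValInt P.p (256 : ℤ) = 0 := by
    refine padicValInt.eq_zero_of_not_dvd fun h => hp2 ?_
    have h2 : P.p ∣ 2 ^ 8 := by norm_num; exact_mod_cast h
    exact (Nat.prime_dvd_prime_iff_eq P.pp Nat.prime_two).mp (P.pp.dvd_of_dvd_pow h2)
  rw [h256, zero_add, padicValInt, padicValInt, Int.natAbs_pow,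
    padicValNat.pow] at e
  exact ⟨2 * padicValNat P.p (P.a * P.b * P.c).natAbs, by rw [padicValInt, e]; ring⟩

end FermatAgent.BAD.TwoP
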