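import Fermat.Agent.BAD.Trace

/-!
# The Atkin operator on functions of level `Γ₀(q) ∩ Γ(2)`

It is an involution there, and sends `hasseFun` to `q ^ 2 / hasseFun`.
-/

set_option autoImplicit false

open UpperHalfPlane CongruenceSubgroup
open scoped MatrixGroups

noncomputable section

namespace FermatAgent.BAD.TwoP

open FermatAgent.ES (act AuxLevel auxW zetaC)

variable {q M : ℕ} [Fact q.Prime] [NeZero M] (hM : M.Coprime q) (hq2 : q ≠ 2)

include hq2 in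
theorem cast_q_two : (q : ZMod 2) = 1 := by
  obtain ⟨r, hr⟩ := (Fact.out : q.Prime).odd_of_ne_two hq2
  rw [hr]
  push_cast
  rw [show (2 : ZMod 2) = 0 from rfl, zero_mul, zero_add]

theorem auxW_smul (haux : AuxLevel M 2) {δ : SL(2, ℤ)} (hδ : δ ∈ Gamma 2) (τ : ℍ) :
    auxW haux (δ • τ) = UpperHalfPlane.denom (δ : GL (Fin 2) ℝ) τ ^ 2 * auxW haux τ := by
  rw [auxW, ES.dif_smul, ES.refA, ES.refB, ← ES.embVec_vmul, ← ES.embVec_vmul,
    ES.vmul_of_mem hδ, ES.vmul_of_mem hδ]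

include hq2 in
theorem exists_atkin_conj (hM : M.Coprime q) (h2 : 2 ∣ M) :
    ∃ γ' : SL(2, ℤ), γ' ∈ Gamma 2 ∧
      γ' 1 0 = atkinMat hM 1 0 ∧
      (q : ℤ) * γ' 1 1 = atkinMat hM 1 1 - ((0 : ℕ) : ℤ) * atkinMat hM 1 0 ∧
      atkinMat hM * γ' ∈ lam q 2 ∧
      ∀ τ, dilPt q (atkinMat hM • τ) = γ' • ctrPt q 0 τ := by
  obtain ⟨h00, h11⟩ := atkinMat_dvd hM
  obtain ⟨γ', e00, e01, e10, e11, h⟩ := exists_ctr_conj q (atkinMat hM) 0 (by simpa using h11)
  have hA : atkinMat hM ∈ Gamma 2 := ES.gamma_le_of_dvd h2 (atkinMat_mem hM)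
  obtain ⟨a, b, c, d⟩ := Gamma_mem.mp hA
  have hmem : γ' ∈ Gamma 2 := by
    refine Gamma_mem.mpr ⟨?_, ?_, ?_, ?_⟩
    · rw [e00]; push_cast; rw [a, cast_q_two hq2, one_mul]
    · rw [e01]; push_cast; rw [b, zero_mul, sub_zero]
    · rw [e10, c]
    · have h1 := congrArg (Int.cast : ℤ → ZMod 2) e11
      push_cast at h1
      rwa [cast_q_two hq2, one_mul, zero_mul, sub_zero, d] at h1
  exact ⟨γ', hmem, e10, e11, ⟨atkin_type_zero hM ⟨_, e00⟩, mul_mem hA hmem⟩, h⟩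

include hq2 in
/-- The Atkin operator is an involution on invariant functions. -/
theorem atkin_atkin_of_inv (h2 : 2 ∣ M) {f : ℍ → ℂ}
    (hinv : ∀ δ ∈ lam q 2, act δ f = f) : atkin hM (atkin hM f) = f := by
  obtain ⟨γ', -, -, -, hmem, h⟩ := exists_atkin_conj hq2 hM h2
  refine Eq.trans ?_ (hinv _ hmem)
  funext τ
  rw [atkin_apply_pt, atkin_apply_pt, h, ES.act_apply, mul_smul]
  congr 3
  refine UpperHalfPlane.ext ?_
  rw [coe_ctrPt, coe_dilPt, Nat.cast_zero, add_zero,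
    mul_div_cancel_left₀ _ (Nat.cast_ne_zero.mpr (NeZero.ne q))]

include hq2 in
/-- The Atkin operator preserves invariance. -/
theorem act_atkin_of_inv (h2 : 2 ∣ M) {f : ℍ → ℂ} (hinv : ∀ δ ∈ lam q 2, act δ f = f)
    {γ : SL(2, ℤ)} (hγ : γ ∈ lam q 2) : act γ (atkin hM f) = atkin hM f :=
  act_atkin_of_lam hM (ES.gamma_le_of_dvd h2 (atkinMat_mem hM))
    ((Nat.coprime_primes Nat.prime_two Fact.out).mpr (Ne.symm hq2)) hinv hγ

variable (haux : AuxLevel M 2)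

include hq2 in
/-- The Hasse function is invariant under `Γ₀(q) ∩ Γ(2)`. -/
theorem hasseFun_inv {γ : SL(2, ℤ)} (hγ : γ ∈ lam q 2) :
    act γ (hasseFun haux q) = hasseFun haux q := by
  obtain ⟨γ', h00, h01, h10, h11, h⟩ := exists_dil_conj q γ (mem_Gamma0_dvd.mp hγ.1)
  have hcop : (2 : ℕ).Coprime q :=
    (Nat.coprime_primes Nat.prime_two Fact.out).mpr (Ne.symm hq2)
  funext τ
  rw [ES.act_apply, hasseFun, h, auxW_smul haux hγ.2,
    auxW_smul haux (dil_conj_mem hcop hγ.2 h00 h01 h10 h11), denom_dil_conj h10 h11,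
    mul_div_mul_left _ _ (pow_ne_zero 2 (UpperHalfPlane.denom_ne_zero _ τ))]
  rfl

include hq2 in
/-- The product of the Hasse function and its Atkin transform is `q ^ 2`. -/
theorem hasseFun_mul_atkin :
    hasseFun haux q * atkin hM (hasseFun haux q) = fun _ => (q : ℂ) ^ 2 := by
  obtain ⟨γ', hγ', e10, e11, -, h⟩ := exists_atkin_conj hq2 hM haux.dvd
  funext τ
  have hA : atkinMat hM ∈ Gamma 2 := ES.gamma_le_of_dvd haux.dvd (atkinMat_mem hM)
  have hz : ctrPt q 0 (dilPt q τ) = τ := UpperHalfPlane.ext (by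
    rw [coe_ctrPt, coe_dilPt, Nat.cast_zero, add_zero,
      mul_div_cancel_left₀ _ (Nat.cast_ne_zero.mpr (NeZero.ne q))])
  rw [Pi.mul_apply, atkin_apply_pt, hasseFun, hasseFun, h, auxW_smul haux hA,
    auxW_smul haux hγ', ← denom_ctr_conj (q := q) e10 e11 (dilPt q τ), hz]
  have h1 := UpperHalfPlane.denom_ne_zero (γ' : GL (Fin 2) ℝ) τ
  have h2 := ES.auxW_ne_zero haux τ
  have h3 := ES.auxW_ne_zero haux (dilPt q τ)
  field_simp

end FermatAgent.BAD.TwoP
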