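import Fermat.Agent.BAD.TwoP.Places
import Fermat.Agent.BAD.TwoP.Atkin

/-!
# Residual polynomials on the component at `∞`

Residual polynomials with good roots; at a crossing point the value of `t` is a root of that of
the Hasse function, and a function dominated at all values is a constant multiple on the
component at `∞`.
-/

set_option autoImplicit false

open UpperHalfPlane CongruenceSubgroup IsLocalRing
open scoped MatrixGroups

noncomputable section

namespace FermatAgent.BAD.TwoP

open FermatAgent.ES (act zetaC AuxLevel CPlace GoodRoot GoodPoint liftSer)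
open Polynomial (rootMultiplicity)

/-! ### Multiplicities -/

section Mult

variable {k : Type} [Field k]

theorem rootMultiplicity_mul_cbar_pow {F : Polynomial k} (hF : F ≠ 0) (i : ℕ) (a : k) :
    rootMultiplicity a (F * cbar k ^ i) =
      rootMultiplicity a F + i * rootMultiplicity a (cbar k) := by
  induction i with
  | zero => simp
  | succ i ih =>
    rw [pow_succ, ← mul_assoc, Polynomial.rootMultiplicity_mul
      (mul_ne_zero (mul_ne_zero hF (pow_ne_zero i cbar_ne_zero)) cbar_ne_zero), ih]
    ring

theorem natDegree_mul_cbar_pow {F : Polynomial k} (hF : F ≠ 0) (i : ℕ) :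
    (F * cbar k ^ i).natDegree = F.natDegree + i * 3 := by
  rw [Polynomial.natDegree_mul hF (pow_ne_zero i cbar_ne_zero), Polynomial.natDegree_pow,
    natDegree_cbar]

theorem splits_cbar : (cbar k).Splits := by
  rw [cbar, ← map_one (Polynomial.C (R := k))]
  exact (Polynomial.Splits.X.mul (Polynomial.Splits.X_sub_C 1)).mul Polynomial.Splits.X

/-- Away from `0` and `1` the multiplicity is that of the numerator. -/
theorem mlt_eq_of_ne {F : Polynomial k} (e : ℕ) {a : k} (h0 : a ≠ 0) (h1 : a ≠ 1) :
    mlt e F a = rootMultiplicity a F := by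
  rw [mlt, rootMultiplicity_cbar_of_ne h0 h1]
  simp

end Mult

variable {q M : ℕ} [hqp : Fact q.Prime] [NeZero M] {O : Subring ℂ} (haux : AuxLevel M 2)
  (hA : GoodRoot M O (zetaC M)) {P : CPlace q} (hO : O ≤ P.ring) (hO' : P.IsCDVR O)
  (hM : M.Coprime q) (hζ : zetaC (q * M) ∈ O) (hq2 : q ≠ 2) (T : TauData q M P O)
  [IsDiscreteValuationRing O]

/-! ### Congruences on the component at `∞` -/

theorem map_cusp_eq_cbar :
    ((Polynomial.X * (Polynomial.X - 1) * Polynomial.X : Polynomial O)).map (residue O) =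
      cbar (ResidueField O) := by
  simp [cbar]

include hO' in
/-- Constants with zero residue vanish on the component at `∞`. -/
theorem constL_mem_pInf {r : O} (hr : residue O r = 0) : (constL r : LRing q M O) ∈ pInf hO := by
  obtain ⟨ϖ, hϖ⟩ := IsDiscreteValuationRing.exists_irreducible O
  rw [residue_eq_zero_iff, hϖ.maximalIdeal_eq, Ideal.mem_span_singleton] at hr
  obtain ⟨w, rfl⟩ := hr
  rw [map_mul]
  exact Ideal.mul_mem_right _ _ (constL_unif_mem hO hO' hϖ _)

include hO' in
theorem eval_mem_pInf {F : Polynomial O} (hF : F.map (residue O) = 0) :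
    (F.eval₂ constL (tL haux hA) : LRing q M O) ∈ pInf hO := by
  rw [Polynomial.eval₂_eq_sum_range]
  refine Ideal.sum_mem _ fun i _ => Ideal.mul_mem_right _ _ (constL_mem_pInf hO hO' ?_)
  rw [← Polynomial.coeff_map, hF, Polynomial.coeff_zero]

include hO' in
/-- A function with zero residual polynomial vanishes on the component at `∞`. -/
theorem HasPoly.mem_pInf {f : LRing q M O} {e : ℕ} {F : Polynomial O}
    (h : HasPoly haux hA hO f e F) (hF : F.map (residue O) = 0) : f ∈ pInf hO :=
  (Ideal.mul_unit_mem_iff_mem _ ((isUnit_cuspL haux hA).pow e)).mp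
    (by simpa using add_mem h (eval_mem_pInf haux hA hO hO' hF))

include hO' in
/-- A function with unit coefficients has a non-zero residual polynomial. -/
theorem HasPoly.ne_zero {f : LRing q M O} {e : ℕ} {F : Polynomial O}
    (h : HasPoly haux hA hO f e F) (hf : UnitInf P f) : F.map (residue O) ≠ 0 :=
  fun hF => hf.not_mem hO (one_mem (Gamma0 q)) (h.mem_pInf haux hA hO hO' hF)

omit [IsDiscreteValuationRing ↥O] in
/-- The polynomial of a constant multiple. -/
theorem HasPoly.const_mul {f : LRing q M O} {e : ℕ} {F : Polynomial O}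
    (h : HasPoly haux hA hO f e F) (u : O) :
    HasPoly haux hA hO (constL u * f) e (Polynomial.C u * F) := by
  show _ - _ ∈ _
  rw [Polynomial.eval₂_mul, Polynomial.eval₂_C, mul_assoc, ← mul_sub]
  exact Ideal.mul_mem_left _ _ h

/-- The residual polynomial of `f` splits and its roots other than `0` and `1` lift to good
points fixed by the automorphism. -/
structure GoodPoly (f : LRing q M O) (e : ℕ) (F : Polynomial O) : Prop where
  hasPoly : HasPoly haux hA hO f e F
  ne_zero : F.map (residue O) ≠ 0
  splits : (F.map (residue O)).Splits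
  good : ∀ a, (F.map (residue O)).IsRoot a → a ≠ 0 → a ≠ 1 → GoodRes haux T a

/-- A unit multiple keeps a good polynomial. -/
theorem GoodPoly.const_mul {f : LRing q M O} {e : ℕ} {F : Polynomial O}
    (h : GoodPoly haux hA hO T f e F) (u : Oˣ) :
    GoodPoly haux hA hO T (constL (u : O) * f) e (Polynomial.C (u : O) * F) := by
  have hu : residue O (u : O) ≠ 0 := (u.isUnit.map _).ne_zero
  have e1 : (Polynomial.C (u : O) * F).map (residue O) =
      Polynomial.C (residue O (u : O)) * F.map (residue O) := by
    rw [Polynomial.map_mul, Polynomial.map_C]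
  refine ⟨h.hasPoly.const_mul haux hA hO _, ?_, ?_, fun a ha => h.good a ?_⟩
  · rw [e1]; exact mul_ne_zero (by simp [hu]) h.ne_zero
  · rw [e1]; exact h.splits.C_mul _
  · rw [e1, Polynomial.IsRoot, Polynomial.eval_mul, Polynomial.eval_C] at ha
    exact (mul_eq_zero.mp ha).resolve_left hu

/-- Some unit coefficient at `∞` is fixed by the automorphism. -/
def FixedUnit (y : LRing q M O) : Prop :=
  ∃ n : ℤ, IsUnit ((infSer 1 (one_mem (Gamma0 q)) y).coeff n) ∧
    T.D.σO ((infSer 1 (one_mem (Gamma0 q)) y).coeff n) = (infSer 1 (one_mem (Gamma0 q)) y).coeff n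

section

omit [IsDiscreteValuationRing ↥O]

/-! ### Crossing points -/

/-- The inverse Atkin operator maps the component at `∞` to the other one. -/
theorem atkinSymm_mem_pZero {f : LRing q M O} (hf : f ∈ pInf hO) :
    (atkinEquiv hM hζ).symm f ∈ pZero hO :=
  mem_pZero_of_atkinL hO hM hζ
    (show atkinEquiv hM hζ ((atkinEquiv hM hζ).symm f) ∈ pInf hO by simpa using hf)

/-- The inverse Atkin operator maps the other component to that at `∞`. -/
theorem atkinSymm_mem_pInf {f : LRing q M O} (hf : f ∈ pZero hO) :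
    (atkinEquiv hM hζ).symm f ∈ pInf hO :=
  mem_pInf_of_atkinL hO hM hζ
    (show atkinEquiv hM hζ ((atkinEquiv hM hζ).symm f) ∈ pZero hO by simpa using hf)

include hq2 haux in
/-- The Atkin operator is an involution on invariant functions. -/
theorem atkinEquiv_sq {f : LRing q M O} (h : ∀ δ ∈ lam q 2, act δ (f : ℍ → ℂ) = f) :
    atkinEquiv hM hζ (atkinEquiv hM hζ f) = f :=
  Subtype.ext (atkin_atkin_of_inv hM hq2 haux.dvd h)

end

include hO' in
/-- At a crossing point the value of `t` on either component is a root for `hasseFun`. -/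
theorem exists_value {eh : ℕ} {Fh : Polynomial O}
    (hh : GoodPoly haux hA hO T (hasseL haux hM hA hζ) eh Fh) {𝔫 : Ideal (LRing q M O)}
    [h𝔫 : 𝔫.IsMaximal] (hinf : pInf hO ≤ 𝔫) (hzero : pZero hO ≤ 𝔫) :
    ∃ (τ1 : ℍ) (hg' : GoodPoint haux O τ1), raiseL M (tPar haux hA hg') ∈ 𝔫 ∧
      T.D.σO ⟨_, hg'.val.mem⟩ = ⟨_, hg'.val.mem⟩ := by
  set k := ResidueField O
  have hroot : ∃ a : k, (Fh.map (residue O)).IsRoot a ∧
      ∀ c : O, residue O c = a → tL haux hA - constL c ∈ 𝔫 := by
    set φ : LRing q M O →+* LRing q M O ⧸ 𝔫 := Ideal.Quotient.mk 𝔫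
    have : IsDomain (LRing q M O ⧸ 𝔫) := Ideal.Quotient.isDomain 𝔫
    have hker : ∀ r : O, residue O r = 0 → φ (constL r) = 0 := fun r hr =>
      Ideal.Quotient.eq_zero_iff_mem.mpr (hinf (constL_mem_pInf hO hO' hr))
    set ψ : k →+* LRing q M O ⧸ 𝔫 := Ideal.Quotient.lift (maximalIdeal O) (φ.comp constL)
      fun r hr => hker r ((residue_eq_zero_iff r).mpr hr)
    have hψ : φ.comp constL = ψ.comp (residue O) := RingHom.ext fun r => rfl
    have hψinj : Function.Injective ψ := RingHom.injective ψ
    have h0 : (Fh.map (residue O)).eval₂ ψ (φ (tL haux hA)) = 0 := by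
      rw [Polynomial.eval₂_map, ← hψ, ← Polynomial.hom_eval₂]
      refine Ideal.Quotient.eq_zero_iff_mem.mpr ?_
      have h1 := hinf hh.hasPoly
      have h2 := Ideal.mul_mem_right (cuspL haux hA ^ eh) 𝔫
        (hzero (hasseL_mem_pZero haux hM hA hζ hO))
      simpa using sub_mem h2 h1
    rw [hh.splits.eq_prod_roots, Polynomial.eval₂_mul, Polynomial.eval₂_C,
      Polynomial.eval₂_multiset_prod, mul_eq_zero, Multiset.map_map, Multiset.prod_eq_zero_iff]
      at h0
    obtain ⟨a, ha, hza⟩ := Multiset.mem_map.mp (h0.resolve_left fun h => hh.ne_zero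
      (Polynomial.leadingCoeff_eq_zero.mp ((map_eq_zero_iff ψ hψinj).mp h)))
    refine ⟨a, (Polynomial.mem_roots'.mp ha).2, fun c hc => Ideal.Quotient.eq_zero_iff_mem.mp ?_⟩
    simp only [Function.comp_apply, Polynomial.eval₂_sub, Polynomial.eval₂_X,
      Polynomial.eval₂_C] at hza
    show φ (tL haux hA - constL c) = 0
    rw [map_sub, show φ (constL c) = ψ a by rw [← hc]; rfl, hza]
  obtain ⟨a, ha, hta⟩ := hroot
  have h0 : a ≠ 0 := fun h => h𝔫.ne_top
    (Ideal.eq_top_of_isUnit_mem _ (by simpa using hta 0 (by rw [h, map_zero]))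
      (isUnit_tL haux hA))
  have h1 : a ≠ 1 := fun h => h𝔫.ne_top
    (Ideal.eq_top_of_isUnit_mem _ (by simpa using hta 1 (by rw [h, map_one]))
      (isUnit_tL_sub_one haux hA))
  obtain ⟨τ1, hg', hres, hfix⟩ := hh.good a ha h0 h1
  refine ⟨τ1, hg', ?_, hfix⟩
  have h2 := hta _ hres
  rwa [tL_eq_const_add haux hA hg', add_sub_cancel_left] at h2

include hO' in
/-- Rational functions dominated at all values are constant multiples. -/
theorem exists_const_of_mlt {d a : LRing q M O} {e e' : ℕ} {F G : Polynomial O}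
    (hF : GoodPoly haux hA hO T d e F) (hG : HasPoly haux hA hO a e' G)
    (hG0 : G.map (residue O) ≠ 0)
    (htop : dgr e' (G.map (residue O)) ≤ dgr e (F.map (residue O)))
    (hle : ∀ x, mlt e (F.map (residue O)) x ≤ mlt e' (G.map (residue O)) x) :
    ∃ c : O, a - constL c * d ∈ pInf hO := by
  classical
  set A := F.map (residue O) * cbar (ResidueField O) ^ e'
  set B := G.map (residue O) * cbar (ResidueField O) ^ e
  have hA0 : A ≠ 0 := mul_ne_zero hF.ne_zero (pow_ne_zero _ cbar_ne_zero)
  have hB0 : B ≠ 0 := mul_ne_zero hG0 (pow_ne_zero _ cbar_ne_zero)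
  obtain ⟨R, hR⟩ : A ∣ B := by
    refine (hF.splits.mul (splits_cbar.pow e')).dvd_of_roots_le_roots hA0
      (Multiset.le_iff_count.mpr fun x => ?_)
    rw [Polynomial.count_roots, Polynomial.count_roots, rootMultiplicity_mul_cbar_pow hF.ne_zero,
      rootMultiplicity_mul_cbar_pow hG0]
    have h := hle x
    rw [mlt, mlt] at h
    zify
    linarith
  have hR0 : R ≠ 0 := fun h => hB0 (by rw [hR, h, mul_zero])
  have hdeg : R.natDegree = 0 := by
    have h1 := congrArg Polynomial.natDegree hR
    rw [Polynomial.natDegree_mul hA0 hR0, natDegree_mul_cbar_pow hF.ne_zero,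
      natDegree_mul_cbar_pow hG0] at h1
    rw [dgr, dgr] at htop
    omega
  rw [Polynomial.eq_C_of_natDegree_eq_zero hdeg] at hR
  obtain ⟨c, hc⟩ := residue_surjective (R := O) (R.coeff 0)
  refine ⟨c, (Ideal.mul_unit_mem_iff_mem _ ((isUnit_cuspL haux hA).pow (e + e'))).mp ?_⟩
  have hy' := hF.hasPoly.raise haux hA hO e'
  have hz' := hG.raise haux hA hO e
  set cp : Polynomial O := Polynomial.X * (Polynomial.X - 1) * Polynomial.X
  have hev : ((G * cp ^ e - Polynomial.C c * (F * cp ^ e')).eval₂ constL (tL haux hA) :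
      LRing q M O) ∈ pInf hO := by
    refine eval_mem_pInf haux hA hO hO' ?_
    rw [Polynomial.map_sub, Polynomial.map_mul, Polynomial.map_mul, Polynomial.map_mul,
      Polynomial.map_pow, Polynomial.map_pow, Polynomial.map_C, map_cusp_eq_cbar, hc]
    show B - Polynomial.C (R.coeff 0) * A = 0
    rw [hR, mul_comm, sub_self]
  rw [Polynomial.eval₂_sub, Polynomial.eval₂_mul _ _ (p := Polynomial.C c), Polynomial.eval₂_C]
    at hev
  have h := add_mem (sub_mem hz' (Ideal.mul_mem_left _ (constL c) hy')) hev
  convert h using 1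
  rw [add_comm e' e]
  ring

/-! ### The residue field -/

omit [NeZero M] in
include T in
/-- `q` is zero in the residue field. -/
theorem residue_natCast_q : (q : ResidueField O) = 0 := by
  rw [← map_natCast (residue O), residue_eq_zero_iff, T.q_eq]
  exact Ideal.mul_mem_left _ _ (Ideal.pow_mem_of_mem _
    ((mem_maximalIdeal _).mpr T.irr.not_isUnit) _
    (Nat.mul_pos hqp.out.pos (Nat.sub_pos_of_lt hqp.out.one_lt)))

omit [NeZero M] in
include T in
/-- The residue field has characteristic `q`. -/
theorem charP_residueField : CharP (ResidueField O) q :=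
  (CharP.charP_iff_prime_eq_zero hqp.out).mpr (residue_natCast_q T)

end FermatAgent.BAD.TwoP
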