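import Mathlib.RingTheory.AdicCompletion.Algebra
import Mathlib.RingTheory.LocalRing.MaximalIdeal.Basic

/-!
# Units of a ring surjecting onto a completion

An element of a local ring mapping onto a completion is a unit exactly when the element below it
is prime to the maximal ideal.
-/

set_option autoImplicit false

noncomputable section

namespace FermatAgent.BAD.TwoP

/-- What lies over an element is a unit just when the element is prime to `𝔪`. -/
theorem isUnit_iff_notMem_of_surjective_completion {A N : Type*} [CommRing A] [CommRing N]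
    [IsLocalRing N] {𝔪 : Ideal A} (h𝔪 : 𝔪.IsMaximal) (Φ : N →+* AdicCompletion 𝔪 A)
    (hsurj : Function.Surjective Φ)
    {z : A} {zN : N} (hzN : Φ zN = algebraMap A (AdicCompletion 𝔪 A) z) :
    IsUnit zN ↔ z ∉ 𝔪 := by
  have : Nontrivial (A ⧸ 𝔪 ^ 1) := by
    rw [pow_one]; exact Ideal.Quotient.nontrivial_iff.mpr h𝔪.ne_top
  have hev : ∀ w, AdicCompletion.evalₐ 𝔪 1 (algebraMap A (AdicCompletion 𝔪 A) w) =
      Ideal.Quotient.mk (𝔪 ^ 1) w := fun w => (AdicCompletion.evalₐ 𝔪 1).commutes w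
  set χ : N →+* A ⧸ 𝔪 ^ 1 := (AdicCompletion.evalₐ 𝔪 1).toRingHom.comp Φ
  have hχ : χ zN = Ideal.Quotient.mk (𝔪 ^ 1) z := (congrArg _ hzN).trans (hev z)
  refine ⟨fun hu hz => (hu.map χ).ne_zero (hχ.trans (Ideal.Quotient.eq_zero_iff_mem.mpr
    (by rwa [pow_one]))), fun hz => ?_⟩
  by_contra hnu
  have : (RingHom.ker χ).IsMaximal := by
    let : Field (A ⧸ 𝔪 ^ 1) := @Ideal.Quotient.field _ _ (𝔪 ^ 1) (by rwa [pow_one])
    refine RingHom.ker_isMaximal_of_surjective χ fun w => ?_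
    obtain ⟨w', rfl⟩ := Ideal.Quotient.mk_surjective w
    obtain ⟨zw, hzw⟩ := hsurj (algebraMap A (AdicCompletion 𝔪 A) w')
    exact ⟨zw, by show AdicCompletion.evalₐ 𝔪 1 (Φ zw) = _; rw [hzw, hev]⟩
  have hmem : zN ∈ RingHom.ker χ := by
    rw [IsLocalRing.eq_maximalIdeal ‹(RingHom.ker χ).IsMaximal›]
    exact (IsLocalRing.mem_maximalIdeal _).mpr hnu
  rw [RingHom.mem_ker, hχ, Ideal.Quotient.eq_zero_iff_mem, pow_one] at hmem
  exact hz hmem

end FermatAgent.BAD.TwoP
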