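import Fermat.Agent.BAD.TwoP.Tau
import Fermat.Agent.BAD.Diamond.Complete
import Fermat.Agent.BAD.TwoP.ComplUnit

/-!
# The chart at a crossing point: the tame cover of the node

Both components are branches of `O⟦x, y⟧ / (x y - π)` and the automorphism becomes `twist`.
-/

set_option autoImplicit false

open UpperHalfPlane CongruenceSubgroup IsLocalRing
open scoped MatrixGroups

noncomputable section

namespace FermatAgent.BAD.TwoP

open FermatAgent.ES (BSub BRing zetaC AuxLevel CPlace GoodRoot GoodPoint)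

variable {q M : ℕ} [hqp : Fact q.Prime] [NeZero M] {O : Subring ℂ} (haux : AuxLevel M 2)
  (hA : GoodRoot M O (zetaC M)) {P : CPlace q} (hO : O ≤ P.ring) (hO' : P.IsCDVR O)
  (hM : M.Coprime q) (hζ : zetaC (q * M) ∈ O) (hqm : q ≠ 2) (D : TauData q M P O)

include hO hO' hqm in
/-- The chart at a crossing point, with the units. -/
theorem exists_nodeChartU [IsDiscreteValuationRing O] [IsNoetherianRing (LRing q M O)]
    {𝔪 : Ideal (LRing q M O)} [h𝔪 : 𝔪.IsMaximal]
    (hinf : pInf hO ≤ 𝔪) (hzero : pZero hO ≤ 𝔪) {τ0 τ1 : ℍ}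
    (hg : GoodPoint haux O τ0) (ht : raiseL M (tPar haux hA hg) ∈ 𝔪)
    (hg' : GoodPoint haux O τ1)
    (ht' : (atkinEquiv hM hζ).symm (raiseL M (tPar haux hA hg')) ∈ 𝔪) :
    ∃ F : LRing q M O →+* Node O D.π,
      (∀ r, F (constL r) = nodeC D.π r) ∧
      (∀ g, F (D.D.conjL haux g) = twist D.map_π (F g)) ∧
      (∀ f ∈ pInf hO, branch (unif_mem D.irr) 0 (F f) = 0) ∧
      (∀ f ∈ pInf hO, branch (unif_mem D.irr) 1 (F ((atkinEquiv hM hζ).symm f)) = 0) ∧
      (∃ w, IsUnit w ∧ branch (unif_mem D.irr) 0 (F (raiseL M (tPar haux hA hg))) =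
        PowerSeries.X ^ (q * (q - 1)) * w) ∧
      (∀ f ∉ 𝔪, IsUnit (F f)) ∧
      ∃ w, IsUnit w ∧
        branch (unif_mem D.irr) 1 (F ((atkinEquiv hM hζ).symm (raiseL M (tPar haux hA hg')))) =
          PowerSeries.X ^ (q * (q - 1)) * w := by
  set σ := D.D.σO
  set τ := D.D.conjL haux with hτdef
  set ϖ := D.π
  have hϖ : Irreducible ϖ := D.irr
  have hτC : ∀ r, τ (constL r) = constL (σ r) := fun r => D.D.conjL_constL haux r
  obtain ⟨hτX, hτY⟩ := D.D.conjL_kXL haux hM hA hζ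
  have hτ : ∀ z, constL ϖ ∣ τ z - z := fun z => D.D.unif_dvd_conjL_sub haux hM hO hO' hϖ z
  have := hO'.complete
  set X := kXL haux hM hA hζ
  set Y := kYL haux hM hA hζ
  set G := nodeG haux hM hA hζ hO hO' hqm
  set e := atkinEquiv (O := O) hM hζ
  set f := algebraMap (LRing q M O) (AdicCompletion 𝔪 (LRing q M O))
  obtain ⟨eΦ, hΦC, hΦX, hΦY, he0, he1, -, -, hequiv'⟩ :=
    exists_node_iso haux hA hO hO' hϖ hM hζ hqm hinf hzero hg ht hg' ht' hτC hτX hτY hτ
  have hq := natCast_q_mem_maximal (O := O) hO'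
  have hhu : σ (q : O) = ![(1 : O), 1] 0 * ![(1 : O), 1] 1 * (q : O) ^ 1 := by simp
  have hequiv := hequiv' hhu
  have hG : G ∉ 𝔪 := nodeG_not_mem haux hM hA hζ hO hO' hqm hg hinf hzero ht
  obtain ⟨u, hu, hXu⟩ := exists_kXL_param haux hM hA hζ hO hO' hqm hg hinf hzero ht
  set 𝔫 := 𝔪.comap (e.symm : LRing q M O →+* LRing q M O)
  have : 𝔫.IsMaximal := Ideal.comap_isMaximal_of_surjective _ e.symm.surjective
  obtain ⟨hinf', hzero'⟩ := le_comap_atkinEquiv_symm hO hM hζ hinf hzero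
  obtain ⟨u', hu', hXu'⟩ := exists_kXL_param haux hM hA hζ hO hO' hqm hg' hinf' hzero' ht'
  -- the tame covering
  have : NeZero (q * (q - 1)) :=
    ⟨Nat.mul_ne_zero hqp.out.ne_zero (by have := hqp.out.two_le; omega)⟩
  set a : Fin 2 → O := ![1, (D.a1 : O)]
  have hca : (RingHom.id O) (q : O) = a 0 * a 1 * ϖ ^ (q * (q - 1)) := by
    simpa [a] using D.q_eq
  have hua : ∀ i, IsUnit (a i) := fun i => by fin_cases i <;> simp [a]
  set T := nodeDiag hca
  set F : LRing q M O →+* Node O ϖ := T.comp (eΦ.symm.toRingHom.comp f)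
  have hF : ∀ {z b}, eΦ z = f b → F b = T z := fun h => congrArg T (eΦ.symm_apply_eq.mpr h.symm)
  have heF : ∀ b, eΦ (eΦ.symm (f b)) = f b := fun b => eΦ.apply_symm_apply _
  have hFC : ∀ r, F (constL r) = nodeC ϖ r := fun r => by
    rw [hF (hΦC r), nodeDiag_nodeC]; rfl
  set b := branch (unif_mem hϖ)
  -- units outside `𝔪`
  have hFu : ∀ {z}, z ∉ 𝔪 → IsUnit (F z) := fun {z} hz => by
    have := node_isLocalRing hq
    exact ((isUnit_iff_notMem_of_surjective_completion h𝔪 eΦ.toRingHom eΦ.surjective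
      (heF z)).mpr hz).map T
  have hFX : ∀ i, b i (F X) =
      if i = 0 then PowerSeries.X ^ (q * (q - 1)) else 0 := fun i => by
    rw [hF hΦX, nodeDiag_nodeVar, map_mul, map_pow, branch_nodeC, branch_nodeVar]
    fin_cases i <;> simp [a, zero_pow (NeZero.ne (q * (q - 1)))]
  obtain ⟨GN, hGN⟩ := eΦ.surjective (f G)
  have hFY : F Y = -(F G * (nodeC ϖ (a 1) * nodeVar ϖ 1 ^ (q * (q - 1)))) := by
    have h1 : eΦ (-(GN * nodeVar (q : O) 1)) = f Y := by
      rw [map_neg, map_mul, hGN, hΦY, neg_neg]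
    rw [hF h1, map_neg, map_mul, ← hF hGN, nodeDiag_nodeVar]
  have hker : ∀ i z, branch hq i (eΦ.symm (f z)) = 0 → b i (F z) = 0 := fun i z h => by
    show branch _ i (T (eΦ.symm (f z))) = 0
    rw [branch_nodeDiag hq (unif_mem hϖ) hca (fun _ => rfl), h]
    simp
  have hker0 : pInf hO ≤ RingHom.ker ((b 0).comp F) := fun g hg =>
    hker 0 g (he0 _ g (heF g) hg)
  have hker1 : pZero hO ≤ RingHom.ker ((b 1).comp F) := fun g hg =>
    hker 1 g (he1 _ g (heF g) hg)
  have hsymm : ∀ g ∈ pInf hO, (atkinEquiv hM hζ).symm g ∈ pZero hO := fun g hgm =>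
    mem_pZero_of_atkinL hO hM hζ (by
      show e (e.symm g) ∈ pInf hO
      rwa [e.apply_symm_apply])
  refine ⟨F, hFC, fun g => ?_, fun g hgm => hker0 hgm, fun g hgm => hker1 (hsymm g hgm), ?_,
    fun g hgm => hFu hgm, ?_⟩
  · obtain ⟨gN, hgN⟩ := eΦ.surjective (f g)
    rw [hF hgN, hF (hequiv gN g hgN)]
    have hb : σ (q : O) = a 0 * a 1 * ϖ ^ (q * (q - 1)) := by
      rw [map_natCast]; simpa using hca
    have hρ : (RingHom.id O).comp σ = σ := RingHom.id_comp σ
    show T (nodeDiag hhu gN) = twist D.map_π (T gN)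
    rw [nodeDiag_nodeDiag hca hhu hb (mul_one _) hρ (fun i => by fin_cases i <;> simp [a]), twist,
      nodeDiag_nodeDiag (twist_cond D.map_π) hca hb (one_mul _) (RingHom.comp_id σ) fun i => ?_]
    fin_cases i
    · simp [a]
    · have h1 : σ (q : O) = (q : O) := map_natCast σ q
      rw [D.q_eq, map_mul, map_pow, D.map_π, mul_pow] at h1
      refine mul_right_cancel₀ (pow_ne_zero (q * (q - 1)) hϖ.ne_zero) (Eq.trans ?_ h1)
      simp [a]
      ring
  · refine ⟨↑(((hFu hu).map (b 0)).unit⁻¹), Units.isUnit _, ?_⟩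
    refine (Units.eq_mul_inv_iff_mul_eq _).mpr ?_
    have h1 : b 0 (F (X - raiseL M (tPar haux hA hg * u))) = 0 := hker0 hXu
    rw [map_sub, map_sub, sub_eq_zero, hFX, if_pos rfl, map_mul, map_mul, map_mul] at h1
    exact h1.symm
  · have hu'' : e.symm (raiseL M u') ∉ 𝔪 := fun h => hu' h
    refine ⟨-(b 1 (F G) * PowerSeries.C (residue O (a 1))) *
      ↑(((hFu hu'').map (b 1)).unit⁻¹), ?_, ?_⟩
    · exact (((hFu hG).map (b 1)).mul (((hua 1).map (residue O)).map _)).neg.mul (Units.isUnit _)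
    · have h1 : b 1 (F (e.symm (X - raiseL M (tPar haux hA hg' * u')))) = 0 :=
        hker1 (hsymm _ hXu')
      rw [map_sub, show e.symm X = Y from by
          rw [RingEquiv.symm_apply_eq, atkinEquiv_kYL haux hA hM hζ hqm],
        map_sub, map_sub, sub_eq_zero, hFY, map_neg, map_mul, map_mul, map_pow, branch_nodeC,
        branch_nodeVar, if_pos rfl, map_mul, map_mul, map_mul, map_mul] at h1
      rw [← mul_assoc]
      refine (Units.eq_mul_inv_iff_mul_eq _).mpr ?_
      rw [IsUnit.unit_spec]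
      linear_combination -h1

end FermatAgent.BAD.TwoP
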