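import Fermat.Agent.BAD.TwoP.Step

/-!
# Normalisation over the coefficient ring

Factorisations at a node, and roots of multiples of functions vanishing on both components.
-/

set_option autoImplicit false

open UpperHalfPlane CongruenceSubgroup IsLocalRing
open scoped MatrixGroups

noncomputable section

namespace FermatAgent.BAD.TwoP

open FermatAgent.ES (act zetaC AuxLevel CPlace GoodRoot GoodPoint)

/-- A product equal to a unit times powers of the two variables splits along the branches. -/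
theorem node_split {O : Type} [CommRing O] [IsDomain O] [IsDiscreteValuationRing O]
    {π : O} (hπ : Irreducible π) {A B u : Node O π}
    (hu : IsUnit u) {a b : ℕ} (h : A * B = u * (nodeVar π 0 ^ a * nodeVar π 1 ^ b))
    (hA : branch (unif_mem hπ) 0 A ≠ 0) (hB : branch (unif_mem hπ) 1 B ≠ 0) :
    ∃ R R' : Node O π, IsUnit R ∧ IsUnit R' ∧ A = nodeVar π 0 ^ a * R ∧
      B = nodeVar π 1 ^ b * R' := by
  have := node_isDomain hπ
  set x := nodeVar π 0
  set x' := nodeVar π 1
  obtain ⟨R, hR⟩ : x ^ a ∣ A :=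
    (prime_nodeVar_zero hπ).pow_dvd_of_dvd_mul_right a (b := B)
      (fun ⟨v, hv⟩ => hB (by rw [hv, map_mul, branch_nodeVar, if_neg (by decide), zero_mul]))
      ⟨u * x' ^ b, by rw [h]; ring⟩
  have hR2 : R * B = u * x' ^ b := by
    refine mul_left_cancel₀ (pow_ne_zero a (prime_nodeVar_zero hπ).ne_zero) ?_
    linear_combination h - B * hR
  obtain ⟨R', hR'⟩ : x' ^ b ∣ B :=
    (prime_nodeVar_one hπ).pow_dvd_of_dvd_mul_left b (a := R)
      (fun ⟨v, hv⟩ => hA (by
        rw [hR, hv, map_mul, map_mul, branch_nodeVar (i := 0) (j := 1), if_neg (by decide),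
          zero_mul, mul_zero]))
      ⟨u, by rw [hR2]; ring⟩
  have e : R * R' = u := mul_left_cancel₀ (pow_ne_zero b (prime_nodeVar_one hπ).ne_zero) (by
    linear_combination hR2 - R * hR')
  exact ⟨R, R', isUnit_of_mul_isUnit_left (e.symm ▸ hu), isUnit_of_mul_isUnit_right (e.symm ▸ hu),
    hR, hR'⟩

variable {q M : ℕ} [hqp : Fact q.Prime] [NeZero M] {O : Subring ℂ} (haux : AuxLevel M 2)
  (hA : GoodRoot M O (zetaC M)) {P : CPlace q} (hO : O ≤ P.ring) (hO' : P.IsCDVR O)
  (hM : M.Coprime q) (hζ : zetaC (q * M) ∈ O) (hq2 : q ≠ 2) (T : TauData q M P O)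

include hq2 in
/-- The Hasse function is invariant under `Γ₀(q) ∩ Γ(2)`. -/
theorem act_hasseL {δ : SL(2, ℤ)} (hδ : δ ∈ lam q 2) :
    act δ ((hasseL haux hM hA hζ : LRing q M O) : ℍ → ℂ) =
      (hasseL haux hM hA hζ : LRing q M O) :=
  hasseFun_inv hq2 haux hδ

include hq2 in
/-- The product of the Hasse function and its Atkin transform is the constant `q ^ 2`. -/
theorem hasseL_mul_atkin :
    hasseL haux hM hA hζ * atkinEquiv hM hζ (hasseL haux hM hA hζ) =
      (constL ((q : O) ^ 2) : LRing q M O) := Subtype.ext (by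
  show hasseFun haux q * atkin hM (hasseFun haux q) = _
  rw [hasseFun_mul_atkin hM hq2 haux]
  funext τ
  show (q : ℂ) ^ 2 = (((q : O) ^ 2 : O) : ℂ)
  simp)

theorem mem_pInf_of_pow {f : LRing q M O} {k : ℕ} (hf : f ^ k ∈ pInf hO) : f ∈ pInf hO := by
  intro γ hγ
  have h := hf γ hγ
  rw [map_pow] at h
  exact P.serLT_of_not_unitCoeff (fun n => hO (serIn_serAt γ f n)) fun hu =>
    h.not_unitCoeff (CPlace.UnitCoeff.pow (fun n => hO (serIn_serAt γ f n)) hu k)

theorem mem_pZero_of_pow {f : LRing q M O} {k : ℕ} (hf : f ^ k ∈ pZero hO) : f ∈ pZero hO := by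
  intro γ hγ
  have h := hf γ hγ
  rw [map_pow] at h
  exact P.serLT_of_not_unitCoeff (fun n => hO (serIn_serAt γ f n)) fun hu =>
    h.not_unitCoeff (CPlace.UnitCoeff.pow (fun n => hO (serIn_serAt γ f n)) hu k)

theorem constL_mul_cancel {π : O} (hπ : π ≠ 0) {f g : LRing q M O}
    (h : constL π * f = constL π * g) : f = g := Subtype.ext (funext fun τ => by
  have h1 := congrFun (congrArg Subtype.val h) τ
  simp only [Subring.coe_mul, Pi.mul_apply, coe_constL] at h1
  exact mul_left_cancel₀ (fun e => hπ (Subtype.ext e)) h1)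

include hO' in
/-- A root of a multiple of a function vanishing on both components. -/
theorem exists_root_of_pow {π : O} (hπ : Irreducible π) {Z : LRing q M O}
    (h0 : Z ∈ pInf hO) (h1 : Z ∈ pZero hO) (N : ℕ) :
    ∀ {t : LRing q M O}, t ^ q = constL π ^ (q * N) * Z →
      ∃ z : LRing q M O, t = constL π ^ N * z ∧ z ∈ pInf hO ∧ z ∈ pZero hO := by
  induction N with
  | zero =>
    intro t ht
    rw [mul_zero, pow_zero, one_mul] at ht
    refine ⟨t, by rw [pow_zero, one_mul], ?_, ?_⟩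
    · exact mem_pInf_of_pow hO (ht ▸ h0)
    · exact mem_pZero_of_pow hO (ht ▸ h1)
  | succ N ih =>
    intro t ht
    have hi : t ∈ pInf hO := mem_pInf_of_pow hO (ht ▸ Ideal.mul_mem_left _ _ h0)
    have hz : t ∈ pZero hO := mem_pZero_of_pow hO (ht ▸ Ideal.mul_mem_left _ _ h1)
    obtain ⟨t1, rfl⟩ := dvd_of_mem_pInf_pZero hO hO' hπ hi hz
    obtain ⟨z, hz', hzi, hzz⟩ := @ih t1 (constL_mul_cancel (π := π ^ q)
      (pow_ne_zero q hπ.ne_zero) (by
        rw [map_pow, ← mul_pow, ht, ← mul_assoc, ← pow_add]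
        congr 2
        ring))
    exact ⟨z, by rw [hz', pow_succ']; ring, hzi, hzz⟩

end FermatAgent.BAD.TwoP
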