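import Fermat.Agent.BAD.TwoP.Tau
import Fermat.Agent.BAD.NonSpecial
import Fermat.Agent.BAD.TwoP.ComplUnit

/-!
# The chart at a point of the component at `∞` alone
-/

set_option autoImplicit false

open UpperHalfPlane CongruenceSubgroup IsLocalRing
open scoped MatrixGroups

noncomputable section

namespace FermatAgent.BAD.TwoP

open FermatAgent.ES (BSub BRing zetaC AuxLevel CPlace GoodRoot GoodPoint)

variable {q M : ℕ} [hqp : Fact q.Prime] [NeZero M] {O : Subring ℂ} (haux : AuxLevel M 2)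
  (hA : GoodRoot M O (zetaC M)) {P : CPlace q} (hO : O ≤ P.ring) (hO' : P.IsCDVR O)
  (hM : M.Coprime q) (hζ : zetaC (q * M) ∈ O) (hqm : q ≠ 2) (D : TauData q M P O)

include hO hO' hM hζ hqm in
/-- The chart at a point of the component at `∞` alone, with the units. -/
theorem exists_smoothChartU [IsDiscreteValuationRing O] [IsNoetherianRing (LRing q M O)]
    {𝔪 : Ideal (LRing q M O)} [h𝔪 : 𝔪.IsMaximal]
    (hinf : pInf hO ≤ 𝔪) (hzero : ¬ pZero hO ≤ 𝔪) {τ0 : ℍ}
    (hg : GoodPoint haux O τ0) (ht : raiseL M (tPar haux hA hg) ∈ 𝔪)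
    (hfix : D.D.σO ⟨_, hg.val.mem⟩ = ⟨_, hg.val.mem⟩) :
    ∃ F : LRing q M O →+* PowerSeries O,
      (∀ r, F (constL r) = PowerSeries.C r) ∧
      F (raiseL M (tPar haux hA hg)) = PowerSeries.X ∧
      (∀ g, F (D.D.conjL haux g) = PowerSeries.map D.D.σO (F g)) ∧
      (∀ f ∉ 𝔪, IsUnit (F f)) ∧
      ∀ g ∈ pInf hO, psRes (F g) = 0 := by
  have hϖ : Irreducible D.π := D.irr
  set ϖ := D.π
  have := hO'.complete
  have hϖm : (constL ϖ : LRing q M O) ∈ 𝔪 := hinf (constL_unif_mem hO hO' hϖ _)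
  set T : LRing q M O := raiseL M (tPar haux hA hg) with hTdef
  have hT : T ∈ 𝔪 := ht
  obtain ⟨z, hz, hzm⟩ := SetLike.not_le_iff_exists.mp hzero
  obtain ⟨hgen, hTreg, -⟩ := param_inf haux hA hO hO' hϖ hM hζ hqm hinf hzero hg ht
  obtain ⟨e, heC, heX, hsemi, he⟩ := exists_param_iso hO' hϖ hϖm hT hgen hTreg
  set f := algebraMap (LRing q M O) (AdicCompletion 𝔪 (LRing q M O))
  set F : LRing q M O →+* PowerSeries O := e.symm.toRingHom.comp f
  have heF : ∀ z, e (F z) = f z := fun z => e.apply_symm_apply (f z)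
  refine ⟨F, fun r => e.injective ((heF _).trans (heC r).symm),
    e.injective ((heF _).trans heX.symm), fun g => ?_,
    fun g hgm => (isUnit_iff_notMem_of_surjective_completion h𝔪 e.toRingHom e.surjective
      (heF g)).mpr hgm,
    fun g hgm => (he _ g (heF g)).mpr ⟨z, hzm, dvd_of_mem_pInf_pZero hO hO' hϖ
      (Ideal.mul_mem_left _ _ hgm) (Ideal.mul_mem_right _ _ hz)⟩⟩
  · set τ := D.D.conjL haux
    have hτT : τ T = T := by
      have htR : τ (tL haux hA) = tL haux hA := by
        refine D.D.conjL_eq_self haux ?_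
        rw [tL, serAt_raiseL]
        refine (liftSer_expandL _ _).trans (congrArg _ ?_)
        rw [coe_tRing]
        exact D.D.mapSer_lexp_ratio hM (ES.adm_num haux (ES.one_le haux)).left
          (ES.adm_num haux (ES.one_le haux)).right (ES.adm_den haux (ES.one_le haux))
      have hca : (raiseL M ⟨_, ES.const_mem_BRing hg.val.mem⟩ : LRing q M O) =
          constL ⟨_, hg.val.mem⟩ := rfl
      rw [hTdef, tPar, map_sub, map_sub, hca, show τ (constL ⟨_, hg.val.mem⟩) = _ from
        D.D.conjL_constL haux _, hfix, show raiseL M (tRing haux hA) = tL haux hA from rfl, htR]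
    have hτm : ∀ x ∈ 𝔪, τ x ∈ 𝔪 := fun x hx => by
      obtain ⟨w, hw⟩ := D.D.unif_dvd_conjL_sub haux hM hO hO' hϖ x
      rw [eq_add_of_sub_eq hw]
      exact add_mem (𝔪.mul_mem_right _ hϖm) hx
    exact e.injective ((heF _).trans
      (hsemi (fun r => D.D.conjL_constL haux r) hτm hτT _ _ (heF g)).symm)

end FermatAgent.BAD.TwoP
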