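import Fermat.Agent.BAD.TwoP.InfSer
import Mathlib.Algebra.Polynomial.Splits

/-!
# Invariant functions on the component at `∞` as rational functions of the Hauptmodul

At a place `β` where `t - a` has order `d`, the order of an invariant function is `d` times a
multiplicity of its rational function.
-/

set_option autoImplicit false

open UpperHalfPlane CongruenceSubgroup IsLocalRing
open scoped MatrixGroups

noncomputable section

namespace FermatAgent.BAD.TwoP

open FermatAgent.ES (BSub BRing SerIn lexp lexp_eq hasLExp_lexp act zetaC AuxLevel CPlace GoodRoot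
  liftSer haupt cuspPoly polFun polOrd LeadUnit cuspRep cuspSer)
open Polynomial (rootMultiplicity)

/-! ### Orders -/

section Order

variable {k : Type} [Field k]

/-- The order of a power of a Laurent series. -/
theorem order_pow' {u : LaurentSeries k} (hu : u ≠ 0) (n : ℕ) :
    (u ^ n).order = n * u.order := by
  induction n with
  | zero => simp
  | succ n ih => rw [pow_succ, HahnSeries.order_mul (pow_ne_zero n hu) hu, ih]; push_cast; ring

/-- The order from the first non-zero coefficient. -/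
theorem order_eq_of_coeff {u : LaurentSeries k} {d : ℤ} (h1 : u.coeff d ≠ 0)
    (h2 : ∀ n < d, u.coeff n = 0) : u ≠ 0 ∧ u.order = d := by
  have hu : u ≠ 0 := fun h => h1 (by rw [h, HahnSeries.coeff_zero])
  refine ⟨hu, le_antisymm (HahnSeries.order_le_of_coeff_ne_zero h1) ?_⟩
  by_contra h
  exact HahnSeries.coeff_order_eq_zero.not.mpr hu (h2 _ (not_le.mp h))

/-- The order of a polynomial at a point. -/
theorem order_eval_pos {u : LaurentSeries k} (hu : u ≠ 0) (hpos : 0 < u.order) {F : Polynomial k}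
    (hF : F ≠ 0) (a : k) :
    F.eval₂ HahnSeries.C (HahnSeries.C a + u) ≠ 0 ∧
      (F.eval₂ HahnSeries.C (HahnSeries.C a + u)).order = u.order * rootMultiplicity a F := by
  obtain ⟨G, hG, hGa⟩ := F.exists_eq_pow_rootMultiplicity_mul_and_not_dvd hF a
  rw [Polynomial.dvd_iff_isRoot] at hGa
  set m := rootMultiplicity a F
  have hlow : ∀ n ≤ (0 : ℤ), u.coeff n = 0 := fun n hn =>
    HahnSeries.coeff_eq_zero_of_lt_order (hn.trans_lt hpos)
  obtain ⟨H, hH⟩ : (Polynomial.X - Polynomial.C a) ∣ G - Polynomial.C (G.eval a) := by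
    rw [Polynomial.dvd_iff_isRoot]; simp
  have hGu : (G.eval₂ HahnSeries.C (HahnSeries.C a + u)) ≠ 0 ∧
      (G.eval₂ HahnSeries.C (HahnSeries.C a + u)).order = 0 := by
    rw [sub_eq_iff_eq_add.mp hH]
    have hint : ∀ P : Polynomial k, ∀ n < (0 : ℤ),
        (P.eval₂ HahnSeries.C (HahnSeries.C a + u)).coeff n = 0 := by
      obtain ⟨e, he⟩ := Int.eq_ofNat_of_zero_le hpos.le
      set A := PowerSeries.X ^ e * u.powerSeriesPart
      have hA : HahnSeries.ofPowerSeries ℤ k A = u := by
        rw [map_mul, HahnSeries.ofPowerSeries_X_pow, ← he,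
          LaurentSeries.single_order_mul_powerSeriesPart]
      intro P n hn
      rw [show P.eval₂ HahnSeries.C (HahnSeries.C a + u) =
          HahnSeries.ofPowerSeries ℤ k (P.eval₂ PowerSeries.C (PowerSeries.C a + A)) by
        rw [Polynomial.hom_eval₂, map_add, hA, HahnSeries.ofPowerSeries_C]
        congr 1
        ext1 x
        exact (HahnSeries.ofPowerSeries_C x).symm]
      rw [HahnSeries.ofPowerSeries_apply, HahnSeries.embDomain_of_notMem_range]
      rintro ⟨i, hi⟩
      simp at hi
      omega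
    simp only [Polynomial.eval₂_add, Polynomial.eval₂_mul, Polynomial.eval₂_C,
      Polynomial.eval₂_sub, Polynomial.eval₂_X, add_sub_cancel_left]
    refine order_eq_of_coeff (d := 0) ?_ fun n hn => ?_
    · rw [HahnSeries.coeff_add, HahnSeries.coeff_mul]
      rw [Finset.sum_eq_zero, zero_add, HahnSeries.C_apply, HahnSeries.coeff_single_same]
      · exact hGa
      · intro x hx
        rw [Finset.mem_antidiagonal] at hx
        by_cases hx1 : x.1 ≤ 0
        · rw [hlow _ hx1, zero_mul]
        · rw [hint H _ (by omega), mul_zero]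
    · rw [HahnSeries.coeff_add, HahnSeries.coeff_mul, Finset.sum_eq_zero, zero_add,
        HahnSeries.C_apply, HahnSeries.coeff_single_of_ne hn.ne]
      intro x hx
      rw [Finset.mem_antidiagonal] at hx
      by_cases hx1 : x.1 ≤ 0
      · rw [hlow _ hx1, zero_mul]
      · rw [hint H _ (by omega), mul_zero]
  rw [hG]
  simp only [Polynomial.eval₂_mul, Polynomial.eval₂_pow, Polynomial.eval₂_sub, Polynomial.eval₂_X,
    Polynomial.eval₂_C, add_sub_cancel_left]
  refine ⟨mul_ne_zero (pow_ne_zero _ hu) hGu.1, ?_⟩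
  rw [HahnSeries.order_mul (pow_ne_zero _ hu) hGu.1, order_pow' hu, hGu.2, add_zero]
  ring

/-- The order of a polynomial at infinity. -/
theorem order_eval_neg {u : LaurentSeries k} (hu : u ≠ 0) (hneg : u.order < 0) {F : Polynomial k}
    (hF : F ≠ 0) :
    F.eval₂ HahnSeries.C u ≠ 0 ∧ (F.eval₂ HahnSeries.C u).order = u.order * F.natDegree := by
  have hv : u⁻¹ ≠ 0 := inv_ne_zero hu
  have hvo : u⁻¹.order = -u.order := by
    have h := HahnSeries.order_mul hu hv
    rw [mul_inv_cancel₀ hu, HahnSeries.order_one] at h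
    omega
  have hrev : F.reverse ≠ 0 := fun h => hF (by simpa using h)
  obtain ⟨h1, h2⟩ := order_eval_pos hv (by omega) hrev 0
  rw [map_zero, zero_add] at h1 h2
  have hm : rootMultiplicity (0 : k) F.reverse = 0 := by
    refine Polynomial.rootMultiplicity_eq_zero ?_
    rw [Polynomial.IsRoot, ← Polynomial.coeff_zero_eq_eval_zero, Polynomial.coeff_zero_reverse]
    simpa using hF
  let : Invertible u := invertibleOfNonzero hu
  have hkey := Polynomial.eval₂_reverse_mul_pow (HahnSeries.C : k →+* LaurentSeries k) u F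
  rw [invOf_eq_inv] at hkey
  have hne : F.eval₂ HahnSeries.C u ≠ 0 := fun h0 => by
    have h3 := Polynomial.eval₂_reverse_eq_zero_iff (HahnSeries.C : k →+* LaurentSeries k) u F
    rw [invOf_eq_inv] at h3
    exact h1 (h3.mpr h0)
  refine ⟨hne, ?_⟩
  have h4 := congrArg HahnSeries.order hkey
  rw [HahnSeries.order_mul h1 (pow_ne_zero _ hu), h2, hm, order_pow' hu] at h4
  rw [← h4]
  push_cast
  ring

variable {O : Subring ℂ} [IsLocalRing O]

/-- A series with unit leading coefficient keeps its order modulo the maximal ideal. -/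
theorem order_residue_of_leadUnit {s : LaurentSeries O} {d : ℤ}
    (h : LeadUnit O (liftSer O.subtype s) d) :
    liftSer (residue O) s ≠ 0 ∧ (liftSer (residue O) s).order = d := by
  refine order_eq_of_coeff ?_ fun n hn => ?_
  · rw [ES.coeff_liftSer]
    obtain ⟨h0, h1, h2⟩ := h.unitIn_coeff
    rw [ES.coeff_liftSer] at h0 h2
    exact IsUnit.ne_zero ((IsUnit.of_mul_eq_one (⟨_, h2⟩ : O)
      (Subtype.ext (mul_inv_cancel₀ h0))).map (residue O))
  · rw [ES.coeff_liftSer, show s.coeff n = 0 from Subtype.ext (by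
      have := h.coeff_of_lt hn
      rw [ES.coeff_liftSer] at this
      exact this), map_zero]

end Order

/-! ### Multiplicities -/

section Mult

variable {k : Type} [Field k]

variable (k) in
/-- The polynomial `t (t - 1) t` cutting out the cusps. -/
def cbar : Polynomial k := Polynomial.X * (Polynomial.X - 1) * Polynomial.X

/-- The multiplicity at `a` of `F / cbar ^ e`. -/
def mlt (e : ℕ) (F : Polynomial k) (a : k) : ℤ :=
  (rootMultiplicity a F : ℤ) - e * rootMultiplicity a (cbar k)

/-- The degree of `F / cbar ^ e`. -/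
def dgr (e : ℕ) (F : Polynomial k) : ℤ := (F.natDegree : ℤ) - e * 3

/-- The polynomial of the cusps is not zero. -/
theorem cbar_ne_zero : cbar k ≠ 0 :=
  mul_ne_zero (mul_ne_zero Polynomial.X_ne_zero (Polynomial.X_sub_C_ne_zero 1)) Polynomial.X_ne_zero

/-- The polynomial of the cusps has degree three. -/
theorem natDegree_cbar : (cbar k).natDegree = 3 := by
  rw [cbar, ← map_one (Polynomial.C (R := k)),
    Polynomial.natDegree_mul (mul_ne_zero Polynomial.X_ne_zero
      (Polynomial.X_sub_C_ne_zero 1)) Polynomial.X_ne_zero,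
    Polynomial.natDegree_mul Polynomial.X_ne_zero (Polynomial.X_sub_C_ne_zero 1),
    Polynomial.natDegree_X, Polynomial.natDegree_X_sub_C]

/-- Away from `0` and `1` the polynomial of the cusps does not vanish. -/
theorem rootMultiplicity_cbar_of_ne {a : k} (h0 : a ≠ 0) (h1 : a ≠ 1) :
    rootMultiplicity a (cbar k) = 0 := by
  refine Polynomial.rootMultiplicity_eq_zero ?_
  simp [cbar, Polynomial.IsRoot, h0, sub_eq_zero, h1]

end Mult

/-! ### The rational function of an invariant function -/

variable {q M : ℕ} [Fact q.Prime] [NeZero M] {O : Subring ℂ} (haux : AuxLevel M 2)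
  (hA : GoodRoot M O (zetaC M)) {P : CPlace q} (hO : O ≤ P.ring)

/-- The root of the Hauptmodul at level two is `0`. -/
theorem hauptRoot_two : ES.hauptRoot haux = 0 := if_neg (by decide)

/-- `t (t - 1) t`. -/
def cuspL : LRing q M O := tL haux hA * (tL haux hA - 1) * tL haux hA

/-- `t` is a unit. -/
theorem isUnit_tL : IsUnit (tL haux hA : LRing q M O) :=
  IsUnit.of_mul_eq_one
    (raiseL M ⟨_, ES.polFun_mem_BRing haux hA (ES.two_le haux)⟩) (Subtype.ext (by
      show haupt haux.dvd * polFun haux.dvd 2 = 1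
      rw [mul_comm, ES.polFun_two_mul_haupt haux]))

/-- `t - 1` is a unit. -/
theorem isUnit_tL_sub_one : IsUnit (tL haux hA - 1 : LRing q M O) :=
  IsUnit.of_mul_eq_one
    (raiseL M ⟨_, ES.polFun_mem_BRing haux hA (j := 0) (Nat.zero_le _)⟩) (Subtype.ext (by
      show (haupt haux.dvd - 1) * polFun haux.dvd 0 = 1
      rw [mul_comm, ES.polFun_zero_mul haux]))

/-- The cusp factor is a unit. -/
theorem isUnit_cuspL : IsUnit (cuspL haux hA : LRing q M O) :=
  ((isUnit_tL haux hA).mul (isUnit_tL_sub_one haux hA)).mul (isUnit_tL haux hA)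

/-- `f` is `F(t) / (t (t - 1) t) ^ e` on the component at `∞`. -/
def HasPoly (f : LRing q M O) (e : ℕ) (F : Polynomial O) : Prop :=
  f * cuspL haux hA ^ e - F.eval₂ constL (tL haux hA) ∈ pInf hO

/-- An invariant function is a rational function of `t` on the component at `∞`. -/
theorem exists_hasPoly (hM : M.Coprime q) {f : LRing q M O}
    (hinv : ∀ δ ∈ lam q 2, act δ (f : ℍ → ℂ) = f) : ∃ e F, HasPoly haux hA hO f e F := by
  obtain ⟨g, hg, hfg⟩ := exists_polRing_congr hM hO haux hA hinv
  obtain ⟨e, F, hF⟩ := ES.exists_poly_of_mem haux hA hg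
  refine ⟨e, F, ?_⟩
  have e1 : (raiseL M g * cuspL haux hA ^ e : LRing q M O) = F.eval₂ constL (tL haux hA) := by
    refine Subtype.ext (funext fun τ => ?_)
    let ev : LRing q M O →+* ℂ := (Pi.evalRingHom (fun _ : ℍ => ℂ) τ).comp (LRing q M O).subtype
    show ev (raiseL M g * cuspL haux hA ^ e) = ev (F.eval₂ constL (tL haux hA))
    rw [Polynomial.hom_eval₂, map_mul, map_pow,
      show ev.comp constL = O.subtype from RingHom.ext fun _ => rfl, ← Polynomial.eval_map]
    refine Eq.trans ?_ (hF τ)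
    show (g : ℍ → ℂ) τ * ev (cuspL haux hA) ^ e = _
    rw [cuspL, map_mul, map_mul, map_sub, map_one,
      show ev (tL haux hA) = haupt haux.dvd τ from rfl, cuspPoly, hauptRoot_two, sub_zero]
  show f * _ - _ ∈ pInf hO
  rw [← e1, ← sub_mul]
  exact Ideal.mul_mem_right _ _ hfg

/-- The exponent of the cusp factor can be raised. -/
theorem HasPoly.raise {f : LRing q M O} {e : ℕ} {F : Polynomial O}
    (h : HasPoly haux hA hO f e F) (i : ℕ) :
    HasPoly haux hA hO f (e + i)
      (F * (Polynomial.X * (Polynomial.X - 1) * Polynomial.X) ^ i) := by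
  show _ - _ ∈ _
  have h1 := Ideal.mul_mem_right (cuspL haux hA ^ i) _ h
  convert h1 using 1
  simp only [Polynomial.eval₂_mul, Polynomial.eval₂_pow, Polynomial.eval₂_sub, Polynomial.eval₂_X,
    Polynomial.eval₂_one, cuspL, pow_add]
  ring

variable [IsLocalRing O]

/-- A place of the component at `∞`. -/
structure IsPlace (β : LRing q M O →+* LaurentSeries (ResidueField O)) : Prop where
  const : ∀ r, β (constL r) = HahnSeries.C (residue O r)
  inf : ∀ f ∈ pInf hO, β f = 0

variable {β : LRing q M O →+* LaurentSeries (ResidueField O)} (hβ : IsPlace hO β)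
  {f : LRing q M O} {e : ℕ} {F : Polynomial O}

include hβ in
theorem IsPlace.eval_hasPoly (h : HasPoly haux hA hO f e F) :
    β f * (cbar (ResidueField O)).eval₂ HahnSeries.C (β (tL haux hA)) ^ e =
      (F.map (residue O)).eval₂ HahnSeries.C (β (tL haux hA)) := by
  have h1 := hβ.inf _ h
  rw [map_sub, map_mul, map_pow, sub_eq_zero, Polynomial.hom_eval₂] at h1
  rw [Polynomial.eval₂_map, show HahnSeries.C.comp (residue O) = β.comp constL from
    RingHom.ext fun r => (hβ.const r).symm, ← h1]
  simp [cuspL, cbar]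

include hβ in
/-- The order at a place over `t = a`. -/
theorem IsPlace.order_eq (h : HasPoly haux hA hO f e F) (hF : F.map (residue O) ≠ 0)
    {a : ResidueField O} {u : LaurentSeries (ResidueField O)}
    (ht : β (tL haux hA) = HahnSeries.C a + u) (hu : u ≠ 0) (hpos : 0 < u.order) :
    β f ≠ 0 ∧ (β f).order = u.order * mlt e (F.map (residue O)) a := by
  have h1 := hβ.eval_hasPoly haux hA hO h
  obtain ⟨hF1, hF2⟩ := order_eval_pos hu hpos hF a
  obtain ⟨hc1, hc2⟩ := order_eval_pos hu hpos cbar_ne_zero a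
  rw [ht] at h1
  have hf : β f ≠ 0 := fun h0 => hF1 (by rw [← h1, h0, zero_mul])
  refine ⟨hf, ?_⟩
  have h2 := congrArg HahnSeries.order h1
  rw [HahnSeries.order_mul hf (pow_ne_zero _ hc1), order_pow' hc1, hF2, hc2] at h2
  rw [mlt]
  linear_combination h2

include hβ in
/-- The order at a place over `t = ∞`. -/
theorem IsPlace.order_eq_infty (h : HasPoly haux hA hO f e F) (hF : F.map (residue O) ≠ 0)
    (hu : β (tL haux hA) ≠ 0) (hneg : (β (tL haux hA)).order < 0) :
    β f ≠ 0 ∧ (β f).order = (β (tL haux hA)).order * dgr e (F.map (residue O)) := by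
  have h1 := hβ.eval_hasPoly haux hA hO h
  obtain ⟨hF1, hF2⟩ := order_eval_neg hu hneg hF
  obtain ⟨hc1, hc2⟩ := order_eval_neg hu hneg (cbar_ne_zero (k := ResidueField O))
  have hf : β f ≠ 0 := fun h0 => hF1 (by rw [← h1, h0, zero_mul])
  refine ⟨hf, ?_⟩
  have h2 := congrArg HahnSeries.order h1
  rw [HahnSeries.order_mul hf (pow_ne_zero _ hc1), order_pow' hc1, hF2, hc2, natDegree_cbar] at h2
  rw [dgr]
  push_cast at h2
  linear_combination h2

/-! ### The cusps -/

variable (hM : M.Coprime q) (hO' : P.IsCDVR O)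

include hO' in
/-- The cusps over `∞` give places of the component at `∞`. -/
theorem isPlace_resInf {γ : SL(2, ℤ)} (hγ : γ ∈ Gamma0 q) :
    IsPlace hO (resInf (M := M) γ hγ) :=
  ⟨resInf_constL γ hγ, fun f hf => (resInf_eq_zero_iff hO' γ hγ f).mpr (hf γ hγ)⟩

omit [NeZero M] in
/-- The expansions of level `M` depend only on the class modulo `M`. -/
theorem lexp_of_modMat {f : ℍ → ℂ} (hf : f ∈ BSub M) {γ δ : SL(2, ℤ)}
    (h : ES.modMat M γ = ES.modMat M δ) : lexp M γ f = lexp M δ f := by
  have hmem : γ * δ⁻¹ ∈ Gamma M := ES.mem_Gamma_of_modMat (by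
    rw [ES.modMat_mul, h, ← ES.modMat_mul, mul_inv_cancel, ES.modMat_one])
  rw [← ES.lexp_mul_of_mem hf hmem δ, inv_mul_cancel_right]

include hA hM hO' in
/-- The cusps over `∞` above the three cusps of level two. -/
theorem exists_cusp_place (j : ℕ) :
    ∃ (γ : SL(2, ℤ)) (hγ : γ ∈ Gamma0 q), ES.modMat M γ = ES.modMat M (cuspRep j) ∧
      IsPlace hO (resInf (M := M) γ hγ) ∧ ∀ (i : ℕ) (hi : i ≤ 2),
        resInf (M := M) γ hγ (raiseL M ⟨polFun haux.dvd i, ES.polFun_mem_BRing haux hA hi⟩) ≠ 0 ∧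
        (resInf (M := M) γ hγ
          (raiseL M ⟨polFun haux.dvd i, ES.polFun_mem_BRing haux hA hi⟩)).order =
            ((M / 2 : ℕ) : ℤ) * polOrd 2 i j := by
  obtain ⟨γ, hγ, hmod⟩ := exists_gamma0_modMat (q := q) hM (cuspRep j)
  refine ⟨γ, hγ, hmod, isPlace_resInf hO hO' hγ, fun i hi => ?_⟩
  rw [resInf_raiseL, resCusp, RingHom.comp_apply]
  refine order_residue_of_leadUnit ?_
  rw [ES.liftSer_cuspSer, lexp_of_modMat (ES.polFun_mem_BSub haux i hi) hmod]
  exact ES.leadUnit_polFun haux hA i j hi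

include haux in
omit [IsLocalRing O] in
/-- The width is positive. -/
theorem width_pos : 0 < ((M / 2 : ℕ) : ℤ) := by
  have : 0 < M / 2 := Nat.div_pos (Nat.le_of_dvd (NeZero.pos M) haux.dvd) two_pos
  exact_mod_cast this

/-- The orders at the three cusps. -/
structure CuspPlaces (β : Fin 3 → (LRing q M O →+* LaurentSeries (ResidueField O))) (d : ℤ) :
    Prop where
  pos : 0 < d
  place : ∀ j, IsPlace hO (β j)
  one : β 0 (tL haux hA) - 1 ≠ 0 ∧ (β 0 (tL haux hA) - 1).order = d
  top : β 1 (tL haux hA) ≠ 0 ∧ (β 1 (tL haux hA)).order = -d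
  zero : β 2 (tL haux hA) ≠ 0 ∧ (β 2 (tL haux hA)).order = d

include hM hO' in
/-- Cusps over `∞` giving the places over the three cusps of level two. -/
theorem exists_cuspPlaces :
    ∃ γ : Fin 3 → SL(2, ℤ), ∃ hγ : ∀ j, γ j ∈ Gamma0 q,
      (∀ j : Fin 3, ES.modMat M (γ j) = ES.modMat M (cuspRep j)) ∧
      CuspPlaces haux hA hO (fun j => resInf (M := M) (γ j) (hγ j)) ((M / 2 : ℕ) : ℤ) := by
  choose γ hγ hmod hpl hord using fun j : Fin 3 => exists_cusp_place haux hA hO hM hO' j
  have ht : (tL haux hA : LRing q M O) =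
      raiseL M ⟨polFun haux.dvd 1, ES.polFun_mem_BRing haux hA (ES.one_le haux)⟩ := rfl
  refine ⟨γ, hγ, hmod, width_pos haux, hpl, ?_, ?_, ?_⟩
  · have h := congrArg (resInf (M := M) (γ 0) (hγ 0))
      (show raiseL M ⟨polFun haux.dvd 0, ES.polFun_mem_BRing haux hA (Nat.zero_le _)⟩ *
        (tL haux hA - 1) = (1 : LRing q M O) from Subtype.ext (ES.polFun_zero_mul haux))
    rw [map_mul, map_one, map_sub, map_one] at h
    obtain ⟨h1, h2⟩ := hord 0 0 (Nat.zero_le _)
    refine ⟨right_ne_zero_of_mul_eq_one h, ?_⟩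
    have h3 := congrArg HahnSeries.order h
    rw [HahnSeries.order_mul h1 (right_ne_zero_of_mul_eq_one h), h2, HahnSeries.order_one,
      show polOrd 2 0 ((0 : Fin 3) : ℕ) = -1 by decide] at h3
    omega
  · obtain ⟨h1, h2⟩ := hord 1 1 (by norm_num)
    rw [show polOrd 2 1 ((1 : Fin 3) : ℕ) = -1 by decide, mul_neg_one] at h2
    exact ht ▸ ⟨h1, h2⟩
  · have h := congrArg (resInf (M := M) (γ 2) (hγ 2))
      (show raiseL M ⟨polFun haux.dvd 2, ES.polFun_mem_BRing haux hA le_rfl⟩ *
        tL haux hA = (1 : LRing q M O) from Subtype.ext (ES.polFun_two_mul_haupt haux))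
    rw [map_mul, map_one] at h
    obtain ⟨h1, h2⟩ := hord 2 2 le_rfl
    refine ⟨right_ne_zero_of_mul_eq_one h, ?_⟩
    have h3 := congrArg HahnSeries.order h
    rw [HahnSeries.order_mul h1 (right_ne_zero_of_mul_eq_one h), h2, HahnSeries.order_one,
      show polOrd 2 2 ((2 : Fin 3) : ℕ) = -1 by decide] at h3
    omega

variable {β' : Fin 3 → (LRing q M O →+* LaurentSeries (ResidueField O))} {d : ℤ}
  (hB : CuspPlaces haux hA hO β' d)

include hB in
/-- The order at the cusp over `t = 0`. -/
theorem CuspPlaces.order_zero (h : HasPoly haux hA hO f e F) (hF : F.map (residue O) ≠ 0) :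
    β' 2 f ≠ 0 ∧ (β' 2 f).order = d * mlt e (F.map (residue O)) 0 := by
  have h1 := (hB.place 2).order_eq haux hA hO h hF (a := 0) (u := β' 2 (tL haux hA))
    (by rw [map_zero, zero_add]) hB.zero.1 (by rw [hB.zero.2]; exact hB.pos)
  rwa [hB.zero.2] at h1

include hB in
/-- The order at the cusp over `t = 1`. -/
theorem CuspPlaces.order_one (h : HasPoly haux hA hO f e F) (hF : F.map (residue O) ≠ 0) :
    β' 0 f ≠ 0 ∧ (β' 0 f).order = d * mlt e (F.map (residue O)) 1 := by
  have h1 := (hB.place 0).order_eq haux hA hO h hF (a := 1) (u := β' 0 (tL haux hA) - 1)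
    (by rw [map_one, add_sub_cancel]) hB.one.1 (by rw [hB.one.2]; exact hB.pos)
  rwa [hB.one.2] at h1

include hB in
/-- The order at the cusp over `t = ∞`. -/
theorem CuspPlaces.order_top (h : HasPoly haux hA hO f e F) (hF : F.map (residue O) ≠ 0) :
    β' 1 f ≠ 0 ∧ (β' 1 f).order = -d * dgr e (F.map (residue O)) := by
  have h1 := (hB.place 1).order_eq_infty haux hA hO h hF hB.top.1 (by
    rw [hB.top.2]; have := hB.pos; omega)
  rwa [hB.top.2] at h1

end FermatAgent.BAD.TwoP
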