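import Fermat.Agent.BAD.TwoP.Descent
import Fermat.Agent.EC.GoodPrimeTrace
import Fermat.Agent.BAD.Normal

/-!
# Enlarging the unramified part of the coefficients

The inclusions of the coefficient rings and of the rings of functions over them.
-/

set_option autoImplicit false

open UpperHalfPlane CongruenceSubgroup IsLocalRing
open scoped MatrixGroups

noncomputable section

namespace FermatAgent.BAD.TwoP

open FermatAgent.ES (AuxLevel CPlace GoodPoint zetaC haupt)
open CFT.Local (Res')

section Generic

variable {q M m : ℕ} [Fact q.Prime] [NeZero M] {O O' : Subring ℂ} (hle : O ≤ O')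

theorem inclL_constL (r : O) :
    inclL hle (constL r : LRing q M O) = constL (Subring.inclusion hle r) :=
  Subtype.ext rfl

theorem inclL_tL (haux : AuxLevel M m) (hA : ES.GoodRoot M O (zetaC M))
    (hA' : ES.GoodRoot M O' (zetaC M)) :
    inclL hle (tL haux hA : LRing q M O) = tL haux hA' :=
  Subtype.ext rfl

/-- A polynomial of a function stays one over a larger coefficient ring. -/
theorem HasPoly.inclL_map {haux : AuxLevel M 2} {hA : ES.GoodRoot M O (zetaC M)}
    (hA' : ES.GoodRoot M O' (zetaC M)) {P : CPlace q} {hO : O ≤ P.ring} (hO' : O' ≤ P.ring)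
    {f : LRing q M O} {e : ℕ} {F : Polynomial O} (h : HasPoly haux hA hO f e F) :
    HasPoly haux hA' hO' (inclL hle f) e (F.map (Subring.inclusion hle)) := by
  have hmem : ∀ g ∈ pInf (q := q) (M := M) hO, inclL hle g ∈ pInf hO' := fun g hg γ hγ => hg γ hγ
  have h1 := hmem _ h
  rw [map_sub, map_mul, map_pow, Polynomial.hom_eval₂, cuspL, map_mul, map_mul, map_sub, map_one,
    inclL_tL hle haux hA hA', show (inclL hle : LRing q M O →+* LRing q M O').comp constL =
      constL.comp (Subring.inclusion hle) from RingHom.ext (inclL_constL hle)] at h1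
  show _ - _ ∈ _
  rw [Polynomial.eval₂_map, cuspL]
  exact h1

end Generic

variable {q : ℕ} [hq : Fact q.Prime] (Φ : ℂ ≃+* PadicAlgCl q)

instance isDVR_oRing (n : ℕ) [NeZero n] : IsDiscreteValuationRing (oRing Φ n) :=
  (isCDVR_oRing Φ n).dvr

/-- The coefficient rings lie in the ring of the place. -/
theorem oRing_le (n : ℕ) [NeZero n] : oRing Φ n ≤ (CPlace.ofEquiv Φ).ring :=
  (isCDVR_oRing Φ n).le

/-- The residue field of `ℚ̄_q` is algebraically closed. -/
theorem isAlgClosed_res : IsAlgClosed (Res' q) :=
  isAlgClosed_residueField (CFT.Local.intRing q)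

end FermatAgent.BAD.TwoP
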