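import Fermat.Agent.CFT.Local.Tame
import Fermat.Agent.CFT.Local.Unramified

/-!
# The fields `ℚ_q(ζ_q, w, μ')` with `w ^ q = 1 + q`

Their uniformiser is `(ζ_q - 1) / (w - 1)`, whatever the unramified part, and an automorphism
fixing `ζ_q` and all roots of unity of order prime to `q` and moving `w` moves the uniformiser to
first order.
-/

set_option autoImplicit false

noncomputable section

open IntermediateField Polynomial

namespace FermatAgent.BAD.TwoP

open CFT.Local

variable {q : ℕ} [hq : Fact q.Prime]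

/-- The roots of unity of order `q ^ n - 1`. -/
def primeToRoots (q : ℕ) [Fact q.Prime] : Set (PadicAlgCl q) :=
  {x | ∃ n, 0 < n ∧ x ^ (q ^ n - 1) = 1}

/-- The order of the unramified root over `ℚ_q`. -/
theorem unramOrder_bot (n : ℕ) : unramOrder (botF q) n = q ^ n - 1 := by
  rw [unramOrder, resCard_bot]

/-- Roots of unity of order dividing `q ^ n - 1` have order dividing `q ^ N - 1` for `n ∣ N`. -/
theorem pow_sub_one_eq_one_of_dvd {n N : ℕ} (h : n ∣ N) {x : PadicAlgCl q}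
    (hx : x ^ (q ^ n - 1) = 1) : x ^ (q ^ N - 1) = 1 := by
  obtain ⟨r, hr⟩ := Nat.pow_sub_one_dvd_pow_sub_one q h
  rw [hr, pow_mul, hx, one_pow]

/-- The unramified root has order prime to `q`. -/
theorem unramRoot_mem_primeToRoots (n : ℕ) [NeZero n] :
    unramRoot (botF q) n ∈ primeToRoots q :=
  ⟨n, Nat.pos_of_ne_zero (NeZero.ne n), by
    rw [← unramOrder_bot]; exact (unramRoot_spec (botF q) n).pow_eq_one⟩

/-- A root of `X ^ q - (1 + q)`. -/
def wRoot (q : ℕ) [hq : Fact q.Prime] : PadicAlgCl q :=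
  (IsAlgClosed.exists_pow_nat_eq ((1 : PadicAlgCl q) + q) hq.out.pos).choose

/-- The defining equation of `w`. -/
theorem wRoot_pow : wRoot q ^ q = 1 + (q : PadicAlgCl q) :=
  (IsAlgClosed.exists_pow_nat_eq ((1 : PadicAlgCl q) + q) hq.out.pos).choose_spec

theorem norm_one_add_q : ‖(1 : PadicAlgCl q) + q‖ = 1 := by
  rw [IsUltrametricDist.norm_add_eq_max_of_norm_ne_norm]
  · rw [norm_one, max_eq_left norm_q_lt_one.le]
  · rw [norm_one]; exact norm_q_lt_one.ne'

/-- `w` is a unit. -/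
theorem norm_wRoot : ‖wRoot q‖ = 1 :=
  (pow_eq_one_iff_of_nonneg (norm_nonneg _) hq.out.ne_zero).mp (by
    rw [← norm_pow, wRoot_pow, norm_one_add_q])

/-- The `q`-th power of `1 + x` modulo `q x`. -/
theorem exists_one_add_pow (x : PadicAlgCl q) (hx : ‖x‖ ≤ 1) :
    ∃ R : PadicAlgCl q, ‖R‖ ≤ 1 ∧ (1 + x) ^ q = 1 + x ^ q + q * x * R := by
  obtain ⟨R, hR⟩ := exists_add_pow_prime_eq hq.out (1 : intRing q) ⟨x, mem_intRing.mpr hx⟩
  refine ⟨R, mem_intRing.mp R.2, ?_⟩
  have h := congrArg (intRing q).subtype hR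
  simp only [map_add, map_pow, map_mul, map_one, map_natCast, one_pow, mul_one] at h
  exact h

theorem norm_wRoot_sub_one_pow : ‖wRoot q - 1‖ ^ q = ‖(q : PadicAlgCl q)‖ := by
  have hx0 : ‖wRoot q - 1‖ ≤ 1 := by
    rw [sub_eq_add_neg]
    exact (IsUltrametricDist.norm_add_le_max _ _).trans
      (max_le norm_wRoot.le (by rw [norm_neg, norm_one]))
  obtain ⟨R, hRn, hR'⟩ := exists_one_add_pow (wRoot q - 1) hx0
  rw [add_sub_cancel, wRoot_pow] at hR'
  set x := wRoot q - 1
  have hx : ‖x‖ ≤ 1 := hx0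
  have hq0 := norm_q_pos (q := q)
  have hlt : ‖x‖ < 1 := by
    rcases hx.lt_or_eq with h | h
    · exact h
    have e : x ^ q = (q : PadicAlgCl q) * (1 - x * R) := by linear_combination -hR'
    have h1 := congrArg norm e
    rw [norm_pow, h, one_pow, norm_mul] at h1
    have h2 : ‖(1 : PadicAlgCl q) - x * R‖ ≤ 1 := by
      rw [sub_eq_add_neg]
      refine (IsUltrametricDist.norm_add_le_max _ _).trans
        (max_le (le_of_eq (norm_one (α := PadicAlgCl q))) ?_)
      rw [norm_neg, norm_mul, h, one_mul]; exact hRn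
    nlinarith [norm_q_lt_one (q := q), mul_le_mul_of_nonneg_left h2 hq0.le]
  have e : x ^ q = (q : PadicAlgCl q) * (1 - x * R) := by linear_combination -hR'
  have h3 : ‖x * (R : PadicAlgCl q)‖ < 1 := by
    rw [norm_mul]
    exact lt_of_le_of_lt (mul_le_of_le_one_right (norm_nonneg _) hRn) hlt
  have h4 : ‖(1 : PadicAlgCl q) - x * R‖ = 1 := by
    rw [sub_eq_add_neg, IsUltrametricDist.norm_add_eq_max_of_norm_ne_norm]
    · rw [norm_one, norm_neg, max_eq_left h3.le]
    · rw [norm_one, norm_neg]; exact h3.ne'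
  rw [← norm_pow, e, norm_mul, h4, mul_one]

variable {ζ : PadicAlgCl q} (hζ : IsPrimitiveRoot ζ q)

variable (q ζ) in
/-- `(ζ - 1) / (w - 1)`. -/
def piUnif : PadicAlgCl q := (ζ - 1) / (wRoot q - 1)

theorem wRoot_sub_one_ne_zero : wRoot q - 1 ≠ 0 := fun h => by
  have h1 := norm_wRoot_sub_one_pow (q := q)
  rw [h, norm_zero, zero_pow hq.out.ne_zero] at h1
  exact (norm_q_pos (q := q)).ne h1

include hζ in
/-- The absolute value of `ζ - 1`. -/
theorem norm_zeta_sub_one_pow : ‖ζ - 1‖ ^ (q - 1) = ‖(q : PadicAlgCl q)‖ := by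
  have : NeZero (q - 1) := ⟨(Nat.sub_pos_of_lt hq.out.one_lt).ne'⟩
  rw [← norm_neg (ζ - 1), neg_sub]
  exact norm_one_sub_zeta hζ (Nat.sub_add_cancel hq.out.one_le)

include hζ in
/-- The absolute value of the uniformiser. -/
theorem norm_piUnif_pow : ‖piUnif q ζ‖ ^ (q * (q - 1)) = ‖(q : PadicAlgCl q)‖ := by
  rw [piUnif, norm_div, div_pow, pow_mul ‖wRoot q - 1‖, norm_wRoot_sub_one_pow, mul_comm q,
    pow_mul, norm_zeta_sub_one_pow hζ,
    eq_comm, eq_div_iff (pow_ne_zero _ (norm_q_pos (q := q)).ne'), ← pow_succ',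
    Nat.sub_add_cancel hq.out.one_le]

include hζ in
/-- The uniformiser is not zero. -/
theorem norm_piUnif_pos : 0 < ‖piUnif q ζ‖ := by
  rcases (norm_nonneg (piUnif q ζ)).lt_or_eq with h | h
  · exact h
  · have h1 := norm_piUnif_pow hζ
    rw [← h, zero_pow (Nat.mul_pos hq.out.pos (Nat.sub_pos_of_lt hq.out.one_lt)).ne'] at h1
    exact absurd h1 (norm_q_pos (q := q)).ne

include hζ in
/-- The uniformiser is small. -/
theorem norm_piUnif_lt_one : ‖piUnif q ζ‖ < 1 := by
  by_contra h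
  have h1 := one_le_pow₀ (n := q * (q - 1)) (not_lt.mp h)
  rw [norm_piUnif_pow hζ] at h1
  exact absurd norm_q_lt_one (not_lt.mpr h1)

/-! ### The finite fields -/

variable (q ζ) in
/-- `ℚ_q(ζ, μ_(q ^ n - 1))`. -/
def lField (n : ℕ) [NeZero n] : IntermediateField ℚ_[q] (PadicAlgCl q) :=
  ℚ_[q]⟮ζ⟯ ⊔ ℚ_[q]⟮unramRoot (botF q) n⟯

variable (q ζ) in
/-- `ℚ_q(ζ, w, μ_(q ^ n - 1))`. -/
def kField (n : ℕ) [NeZero n] : IntermediateField ℚ_[q] (PadicAlgCl q) :=
  lField q ζ n ⊔ ℚ_[q]⟮wRoot q⟯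

instance (n : ℕ) [NeZero n] : FiniteDimensional ℚ_[q] (lField q ζ n) :=
  haveI := adjoin.finiteDimensional (K := ℚ_[q]) (Algebra.IsIntegral.isIntegral ζ)
  haveI := adjoin.finiteDimensional (K := ℚ_[q])
    (Algebra.IsIntegral.isIntegral (unramRoot (botF q) n))
  IntermediateField.finiteDimensional_sup _ _

instance (n : ℕ) [NeZero n] : FiniteDimensional ℚ_[q] (kField q ζ n) :=
  haveI := adjoin.finiteDimensional (K := ℚ_[q]) (Algebra.IsIntegral.isIntegral (wRoot q))
  IntermediateField.finiteDimensional_sup (lField q ζ n) _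

/-- A residue fixed by the `q ^ n`-th power is that of zero or of a power of the root of
order `q ^ n - 1`. -/
theorem exists_rep_of_res {q : ℕ} [hq : Fact q.Prime] {n : ℕ} [NeZero n] {x : PadicAlgCl q}
    (h : ‖x‖ ≤ 1) (hres : res x ^ q ^ n = res x) :
    ∃ t, (t = 0 ∨ t ∈ primeToRoots q) ∧
      (∀ L : IntermediateField ℚ_[q] (PadicAlgCl q), unramRoot (botF q) n ∈ L → t ∈ L) ∧
      ‖t‖ ≤ 1 ∧ ‖x - t‖ < 1 := by
  by_cases h0 : res x = 0
  · exact ⟨0, Or.inl rfl, fun L _ => zero_mem L, by simp,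
      by simpa using (res_eq_zero_iff h).mp h0⟩
  rw [← Nat.sub_add_cancel (Nat.one_le_pow n q hq.out.pos), pow_succ, ← unramOrder_bot] at hres
  have : NeZero (unramOrder (botF q) n) := ⟨(unramOrder_pos (botF q) n).ne'⟩
  obtain ⟨i, -, hi⟩ := (res_unramRoot_spec (botF q) n).eq_pow_of_pow_eq_one
    ((mul_eq_right₀ h0).mp hres)
  set u := unramRoot (botF q) n
  have hu : ‖u ^ i‖ = 1 := by rw [norm_pow, norm_unramRoot, one_pow]
  refine ⟨u ^ i, Or.inr ⟨n, Nat.pos_of_ne_zero (NeZero.ne n), ?_⟩, fun L hL => pow_mem hL i,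
    hu.le, (res_eq_res_iff h hu.le).mp ?_⟩
  · rw [← pow_mul, mul_comm, pow_mul, ← unramOrder_bot, (unramRoot_spec _ n).pow_eq_one, one_pow]
  · rw [res_pow (norm_unramRoot _ n).le, hi]

section Finite

variable (n : ℕ) [NeZero n]

/-- `ζ` lies in `ℚ_q(ζ, μ_(q ^ n - 1))`. -/
theorem zeta_mem_lField : ζ ∈ lField q ζ n :=
  (le_sup_left : _ ≤ lField q ζ n) (mem_adjoin_simple_self ℚ_[q] ζ)

/-- The unramified root lies in `ℚ_q(ζ, μ_(q ^ n - 1))`. -/
theorem unramRoot_mem_lField : unramRoot (botF q) n ∈ lField q ζ n :=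
  (le_sup_right : _ ≤ lField q ζ n) (mem_adjoin_simple_self ℚ_[q] _)

/-- `ℚ_q(ζ, μ_(q ^ n - 1))` lies in the coefficient field. -/
theorem lField_le_kField : lField q ζ n ≤ kField q ζ n := le_sup_left

/-- `w` lies in the coefficient field. -/
theorem wRoot_mem_kField : wRoot q ∈ kField q ζ n :=
  (le_sup_right : _ ≤ kField q ζ n) (mem_adjoin_simple_self ℚ_[q] _)

/-- The uniformiser lies in the coefficient field. -/
theorem piUnif_mem_kField : piUnif q ζ ∈ kField q ζ n :=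
  div_mem (sub_mem (lField_le_kField n (zeta_mem_lField n)) (one_mem _))
    (sub_mem (wRoot_mem_kField n) (one_mem _))

/-- The degree of the unramified root is at most `n`. -/
theorem finrank_adjoin_unramRoot :
    Module.finrank ℚ_[q] ℚ_[q]⟮unramRoot (botF q) n⟯ ≤ n := by
  classical
  set u := unramRoot (botF q) n
  rw [adjoin.finrank (Algebra.IsIntegral.isIntegral u)]
  set p := minpoly ℚ_[q] u
  have hp : p.aroots (PadicAlgCl q) ⊆ ((Finset.range n).image fun i => u ^ q ^ i).val := by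
    intro x hx
    rw [mem_aroots] at hx
    obtain ⟨s, hs⟩ := minpoly.exists_algEquiv_of_root' (Algebra.IsAlgebraic.isAlgebraic u) hx.2
    obtain ⟨i, hi⟩ := exists_exponent (botF q) n (mem_fix_bot s)
    rw [Finset.mem_val, Finset.mem_image]
    refine ⟨i % n, Finset.mem_range.mpr (Nat.mod_lt _ (Nat.pos_of_ne_zero (NeZero.ne n))), ?_⟩
    have h2 := pow_resCard_pow_mod (botF q) n (unramRoot_spec (botF q) n).pow_eq_one i
    rw [resCard_bot] at h2 hi
    rw [h2, ← hi, hs]
  have hnd : (p.aroots (PadicAlgCl q)).Nodup :=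
    nodup_roots ((minpoly.irreducible (Algebra.IsIntegral.isIntegral u)).separable.map)
  calc p.natDegree = Multiset.card (p.aroots (PadicAlgCl q)) :=
        (IsAlgClosed.card_aroots_eq_natDegree (p := p)).symm
    _ ≤ ((Finset.range n).image fun i => u ^ q ^ i).card :=
        Multiset.card_le_card ((Multiset.le_iff_subset hnd).mpr hp)
    _ ≤ n := Finset.card_image_le.trans (Finset.card_range n).le

/-- A field containing the unramified root has residue degree at least `n`. -/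
theorem le_inertiaDeg {F : IntermediateField ℚ_[q] (PadicAlgCl q)} [FiniteDimensional ℚ_[q] F]
    (h : unramRoot (botF q) n ∈ F) : n ≤ inertiaDeg F := by
  have h1 := (mem_resField_iff F).mp (res_mem_resField F h (norm_unramRoot (botF q) n).le)
  rw [resCard_eq] at h1
  have hne : res (unramRoot (botF q) n) ≠ 0 :=
    (res_unramRoot_spec (botF q) n).ne_zero (unramOrder_pos (botF q) n).ne'
  rw [← Nat.sub_add_cancel (Nat.one_le_pow _ q hq.out.pos), pow_succ] at h1
  have h2 := (res_unramRoot_spec (botF q) n).dvd_of_pow_eq_one (q ^ inertiaDeg F - 1)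
    ((mul_eq_right₀ hne).mp h1)
  rw [unramOrder_bot] at h2
  have h3 := Nat.le_of_dvd (Nat.sub_pos_of_lt (Nat.one_lt_pow (inertiaDeg_pos F).ne'
    hq.out.one_lt)) h2
  have h4 : q ^ n ≤ q ^ inertiaDeg F := by
    have := Nat.one_le_pow (inertiaDeg F) q hq.out.pos
    omega
  exact (Nat.pow_le_pow_iff_right hq.out.one_lt).mp h4

/-- An element of absolute value `|q| ^ (1/d)` forces ramification index at least `d`. -/
theorem le_ramIdx {F : IntermediateField ℚ_[q] (PadicAlgCl q)} [FiniteDimensional ℚ_[q] F]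
    {x : PadicAlgCl q} (hx : x ∈ F) {d : ℕ} (hd : 0 < d)
    (h : ‖x‖ ^ d = ‖(q : PadicAlgCl q)‖) : d ≤ ramIdx F ∧ (ramIdx F ≤ d → ord F x = 1) := by
  have h0 : x ≠ 0 := fun h0 => by
    rw [h0, norm_zero, zero_pow hd.ne'] at h
    exact (norm_q_pos (q := q)).ne h
  have hlt : ‖x‖ < 1 := by
    by_contra h1
    have := one_le_pow₀ (n := d) (not_lt.mp h1)
    rw [h] at this
    exact absurd norm_q_lt_one (not_lt.mpr this)
  have h1 := (one_le_ord_iff F hx h0).mpr hlt
  have h2 : ord F (q : PadicAlgCl q) = d * ord F x := by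
    refine ord_unique F (q_mem F) q_ne_zero ?_
    rw [← h, norm_eq_zpow_ord F hx h0, ← zpow_natCast, ← zpow_mul, mul_comm]
  rw [ord_q] at h2
  refine ⟨?_, fun hle => ?_⟩
  · have : (d : ℤ) ≤ ramIdx F := by rw [h2]; exact le_mul_of_one_le_right (by positivity) h1
    exact_mod_cast this
  · have hle' : (ramIdx F : ℤ) ≤ d := by exact_mod_cast hle
    nlinarith

include hζ in
/-- The degree of `ℚ_q(ζ, μ_(q ^ n - 1))` is at most `(q - 1) n`. -/
theorem finrank_lField : Module.finrank ℚ_[q] (lField q ζ n) ≤ (q - 1) * n := by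
  have : NeZero (q - 1) := ⟨(Nat.sub_pos_of_lt hq.out.one_lt).ne'⟩
  refine (IntermediateField.finrank_sup_le _ _).trans ?_
  rw [(finrank_adjoin_zeta hζ (Nat.sub_add_cancel hq.out.one_le)).1]
  exact Nat.mul_le_mul_left _ (finrank_adjoin_unramRoot n)

include hζ in
/-- Its ramification index is at most `q - 1`. -/
theorem ramIdx_lField : ramIdx (lField q ζ n) ≤ q - 1 := by
  have h := finrank_lField hζ n
  rw [finrank_eq] at h
  exact Nat.le_of_mul_le_mul_right ((Nat.mul_le_mul_left _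
    (le_inertiaDeg n (F := lField q ζ n) (unramRoot_mem_lField n))).trans h)
    (Nat.pos_of_ne_zero (NeZero.ne n))

include hζ in
theorem wRoot_not_mem_lField : wRoot q ∉ lField q ζ n := fun h => by
  have hπ : piUnif q ζ ∈ lField q ζ n :=
    div_mem (sub_mem (zeta_mem_lField n) (one_mem _)) (sub_mem h (one_mem _))
  have hpos : 0 < q - 1 := Nat.sub_pos_of_lt hq.out.one_lt
  have h1 := (le_ramIdx hπ (Nat.mul_pos hq.out.pos hpos) (norm_piUnif_pow hζ)).1.trans
    (ramIdx_lField hζ n)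
  have := hq.out.two_le
  nlinarith

theorem finrank_adjoin_wRoot : Module.finrank ℚ_[q] ℚ_[q]⟮wRoot q⟯ ≤ q := by
  rw [adjoin.finrank (Algebra.IsIntegral.isIntegral (wRoot q))]
  refine (natDegree_le_of_dvd (minpoly.dvd ℚ_[q] (wRoot q)
    (p := X ^ q - C (1 + (q : ℚ_[q]))) ?_) (X_pow_sub_C_ne_zero hq.out.pos _)).trans_eq
      natDegree_X_pow_sub_C
  simp [wRoot_pow]

include hζ in
theorem kField_data : ramIdx (kField q ζ n) = q * (q - 1) ∧ inertiaDeg (kField q ζ n) = n ∧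
    ord (kField q ζ n) (piUnif q ζ) = 1 := by
  have hpos : 0 < q * (q - 1) := Nat.mul_pos hq.out.pos (Nat.sub_pos_of_lt hq.out.one_lt)
  obtain ⟨he, hord⟩ := le_ramIdx (F := kField q ζ n) (piUnif_mem_kField n) hpos
    (norm_piUnif_pow hζ)
  have hf := le_inertiaDeg n (F := kField q ζ n) (lField_le_kField n (unramRoot_mem_lField n))
  have h : Module.finrank ℚ_[q] (kField q ζ n) ≤ q * (q - 1) * n := by
    refine (IntermediateField.finrank_sup_le _ _).trans
      ((Nat.mul_le_mul (finrank_lField hζ n) finrank_adjoin_wRoot).trans_eq (by ring))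
  rw [finrank_eq] at h
  have e1 : ramIdx (kField q ζ n) = q * (q - 1) :=
    le_antisymm (Nat.le_of_mul_le_mul_right ((Nat.mul_le_mul_left _ hf).trans h)
      (Nat.pos_of_ne_zero (NeZero.ne n))) he
  refine ⟨e1, le_antisymm (Nat.le_of_mul_le_mul_left (e1 ▸ h) hpos) hf, hord e1.le⟩

include hζ in
/-- The uniformiser generates the maximal ideal of the coefficient field. -/
theorem norm_le_piUnif {x : PadicAlgCl q} (hx : x ∈ kField q ζ n) (h : ‖x‖ < 1) :
    ‖x‖ ≤ ‖piUnif q ζ‖ := by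
  have h1 := norm_le_norm_unif (kField q ζ n) hx h
  have h0 : piUnif q ζ ≠ 0 := norm_pos_iff.mp (norm_piUnif_pos hζ)
  rwa [norm_eq_zpow_ord (kField q ζ n) (piUnif_mem_kField n) h0, (kField_data hζ n).2.2, zpow_one]

include hζ in
/-- Every residue of the field is that of zero or of a root of unity of order `q ^ n - 1`. -/
theorem exists_rep {x : PadicAlgCl q} (hx : x ∈ kField q ζ n) (h : ‖x‖ ≤ 1) :
    ∃ t ∈ lField q ζ n, (t = 0 ∨ t ∈ primeToRoots q) ∧ ‖t‖ ≤ 1 ∧ ‖x - t‖ < 1 := by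
  have h1 := (mem_resField_iff _).mp (res_mem_resField (kField q ζ n) hx h)
  rw [resCard_eq, (kField_data hζ n).2.1] at h1
  obtain ⟨t, ht, hL, ht1, hxt⟩ := exists_rep_of_res h h1
  exact ⟨t, hL _ (unramRoot_mem_lField n), ht, ht1, hxt⟩

end Finite

/-! ### The unramified part and the automorphism -/

/-- Every residue is that of zero or of a root of unity of order prime to `q`. -/
theorem exists_rep_all {x : PadicAlgCl q} (h : ‖x‖ ≤ 1) :
    ∃ t, (t = 0 ∨ t ∈ primeToRoots q) ∧ ‖t‖ ≤ 1 ∧ ‖x - t‖ < 1 := by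
  have : FiniteDimensional ℚ_[q] ℚ_[q]⟮x⟯ :=
    adjoin.finiteDimensional (Algebra.IsIntegral.isIntegral x)
  have h1 := (mem_resField_iff _).mp
    (res_mem_resField ℚ_[q]⟮x⟯ (mem_adjoin_simple_self _ _) h)
  rw [resCard_eq] at h1
  have : NeZero (inertiaDeg ℚ_[q]⟮x⟯) := ⟨(inertiaDeg_pos _).ne'⟩
  obtain ⟨t, ht, -, ht1, hxt⟩ := exists_rep_of_res h h1
  exact ⟨t, ht, ht1, hxt⟩

/-- An automorphism fixing the roots of unity of order prime to `q` is congruent to the
identity. -/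
theorem norm_apply_sub_lt {s : Gal' q} (hs : ∀ t ∈ primeToRoots q, s t = t) {x : PadicAlgCl q}
    (h : ‖x‖ ≤ 1) : ‖s x - x‖ < 1 := by
  obtain ⟨t, ht, -, hxt⟩ := exists_rep_all h
  have hst : s t = t := ht.elim (fun h0 => by rw [h0, map_zero]) (hs t)
  rw [show s x - x = s (x - t) - (x - t) by rw [map_sub, hst]; ring, sub_eq_add_neg]
  exact lt_of_le_of_lt (IsUltrametricDist.norm_add_le_max _ _)
    (max_lt (by rwa [norm_apply]) (by rwa [norm_neg]))

variable (q ζ) in
/-- The field generated by `ζ` and all roots of unity of order prime to `q`. -/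
def lFieldInf : IntermediateField ℚ_[q] (PadicAlgCl q) := adjoin ℚ_[q] (insert ζ (primeToRoots q))

/-- An element of the union lies in some `ℚ_q(ζ, μ_(q ^ n - 1))`. -/
theorem exists_mem_lField {x : PadicAlgCl q} (hx : x ∈ lFieldInf q ζ) :
    ∃ N : ℕ, 0 < N ∧ ∀ n, N ∣ n → ∀ [NeZero n], x ∈ lField q ζ n := by
  classical
  obtain ⟨S, hS, hxS⟩ := exists_finset_of_mem_adjoin hx
  have hT : ∀ t ∈ S, ∃ d, 0 < d ∧ (t = ζ ∨ t ^ (q ^ d - 1) = 1) := fun t ht => by
    rcases hS (Finset.mem_coe.mpr ht) with h | ⟨d, hd, h⟩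
    exacts [⟨1, one_pos, Or.inl h⟩, ⟨d, hd, Or.inr h⟩]
  choose! d hd0 hd using hT
  refine ⟨∏ t ∈ S, d t, Finset.prod_pos hd0, fun n hn _ => ?_⟩
  refine adjoin_le_iff.mpr (fun t ht => ?_) hxS
  rcases hd t ht with h | h
  · rw [h]; exact zeta_mem_lField n
  obtain ⟨i, hi⟩ := exists_pow_eq (botF q) n (ω := t) (by
    rw [unramOrder_bot]; exact pow_sub_one_eq_one_of_dvd ((Finset.dvd_prod_of_mem d ht).trans hn) h)
  rw [← hi]
  exact pow_mem (unramRoot_mem_lField n) i

include hζ in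
/-- An automorphism fixing `ζ` and the roots of unity of order prime to `q`, moving `w`. -/
theorem exists_tau : ∃ s : Gal' q, s ζ = ζ ∧ (∀ t ∈ primeToRoots q, s t = t) ∧
    s (wRoot q) ≠ wRoot q := by
  by_contra h
  push Not at h
  have hw : wRoot q ∈ lFieldInf q ζ := exists_apply_eq_of_mem _ fun s hs => by
    have hfix := (mem_fixingSubgroup_iff _ s).mp hs
    exact h s (hfix ζ (subset_adjoin _ _ (Set.mem_insert _ _)))
      fun t ht => hfix t (subset_adjoin _ _ (Set.mem_insert_of_mem _ ht))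
  obtain ⟨N, hN, hmem⟩ := exists_mem_lField hw
  have : NeZero N := ⟨hN.ne'⟩
  exact wRoot_not_mem_lField hζ N (hmem N dvd_rfl)

variable {s : Gal' q} (hsζ : s ζ = ζ) (hsR : ∀ t ∈ primeToRoots q, s t = t)
  (hsw : s (wRoot q) ≠ wRoot q) {n : ℕ} [NeZero n]

include hζ in
theorem exists_apply_wRoot (s : Gal' q) : ∃ i < q, s (wRoot q) = ζ ^ i * wRoot q := by
  have hw0 : wRoot q ≠ 0 := norm_pos_iff.mp ((norm_wRoot (q := q)).symm ▸ one_pos)
  have h1 : (s (wRoot q) / wRoot q) ^ q = 1 := by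
    rw [div_pow, ← map_pow, wRoot_pow, map_add, map_one, map_natCast, div_self]
    exact norm_pos_iff.mp ((norm_one_add_q (q := q)).symm ▸ one_pos)
  have : NeZero q := ⟨hq.out.ne_zero⟩
  obtain ⟨i, hi, h2⟩ := hζ.eq_pow_of_pow_eq_one h1
  exact ⟨i, hi, by rw [h2, div_mul_cancel₀ _ hw0]⟩

include hζ hsζ hsR in
/-- The automorphisms stabilise the coefficient field. -/
theorem apply_mem_kField {x : PadicAlgCl q} (hx : x ∈ kField q ζ n) : s x ∈ kField q ζ n := by
  have hle : kField q ζ n ≤ IntermediateField.comap s.toAlgHom (kField q ζ n) := by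
    refine sup_le (sup_le ?_ ?_) ?_ <;> rw [adjoin_simple_le_iff] <;>
      show s _ ∈ kField q ζ n
    · rw [hsζ]; exact lField_le_kField n (zeta_mem_lField n)
    · rw [hsR _ (unramRoot_mem_primeToRoots n)]
      exact lField_le_kField n (unramRoot_mem_lField n)
    · obtain ⟨i, -, hi⟩ := exists_apply_wRoot hζ s
      rw [hi]
      exact mul_mem (pow_mem (lField_le_kField n (zeta_mem_lField n)) i) (wRoot_mem_kField n)
  exact hle hx

include hζ hsζ hsR hsw in
/-- The slope of the automorphism. -/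
theorem exists_slope : ∃ η ∈ kField q ζ n, ‖η‖ = 1 ∧
    s (piUnif q ζ) = piUnif q ζ * (1 + piUnif q ζ * η) := by
  obtain ⟨i, hiq, hi⟩ := exists_apply_wRoot hζ s
  set w := wRoot q
  set π := piUnif q ζ
  set sw := s w
  have hi0 : ¬ q ∣ i := fun hd => hsw (by
    rw [hi, Nat.eq_zero_of_dvd_of_lt hd hiq, pow_zero, one_mul])
  have hw1 : w - 1 ≠ 0 := wRoot_sub_one_ne_zero
  have hsw1 : sw - 1 ≠ 0 := by
    intro h0
    refine hw1 (s.injective ?_)
    rw [map_sub, map_one, map_zero, h0]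
  have hπ0 : π ≠ 0 := norm_pos_iff.mp (norm_piUnif_pos hζ)
  have hsπ : s π = (ζ - 1) / (sw - 1) := by
    rw [show π = (ζ - 1) / (w - 1) from rfl, map_div₀, map_sub, map_sub, map_one, hsζ]
  refine ⟨-(w * (ζ ^ i - 1)) / ((sw - 1) * π), ?_, ?_, ?_⟩
  · refine div_mem (neg_mem (mul_mem (wRoot_mem_kField n) (sub_mem (pow_mem
      (lField_le_kField n (zeta_mem_lField n)) i) (one_mem _)))) (mul_mem (sub_mem
        (apply_mem_kField hζ hsζ hsR (wRoot_mem_kField n)) (one_mem _)) (piUnif_mem_kField n))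
  · have h1 : ‖sw - 1‖ = ‖w - 1‖ := by rw [show sw - 1 = s (w - 1) by simp [sw], norm_apply]
    have : NeZero (q - 1) := ⟨(Nat.sub_pos_of_lt hq.out.one_lt).ne'⟩
    have h2 : ‖ζ ^ i - 1‖ = ‖ζ - 1‖ := by
      rw [← norm_neg, neg_sub, norm_one_sub_zeta_pow hζ hi0, ← norm_neg, neg_sub]
    have hn : (0 : ℝ) < ‖w - 1‖ := norm_pos_iff.mpr hw1
    have hz : ‖ζ - 1‖ ≠ 0 := by
      have h0 := norm_zeta_sub_one_pow hζ
      intro h
      rw [h, zero_pow (Nat.sub_pos_of_lt hq.out.one_lt).ne'] at h0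
      exact (norm_q_pos (q := q)).ne h0
    rw [norm_div, norm_neg, norm_mul, norm_mul, norm_wRoot, one_mul, h1, h2,
      show π = (ζ - 1) / (w - 1) from rfl, norm_div, mul_div_cancel₀ _ hn.ne', div_self hz]
  · have e : π * (w - 1) = ζ - 1 := div_mul_cancel₀ _ hw1
    have e2 : π * (1 + π * (-(w * (ζ ^ i - 1)) / ((sw - 1) * π))) * (sw - 1) =
        π * (sw - 1) - π * (w * (ζ ^ i - 1)) := by
      field_simp
      ring
    rw [hsπ, div_eq_iff hsw1, e2]
    linear_combination -e - π * hi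

include hζ hsζ hsR hsw in
/-- The automorphism is congruent to the identity modulo the square of the uniformiser. -/
theorem norm_apply_sub_le {x : PadicAlgCl q} (hx : x ∈ kField q ζ n) (h : ‖x‖ ≤ 1) :
    ‖s x - x‖ ≤ ‖piUnif q ζ‖ ^ 2 := by
  obtain ⟨t, htL, ht, -, hxt⟩ := exists_rep hζ n hx h
  have hst : s t = t := ht.elim (fun h0 => by rw [h0, map_zero]) (hsR t)
  set π := piUnif q ζ
  have hπpos := norm_piUnif_pos hζ
  have hπ0 : π ≠ 0 := norm_pos_iff.mp hπpos
  set y := (x - t) / π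
  have hy : y ∈ kField q ζ n :=
    div_mem (sub_mem hx (lField_le_kField n htL)) (piUnif_mem_kField n)
  have hy1 : ‖y‖ ≤ 1 := by
    rw [norm_div, div_le_one hπpos]
    exact norm_le_piUnif hζ n (sub_mem hx (lField_le_kField n htL)) hxt
  obtain ⟨η, -, hη, hsπ⟩ := exists_slope hζ hsζ hsR hsw (n := n)
  have hsy : ‖s y - y‖ ≤ ‖π‖ := norm_le_piUnif hζ n
    (sub_mem (apply_mem_kField hζ hsζ hsR hy) hy) (norm_apply_sub_lt hsR hy1)
  have e : s x - x = π * (s y - y) + π * π * η * s y := by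
    have h1 : π * y = x - t := by rw [mul_div_cancel₀ _ hπ0]
    have h2 := congrArg s h1
    rw [map_mul, map_sub, hst, hsπ] at h2
    linear_combination -h2 + h1
  rw [e]
  refine (IsUltrametricDist.norm_add_le_max _ _).trans (max_le ?_ ?_)
  · rw [norm_mul, sq]
    exact mul_le_mul_of_nonneg_left hsy (norm_nonneg _)
  · rw [norm_mul, norm_mul, norm_mul, hη, mul_one, norm_apply, sq]
    exact mul_le_of_le_one_right (by positivity) hy1

end FermatAgent.BAD.TwoP
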