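import Fermat.Agent.PSEMI.Ord.Shape
import Mathlib.GroupTheory.PGroup
import Mathlib.Algebra.CharP.Lemmas

/-!
# The kernel of the residual representation modulo `p`

On the part modulo `p` cut out by the minimal idempotent the kernel of the residual representation
acts through a `p`-group.
-/

set_option autoImplicit false

open IsLocalRing
open scoped Matrix

noncomputable section

namespace FermatAgent.BAD.TwoP.Fixed

open FermatAgent.PSEMI FermatAgent.PSEMI.MatLim

variable {p : ℕ} [hp : Fact p.Prime] {κ : Type} [Fintype κ] [DecidableEq κ] {T : Type}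
  [CommRing T] [IsLocalRing T] {𝒢 : Type} [Group 𝒢]

local notation "MatP" => Matrix κ κ ℤ_[p]
local notation "𝔽" => ZMod (p ^ 1)

/-- Reduction of vectors modulo `p`. -/
def red (z : κ → ℤ_[p]) : κ → 𝔽 := fun i => PadicInt.toZModPow 1 (z i)

/-- Reduction modulo `p` of a matrix applied to a vector. -/
theorem red_mulVec (X : MatP) (z : κ → ℤ_[p]) : red (X *ᵥ z) = mred 1 X *ᵥ red z :=
  funext fun i => RingHom.map_mulVec (PadicInt.toZModPow 1) X z i

omit [Fintype κ] [DecidableEq κ] in
/-- Reduction modulo `p` of a multiple. -/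
theorem red_smul (a : ℤ_[p]) (z : κ → ℤ_[p]) :
    red (a • z) = PadicInt.toZModPow 1 a • red z := funext fun _ => map_mul _ _ _

/-- `p` is zero modulo `p`. -/
theorem natCast_p_eq_zero : ((p : ℕ) : 𝔽) = 0 := by
  have h : ∀ n, n = p → ((n : ℕ) : ZMod (p ^ 1)) = 0 → ((p : ℕ) : ZMod (p ^ 1)) = 0 := by
    rintro _ rfl h; exact h
  exact h _ (pow_one p) (ZMod.natCast_self (p ^ 1))

omit [Fintype κ] [DecidableEq κ] in
/-- Reduction modulo `p` is surjective. -/
theorem exists_red (v : κ → 𝔽) : ∃ z : κ → ℤ_[p], red z = v := by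
  have : NeZero (p ^ 1) := ⟨pow_ne_zero 1 hp.out.ne_zero⟩
  exact ⟨fun i => ((v i).val : ℤ_[p]), funext fun i => by simp [red]⟩

/-- A scalar matrix acts as the scalar modulo `p`. -/
theorem mred_algebraMap_mulVec (a : ℤ_[p]) (v : κ → 𝔽) :
    mred 1 (algebraMap ℤ_[p] MatP a) *ᵥ v = PadicInt.toZModPow 1 a • v := by
  have h : mred 1 (algebraMap ℤ_[p] MatP a) =
      Matrix.diagonal fun _ => PadicInt.toZModPow 1 a := by
    show (algebraMap ℤ_[p] MatP a).map (PadicInt.toZModPow 1) = _
    rw [Matrix.algebraMap_eq_diagonal, Matrix.diagonal_map (map_zero _)]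
    rfl
  funext i
  rw [h, Matrix.mulVec_diagonal]
  rfl

variable (A : HeckeAct p κ T 𝒢)

/-- The kernel of the residual representation. -/
def resKer : Subgroup 𝒢 := ((residue T).mapMatrix.toMonoidHom.comp A.M).ker

/-- Membership in the kernel of the residual representation. -/
theorem mem_resKer {g : 𝒢} : g ∈ resKer A ↔ (A.M g).map (residue T) = 1 := MonoidHom.mem_ker

instance : (resKer A).Normal := MonoidHom.normal_ker _

theorem theta_of_mem_resKer {g : 𝒢} (hg : g ∈ resKer A) :
    A.toHeckePart.θ (A.τ g) = 2 ∧ A.toHeckePart.θ (A.d g) = 1 := by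
  rw [mem_resKer] at hg
  refine ⟨?_, ?_⟩
  · calc A.toHeckePart.θ (A.τ g) = residue T (A.M g).trace := congrArg (residue T) (A.tr g)
      _ = ((A.M g).map (residue T)).trace := by simp [Matrix.trace_fin_two]
      _ = 2 := by rw [hg, Matrix.trace_one]; simp
  · calc A.toHeckePart.θ (A.d g) = residue T (A.M g).det := congrArg (residue T) (A.det g)
      _ = ((residue T).mapMatrix (A.M g)).det := RingHom.map_det _ _
      _ = 1 := by rw [RingHom.mapMatrix_apply, hg, Matrix.det_one]

variable {e : A.R0} (he : e * e = e)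
  (hmin : ∀ f : A.R0, f * f = f → A.toHeckePart.θ f = 1 → e * f = e)

include he hmin in
theorem isNilpotent_mred_mul {x : A.R0} (hx : A.toHeckePart.θ x = 0) :
    IsNilpotent (mred 1 ((x : MatP) * (e : MatP))) := by
  obtain ⟨j, hj⟩ := HeckePart.nil_of_θ hmin hx 1
  exact ⟨j + 1, by
    rw [← map_pow, Commute.mul_pow (A.comm _ x.2 _ e.2),
      IsIdempotentElem.pow_succ_eq (a := (e : MatP)) j (congrArg Subtype.val he)]
    exact hj _ (Nat.le_succ j)⟩

include he hmin in
/-- Elements of the kernel act unipotently. -/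
theorem isNilpotent_sub_one {g : 𝒢} (hg : g ∈ resKer A) :
    IsNilpotent (mred 1 ((A.G g - 1) * (e : MatP))) := by
  obtain ⟨hτ, hd⟩ := theta_of_mem_resKer A hg
  obtain ⟨m, hm⟩ := isNilpotent_mred_mul A he hmin (x := A.τ g - 2)
    (by rw [map_sub, hτ, map_ofNat, sub_self])
  have h1 : IsNilpotent (mred 1 (((A.τ g - 2 : A.R0) : MatP) * (e : MatP)) * mred 1 (A.G g)) :=
    ⟨m, by rw [((((A.commG g _ (A.τ g - 2).2)).mul_right (A.commG g _ e.2)).symm.map _).mul_pow,
      hm, zero_mul]⟩
  have h2 := isNilpotent_mred_mul A he hmin (x := A.d g - 1)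
    (by rw [map_sub, hd, map_one, sub_self])
  have hc : Commute (mred 1 (((A.τ g - 2 : A.R0) : MatP) * (e : MatP)) * mred 1 (A.G g))
      (mred 1 (((A.d g - 1 : A.R0) : MatP) * (e : MatP))) := by
    rw [← map_mul]
    refine Commute.map ?_ _
    exact (A.comm _ (mul_mem (A.τ g - 2).2 e.2) _ (mul_mem (A.d g - 1).2 e.2)).mul_left
      (A.commG g _ (mul_mem (A.d g - 1).2 e.2))
  obtain ⟨k, hk⟩ := hc.isNilpotent_sub h1 h2
  refine ⟨2 * k, ?_⟩
  rw [pow_mul]
  convert hk using 2
  have cG : Commute (A.G g - 1) (e : MatP) := (A.commG g _ e.2).sub_left (Commute.one_left _)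
  rw [← map_pow, cG.mul_pow, sq (e : MatP), show (e : MatP) * (e : MatP) = e from
    congrArg Subtype.val he, ← map_mul, ← map_sub]
  congr 1
  have q := A.quad g
  have hq : A.G g * A.G g = (A.τ g : MatP) * A.G g - ((A.d g : A.R0) : MatP) := by
    rw [← sub_eq_zero, ← q]
    show _ = A.G g * A.G g - (A.τ g : MatP) * A.G g + algebraMap ℤ_[p] MatP (A.cyc g)
    show A.G g * A.G g - ((A.τ g : MatP) * A.G g - algebraMap ℤ_[p] MatP (A.cyc g)) = _
    abel
  have h2 : ((2 : A.R0) : MatP) = 1 + 1 := by rw [← one_add_one_eq_two]; rfl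
  simp only [AddSubgroupClass.coe_sub, Subring.coe_one, h2, sq, sub_mul, mul_sub, one_mul, mul_one,
    add_mul, hq, mul_assoc, (A.commG g _ e.2).eq]
  abel

include he hmin in
/-- Elements of the kernel have `p`-power order on the part of `e`. -/
theorem exists_pow_fix {g : 𝒢} (hg : g ∈ resKer A) :
    ∃ m : ℕ, mred 1 (A.G (g ^ p ^ m) * (e : MatP)) = mred 1 (e : MatP) := by
  obtain ⟨n, hn⟩ := isNilpotent_sub_one A he hmin hg
  refine ⟨n, ?_⟩
  set x := mred 1 (A.G g) - 1
  set E := mred 1 (e : MatP)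
  have hEE : E * E = E := by rw [← map_mul]; exact congrArg _ (congrArg Subtype.val he)
  have cE : Commute x E := ((A.commG g _ e.2).map _).sub_left (Commute.one_left _)
  have hpow : p ^ n ≠ 0 := pow_ne_zero n hp.out.ne_zero
  obtain ⟨d, hd⟩ := Nat.exists_eq_succ_of_ne_zero hpow
  have hx : x ^ p ^ n * E = 0 := by
    have h : (x * E) ^ p ^ n = 0 := by
      rw [show x * E = mred 1 ((A.G g - 1) * (e : MatP)) by rw [map_mul, map_sub, map_one]]
      exact pow_eq_zero_of_le (Nat.lt_pow_self hp.out.one_lt).le hn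
    rwa [cE.mul_pow, hd, IsIdempotentElem.pow_succ_eq (a := E) d hEE, ← hd] at h
  have hp0 : (p : Matrix κ κ 𝔽) = 0 := by
    rw [← Matrix.diagonal_natCast, ← Matrix.diagonal_zero]
    congr 1
    funext
    exact natCast_p_eq_zero
  obtain ⟨r, hr⟩ := (Commute.one_left x).exists_add_pow_prime_pow_eq hp.out n
  rw [map_mul, map_pow A.G, map_pow, show mred 1 (A.G g) = 1 + x by simp [x], hr, hp0,
    one_pow]
  simp only [zero_mul, add_zero, add_mul, one_mul]
  show E + x ^ p ^ n * E = E
  rw [hx, add_zero]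

end FermatAgent.BAD.TwoP.Fixed
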