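import Fermat.Agent.BAD.TwoP.Step
import Fermat.Agent.BAD.TwoP.Field
import Fermat.Agent.BAD.GaloisAut

/-!
# The coefficient rings and their automorphism

The values of the separating functions over a fixed value of `t` are fixed by automorphisms
congruent to the identity. `oRing` is the ring of integers of the coefficient field, and `tauP` is
an automorphism fixing `ζ_q` and the roots of unity of order prime to `q`.
-/

set_option autoImplicit false

open UpperHalfPlane CongruenceSubgroup IsLocalRing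
open scoped MatrixGroups

noncomputable section

namespace FermatAgent.BAD.TwoP

open FermatAgent.ES (BSub BRing zetaC AuxLevel CPlace GoodRoot GoodPoint GalGrp orbPt haupt
  padicSubring isCDVR_padicSubring)
open CFT.Local (unramRoot botF Gal' res)

/-! ### Automorphisms fixing the roots of unity of level `M` -/

section Fix

variable {M m : ℕ} [NeZero M] (haux : AuxLevel M m) {σ : ℂ ≃+* ℂ}
  (hσ : σ (zetaC M) = zetaC M ^ 1)

/-- The functions fixed by conjugation. -/
def fixRing : Subring (BSub M) :=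
  RingHom.eqLocus (ES.conjHom haux (a := 1) (by rw [Nat.cast_one]; exact isUnit_one) hσ)
    (RingHom.id _)

theorem ratio_mem_fixRing {v w v' w' : Fin 2 → ZMod M} (hv : v ≠ 0) (hw : w ≠ 0)
    (h' : ES.Adm M v' w') :
    (⟨ES.ratio M v w v' w', ES.ratio_mem hv hw h'⟩ : BSub M) ∈ fixRing haux hσ := by
  have ha : IsUnit ((1 : ℕ) : ZMod M) := by rw [Nat.cast_one]; exact isUnit_one
  refine Subtype.ext (ES.lexp_injective (SetLike.coe_mem _) (ES.ratio_mem hv hw h') (γ := 1) ?_)
  rw [ES.lexp_conjHom haux ha hσ _ (ES.GalRel.one _)]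
  show ES.mapSer _ (ES.lexp M 1 (ES.ratio M v w v' w')) =
    ES.lexp M 1 (ES.ratio M v w v' w')
  rw [ES.lexp_ratio hv hw h' 1, ES.mapSer_ratioSeries (by exact hσ)]
  have h2 : ∀ u : Fin 2 → ZMod M, ES.scaleVec ((1 : ℕ) : ZMod M) u = u := fun u => by
    funext i; fin_cases i <;> simp [ES.scaleVec]
  simp only [h2]

theorem sepB_mem_fixRing (S : Finset (GalGrp M m)) :
    (⟨ES.sepB haux S, (ES.sepB_mem haux ES.zetaC_goodRoot_top S).1⟩ : BSub M) ∈
      fixRing haux hσ := by
  have e : (⟨ES.sepB haux S, (ES.sepB_mem haux ES.zetaC_goodRoot_top S).1⟩ : BSub M) =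
      ∏ g ∈ S, ⟨ES.sepFun haux g, (ES.sepFun_mem haux ES.zetaC_goodRoot_top g).1⟩ :=
    Subtype.ext (by simp [ES.sepB])
  rw [e]
  exact prod_mem fun g _ => ratio_mem_fixRing haux hσ (ES.movedVec_ne_zero haux g)
    (ES.adm_ref haux).right (ES.adm_ref haux)

theorem sepA_mem_fixRing (S : Finset (GalGrp M m)) :
    (⟨ES.sepA haux S, (ES.sepA_mem haux ES.zetaC_goodRoot_top S).1⟩ : BSub M) ∈
      fixRing haux hσ := by
  have hact : ∀ g, ES.act (ES.repG M m g) (ES.sepFun haux g) =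
      ES.ratio M (ES.vmul M (ES.movedVec haux g) (ES.repG M m g))
        (ES.vmul M (ES.refA haux.dvd) (ES.repG M m g))
        (ES.vmul M (ES.refB haux.dvd) (ES.repG M m g))
        (ES.vmul M (ES.refA haux.dvd) (ES.repG M m g)) := fun g => ES.act_ratio _ _ _ _ _
  have hne : ∀ {v : Fin 2 → ZMod M} (γ : SL(2, ℤ)), v ≠ 0 → ES.vmul M v γ ≠ 0 := fun γ hv h =>
    hv (ES.vmul_injective γ (by simpa [ES.vmul_zero] using h))
  let a : GalGrp M m → BSub M := fun g =>
    ⟨ES.act (ES.repG M m g) (ES.sepFun haux g),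
      ES.act_mem_BSub (ES.sepFun_mem haux ES.zetaC_goodRoot_top g).1 _⟩
  let b : GalGrp M m → BSub M := fun g => if h : g = 1 then 1 else
    ⟨ES.ratio M (ES.refB haux.dvd) (ES.refA haux.dvd) (ES.movedVec haux g)
      (ES.vmul M (ES.movedVec haux g) (ES.repG M m g)),
      ES.ratio_mem (ES.adm_ref haux).left (ES.adm_ref haux).right (ES.adm_moved haux h)⟩
  have e : (⟨ES.sepA haux S, (ES.sepA_mem haux ES.zetaC_goodRoot_top S).1⟩ : BSub M) =
      (∏ g ∈ Finset.univ.erase 1 \ S, -a g) * ∏ g ∈ Finset.univ.erase 1, b g := by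
    refine Subtype.ext ?_
    simp only [ES.sepA, MulMemClass.coe_mul, NegMemClass.coe_neg,
      SubmonoidClass.coe_finsetProd, a]
    congr 1
    refine Finset.prod_congr rfl fun g hg => ?_
    simp only [b, dif_neg (Finset.ne_of_mem_erase hg)]
  rw [e]
  refine mul_mem (prod_mem fun g _ => neg_mem ?_) (prod_mem fun g hg => ?_)
  · have hu := (ES.adm_ref haux).mul (ES.repG M m g)
    have : a g = ⟨_, ES.ratio_mem (hne _ (ES.movedVec_ne_zero haux g))
        (hne _ (ES.adm_ref haux).right) hu⟩ := Subtype.ext (hact g)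
    rw [this]
    exact ratio_mem_fixRing haux hσ (hne _ (ES.movedVec_ne_zero haux g))
      (hne _ (ES.adm_ref haux).right) hu
  · simp only [b, dif_neg (Finset.ne_of_mem_erase hg)]
    exact ratio_mem_fixRing haux hσ (ES.adm_ref haux).left (ES.adm_ref haux).right
      (ES.adm_moved haux (Finset.ne_of_mem_erase hg))

include hσ in
/-- The values over a fixed value of `t` are permuted. -/
theorem exists_apply_orbPt {τ0 : ℍ} (hfix : σ (haupt haux.dvd τ0) = haupt haux.dvd τ0)
    (g : GalGrp M m) :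
    ∃ g', ∀ f ∈ fixRing haux hσ,
      σ ((f : ℍ → ℂ) (orbPt M m τ0 g')) = (f : ℍ → ℂ) (orbPt M m τ0 g) := by
  have ha : IsUnit ((1 : ℕ) : ZMod M) := by rw [Nat.cast_one]; exact isUnit_one
  set C := ES.conjHom haux ha hσ
  let ψ : BRing M (⊤ : Subring ℂ) →+* ℂ :=
    ((σ.symm : ℂ →+* ℂ).comp ((Pi.evalRingHom (fun _ : ℍ => ℂ) (orbPt M m τ0 g)).comp
      ((BSub M).val.toRingHom.comp C))).comp
      (Subring.inclusion (T := (BSub M).toSubring) (fun f hf => hf.1))
  have hψ : ∀ f : BRing M (⊤ : Subring ℂ),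
      ψ f = σ.symm ((C ⟨f, f.2.1⟩ : ℍ → ℂ) (orbPt M m τ0 g)) := fun f => rfl
  have hconst : ∀ c : ℂ, ψ ⟨fun _ => c, ES.const_mem_BRing trivial⟩ = c := fun c => by
    rw [hψ]
    change σ.symm ((C ⟨fun _ => c, (BSub M).algebraMap_mem c⟩ : ℍ → ℂ) _) = c
    rw [ES.conjHom_const]
    exact σ.symm_apply_apply c
  have ht : (⟨haupt haux.dvd, (ES.polRing_le_BRing haux (A := (⊤ : Subring ℂ))
      ES.zetaC_goodRoot_top (ES.haupt_mem_polRing haux _)).1⟩ : BSub M) ∈ fixRing haux hσ :=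
    ratio_mem_fixRing haux hσ (ES.adm_num haux (ES.one_le haux)).left
      (ES.adm_num haux (ES.one_le haux)).right (ES.adm_den haux (ES.one_le haux))
  obtain ⟨g', hg'⟩ := ES.exists_point_of_hom haux ES.zetaC_goodRoot_top
    (ES.goodPoint_top haux τ0) ψ (by
      rw [hconst, hψ,
        show C ⟨_, _⟩ = (⟨haupt haux.dvd, _⟩ : BSub M) from ht]
      show σ.symm (haupt haux.dvd (orbPt M m τ0 g)) = _
      rw [ES.haupt_orbPt haux, RingEquiv.symm_apply_eq, hfix])
  refine ⟨g', fun f hf => ?_⟩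
  have h := hg' ⟨f, ES.mem_BRing_top.mpr f.2⟩
  rw [hψ, hconst, show C ⟨(f : ℍ → ℂ), _⟩ = f from hf, RingEquiv.symm_apply_eq] at h
  exact h.symm

include hσ in
/-- **An automorphism congruent to the identity fixes the values over a fixed value.** -/
theorem apply_eq_of_mem_fibVals {ℓ : ℕ} {P : CPlace ℓ}
    (hroot : σ (ES.hauptRoot haux) = ES.hauptRoot haux)
    (hsmall : ∀ z, P.abv z ≤ 1 → P.abv (σ z - z) < 1) {τ0 : ℍ} (hg : GoodPoint haux P.ring τ0)
    (hfix : σ (haupt haux.dvd τ0) = haupt haux.dvd τ0) {x : ℂ}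
    (hx : x ∈ ES.fibVals haux τ0) : σ x = x := by
  classical
  have key : ∀ g, (∀ S, σ (ES.sepA haux S (orbPt M m τ0 g)) = ES.sepA haux S (orbPt M m τ0 g)) ∧
      ∀ S, σ (ES.sepB haux S (orbPt M m τ0 g)) = ES.sepB haux S (orbPt M m τ0 g) := by
    intro g
    obtain ⟨g', hg'⟩ := exists_apply_orbPt haux hσ hfix g
    have hA : ∀ S, σ (ES.sepA haux S (orbPt M m τ0 g')) = ES.sepA haux S (orbPt M m τ0 g) :=
      fun S => hg' _ (sepA_mem_fixRing haux hσ S)
    have hB : ∀ S, σ (ES.sepB haux S (orbPt M m τ0 g')) = ES.sepB haux S (orbPt M m τ0 g) :=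
      fun S => hg' _ (sepB_mem_fixRing haux hσ S)
    suffices e : g' = g by subst e; exact ⟨hA, hB⟩
    by_contra hne
    set U := (Finset.univ.erase (1 : GalGrp M m)).powerset
    have h1 : ∀ h k : GalGrp M m, ∑ S ∈ U, ES.sepA haux S (orbPt M m τ0 k) *
        ES.sepB haux S (orbPt M m τ0 h) = if h = k then 1 else 0 := fun h k => by
      have := ES.fibIdem_orbPt haux τ0 h k
      simpa [ES.fibIdem, U] using this
    have h2 : P.abv (∑ S ∈ U, (ES.sepA haux S (orbPt M m τ0 g') *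
        ES.sepB haux S (orbPt M m τ0 g') - ES.sepA haux S (orbPt M m τ0 g) *
        ES.sepB haux S (orbPt M m τ0 g'))) < 1 := by
      refine P.maxBall.sum_mem fun S _ => ?_
      rw [← sub_mul, mul_comm]
      refine P.mul_mem_maxBall _ (hg.sepB_mem S g') _ ?_
      rw [← hA S, CPlace.mem_maxBall, ← AbsoluteValue.map_neg, neg_sub]
      exact hsmall _ (hg.sepA_mem S g')
    rw [Finset.sum_sub_distrib, h1, h1, if_pos rfl, if_neg hne, sub_zero, map_one] at h2
    exact lt_irrefl _ h2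
  rcases hx with (rfl | rfl) | ⟨⟨S, g⟩, rfl⟩ | ⟨⟨S, g⟩, rfl⟩
  · exact hfix
  · exact hroot
  · exact (key g).1 S
  · exact (key g).2 S

end Fix

/-! ### The rings -/

variable {q : ℕ} [hq : Fact q.Prime] (Φ : ℂ ≃+* PadicAlgCl q)

/-- The chosen root of unity of order `q` in `PadicAlgCl q`. -/
def zetaP : PadicAlgCl q := Φ (zetaC q)

/-- The chosen root is a primitive `q`-th root of unity. -/
theorem zetaP_spec : IsPrimitiveRoot (zetaP Φ) q :=
  (ES.zetaC_isPrimitiveRoot q).map_of_injective Φ.injective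

/-- The integers of `ℚ_q(ζ_q, w, μ_(q ^ n - 1))` in `ℂ`. -/
def oRing (n : ℕ) [NeZero n] : Subring ℂ :=
  padicSubring Φ (Φ.symm '' {zetaP Φ, unramRoot (botF q) n, wRoot q})

/-- The coefficient rings are complete discrete valuation rings. -/
theorem isCDVR_oRing (n : ℕ) [NeZero n] : (CPlace.ofEquiv Φ).IsCDVR (oRing Φ n) :=
  isCDVR_padicSubring Φ ((Set.toFinite _).image _)

/-- The fraction field of the coefficient ring is the coefficient field. -/
theorem adjoin_oRing (n : ℕ) [NeZero n] :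
    IntermediateField.adjoin ℚ_[q]
      (Φ '' (Φ.symm '' {zetaP Φ, unramRoot (botF q) n, wRoot q})) =
      kField q (zetaP Φ) n := by
  rw [← Set.image_comp, show (⇑Φ ∘ ⇑Φ.symm) = id from funext Φ.apply_symm_apply, Set.image_id,
    kField, lField, ← IntermediateField.adjoin_union, ← IntermediateField.adjoin_union,
    Set.union_assoc]
  rfl

/-- Membership in a coefficient ring. -/
theorem mem_oRing {n : ℕ} [NeZero n] {z : ℂ} :
    z ∈ oRing Φ n ↔ Φ z ∈ kField q (zetaP Φ) n ∧ ‖Φ z‖ ≤ 1 := by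
  rw [← adjoin_oRing Φ n]
  exact Iff.rfl

/-- The fields `ℚ_q(ζ, μ_(q ^ n - 1))` grow with `n`. -/
theorem lField_mono {n N : ℕ} [NeZero n] [NeZero N] (h : n ∣ N) :
    lField q (zetaP Φ) n ≤ lField q (zetaP Φ) N := by
  refine sup_le le_sup_left (IntermediateField.adjoin_simple_le_iff.mpr ?_)
  obtain ⟨i, hi⟩ := CFT.Local.exists_pow_eq (botF q) N (ω := unramRoot (botF q) n) (by
    rw [unramOrder_bot]
    refine pow_sub_one_eq_one_of_dvd h ?_
    rw [← unramOrder_bot]
    exact (CFT.Local.unramRoot_spec (botF q) n).pow_eq_one)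
  rw [← hi]
  exact pow_mem (unramRoot_mem_lField N) i

/-- The coefficient rings grow with `n`. -/
theorem oRing_mono {n N : ℕ} [NeZero n] [NeZero N] (h : n ∣ N) : oRing Φ n ≤ oRing Φ N := by
  intro z hz
  rw [mem_oRing] at hz ⊢
  exact ⟨(sup_le_sup_right (lField_mono Φ h) _) hz.1, hz.2⟩

/-- An automorphism fixing `ζ_q` and the roots of unity of order prime to `q`, moving `w`. -/
def tauP : Gal' q := (exists_tau (zetaP_spec Φ)).choose

/-- The properties of the chosen automorphism. -/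
theorem tauP_spec : tauP Φ (zetaP Φ) = zetaP Φ ∧ (∀ t ∈ primeToRoots q, tauP Φ t = t) ∧
    tauP Φ (wRoot q) ≠ wRoot q := (exists_tau (zetaP_spec Φ)).choose_spec

/-- The chosen automorphism is congruent to the identity. -/
theorem small_tauP (z : ℂ) (hz : (CPlace.ofEquiv Φ).abv z ≤ 1) :
    (CPlace.ofEquiv Φ).abv (conjC Φ (tauP Φ) z - z) < 1 := by
  rw [CPlace.ofEquiv_abv] at hz ⊢
  rw [map_sub, map_conjC]
  exact norm_apply_sub_lt (tauP_spec Φ).2.1 hz

/-! ### Residues -/

/-- The residue in the residue field of `PadicAlgCl q`. -/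
def resP (z : ℂ) : CFT.Local.Res' q := res (Φ z)

/-- The residue field of a coefficient ring inside the residue field of `ℚ̄_q`. -/
theorem exists_resHom_of {O : Subring ℂ} (hC : (CPlace.ofEquiv Φ).IsCDVR O) {n : ℕ} [NeZero n]
    (hn : Φ.symm (unramRoot (botF q) n) ∈ O) :
    haveI := hC.dvr
    ∃ ι : ResidueField O →+* CFT.Local.Res' q,
      (∀ o : O, ι (residue O o) = resP Φ o) ∧
      ∀ c : CFT.Local.Res' q, (c = 0 ∨ c ^ (q ^ n - 1) = 1) → c ∈ ι.range := by
  have := hC.dvr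
  have hle : ∀ o : O, ‖Φ o‖ ≤ 1 := fun o => by
    have := hC.le o.2
    rwa [CPlace.mem_ring, CPlace.ofEquiv_abv] at this
  set φ : O →+* CFT.Local.intRing q :=
    ((Φ : ℂ →+* PadicAlgCl q).comp O.subtype).codRestrict _
      fun o => CFT.Local.mem_intRing.mpr (hle o)
  set f := (IsLocalRing.residue (CFT.Local.intRing q)).comp φ
  have hf : ∀ o, f o = resP Φ o := fun o => (CFT.Local.res_def _).symm
  set ι : ResidueField O →+* CFT.Local.Res' q :=
    Ideal.Quotient.lift (maximalIdeal O) f fun r hr => by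
      rw [hf, resP, CFT.Local.res_eq_zero_iff (hle r)]
      have := (hC.mem_maximalIdeal_iff r).mp hr
      rwa [CPlace.ofEquiv_abv] at this
  refine ⟨ι, fun o => hf o, fun c hc => ?_⟩
  rcases hc with rfl | hc
  · exact zero_mem _
  · rw [← unramOrder_bot] at hc
    have : NeZero (CFT.Local.unramOrder (botF q) n) :=
      ⟨(CFT.Local.unramOrder_pos (botF q) n).ne'⟩
    obtain ⟨i, -, rfl⟩ := (CFT.Local.res_unramRoot_spec (botF q) n).eq_pow_of_pow_eq_one hc
    refine pow_mem ?_ i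
    exact ⟨residue _ ⟨_, hn⟩, (hf _).trans (by rw [resP, Φ.apply_symm_apply])⟩

/-- The residue field of a coefficient ring in that of `ℚ̄_q`. -/
theorem exists_resHom (n : ℕ) [NeZero n] :
    haveI := (isCDVR_oRing Φ n).dvr
    ∃ ι : ResidueField (oRing Φ n) →+* CFT.Local.Res' q,
      (∀ o : oRing Φ n, ι (residue (oRing Φ n) o) = resP Φ o) ∧
      ∀ c : CFT.Local.Res' q, (c = 0 ∨ c ^ (q ^ n - 1) = 1) → c ∈ ι.range :=
  exists_resHom_of Φ (isCDVR_oRing Φ n) ((mem_oRing Φ).mpr (by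
    rw [Φ.apply_symm_apply]
    exact ⟨lField_le_kField n (unramRoot_mem_lField n),
      (CFT.Local.norm_unramRoot (botF q) n).le⟩))

/-- Every residue is killed by some `x ↦ x ^ (q ^ n - 1) - 1`. -/
theorem exists_exponent_res (c : CFT.Local.Res' q) :
    ∃ n, 0 < n ∧ (c = 0 ∨ c ^ (q ^ n - 1) = 1) := by
  by_cases h0 : c = 0
  · exact ⟨1, one_pos, Or.inl h0⟩
  obtain ⟨x, hx, rfl⟩ := CFT.Local.exists_res_eq c
  obtain ⟨t, ht, ht1, hxt⟩ := exists_rep_all hx
  have e : res x = res t := (CFT.Local.res_eq_res_iff hx ht1).mpr hxt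
  rcases ht with rfl | ⟨n, hn, h⟩
  · exact absurd (e.trans CFT.Local.res_zero) h0
  · exact ⟨n, hn, Or.inr (by rw [e, ← CFT.Local.res_pow ht1, h, CFT.Local.res_one])⟩

/-- The values of the separating functions are integral. -/
theorem mem_ring_of_monic_root {x : ℂ}
    (h : ∃ F : Polynomial (CPlace.ofEquiv Φ).ring, F.Monic ∧
      (F.map (CPlace.ofEquiv Φ).ring.subtype).eval x = 0) :
    x ∈ (CPlace.ofEquiv Φ).ring := by
  obtain ⟨F, hF, hev⟩ := h
  set φ : (CPlace.ofEquiv Φ).ring →+* CFT.Local.intRing q :=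
    ((Φ : ℂ →+* PadicAlgCl q).comp (CPlace.ofEquiv Φ).ring.subtype).codRestrict _
      fun o => CFT.Local.mem_intRing.mpr (by
        have := o.2
        rwa [CPlace.mem_ring, CPlace.ofEquiv_abv] at this)
  have hint : IsIntegral (CFT.Local.intRing q) (Φ x) := by
    refine ⟨F.map φ, hF.map φ, ?_⟩
    rw [Polynomial.eval_map] at hev
    rw [Polynomial.eval₂_map, show (algebraMap (CFT.Local.intRing q) (PadicAlgCl q)).comp φ =
        (Φ : ℂ →+* PadicAlgCl q).comp (CPlace.ofEquiv Φ).ring.subtype from rfl,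
      show Φ x = (Φ : ℂ →+* PadicAlgCl q) x from rfl, ← Polynomial.hom_eval₂, hev, map_zero]
  obtain ⟨y, hy⟩ := IsIntegrallyClosed.isIntegral_iff.mp hint
  rw [CPlace.mem_ring, CPlace.ofEquiv_abv, ← hy]
  exact CFT.Local.mem_intRing.mp y.2

end FermatAgent.BAD.TwoP
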