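import Fermat.Agent.BAD.TwoP.Field
import Mathlib.NumberTheory.Padics.Hensel
import Mathlib.RingTheory.Norm.Basic
import Mathlib.FieldTheory.Normal.Basic

/-!
# Kummer elements over `ℚ_q(ζ_q, μ_(q ^ 2 - 1))` with radicand from `ℚ_q`

A radicand of valuation divisible by `q` gives an element fixed with `w`; a radicand of valuation
prime to `q` gives a field in which the automorphisms move the elements of integral norm by less
than `‖ζ - 1‖`.
-/

set_option autoImplicit false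

noncomputable section

open IntermediateField Polynomial

namespace FermatAgent.BAD.TwoP

open CFT.Local

variable {q : ℕ} [hq : Fact q.Prime] {ζ : PadicAlgCl q} (hζ : IsPrimitiveRoot ζ q)

local notation "L₀" => lField q ζ 2

include hζ in
theorem not_dvd_finrank_lField_two (hq2 : q ≠ 2) : ¬ q ∣ Module.finrank ℚ_[q] L₀ := by
  have hpos : 0 < q - 1 := Nat.sub_pos_of_lt hq.out.one_lt
  have he := (le_ramIdx (F := L₀) (sub_mem (zeta_mem_lField 2) (one_mem _)) hpos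
    (norm_zeta_sub_one_pow hζ)).1
  have hf := le_inertiaDeg 2 (F := L₀) (unramRoot_mem_lField 2)
  have h := finrank_lField hζ 2
  rw [finrank_eq] at h ⊢
  have e1 : ramIdx L₀ * inertiaDeg L₀ = (q - 1) * 2 := le_antisymm h (Nat.mul_le_mul he hf)
  rw [e1]
  intro hd
  rcases hq.out.dvd_mul.mp hd with h' | h'
  · exact absurd (Nat.le_of_dvd hpos h') (by omega)
  · exact hq2 ((Nat.prime_dvd_prime_iff_eq hq.out Nat.prime_two).mp h')

include hζ in
theorem apply_mem_lField (g : Gal' q) {n : ℕ} [NeZero n] {x : PadicAlgCl q}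
    (hx : x ∈ lField q ζ n) : g x ∈ lField q ζ n := by
  have : NeZero q := ⟨hq.out.ne_zero⟩
  have hle : lField q ζ n ≤ IntermediateField.comap g.toAlgHom (lField q ζ n) := by
    refine sup_le ?_ ?_ <;> rw [adjoin_simple_le_iff] <;> show g _ ∈ lField q ζ n
    · obtain ⟨i, -, hi⟩ := hζ.eq_pow_of_pow_eq_one (ξ := g ζ)
        (by rw [← map_pow, hζ.pow_eq_one, map_one])
      rw [← hi]; exact pow_mem (zeta_mem_lField n) i
    · obtain ⟨i, hi⟩ := exists_pow_eq (botF q) n (ω := g (unramRoot (botF q) n))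
        (by rw [← map_pow, (unramRoot_spec (botF q) n).pow_eq_one, map_one])
      rw [← hi]; exact pow_mem (unramRoot_mem_lField n) i
  exact hle hx

include hζ in
/-- The fixing subgroup of `ℚ_q(ζ, μ_(q ^ n - 1))` is normal. -/
theorem conj_mem_fixingSubgroup (g : Gal' q) {s : Gal' q} {n : ℕ} [NeZero n]
    (hs : s ∈ (lField q ζ n).fixingSubgroup) : g⁻¹ * s * g ∈ (lField q ζ n).fixingSubgroup := by
  rw [IntermediateField.mem_fixingSubgroup_iff] at hs ⊢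
  intro x hx
  rw [AlgEquiv.mul_apply, AlgEquiv.mul_apply, hs _ (apply_mem_lField hζ g hx)]
  exact g.symm_apply_apply x

include hζ in
/-- **Descent of the radicand.** -/
theorem exists_descent (hq2 : q ≠ 2) {b : PadicAlgCl q} (hb0 : b ≠ 0) (hbq : b ^ q ∈ L₀)
    (hg : ∀ g : Gal' q, g b / b ∈ L₀) :
    ∃ (b' : PadicAlgCl q) (r : ℚ_[q]), b' ≠ 0 ∧ b' ^ q = algebraMap ℚ_[q] (PadicAlgCl q) r ∧
      b ∈ L₀ ⊔ ℚ_[q]⟮b'⟯ := by
  classical
  have hext : ∀ σ : L₀ →ₐ[ℚ_[q]] PadicAlgCl q, ∃ g : Gal' q, ∀ x : L₀, g x = σ x := fun σ =>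
    ⟨AlgEquiv.ofBijective (σ.liftNormal (PadicAlgCl q)) (AlgHom.normal_bijective _ _ _ _),
      fun x => σ.liftNormal_commutes (PadicAlgCl q) x⟩
  choose g hgσ using hext
  set m := Fintype.card (L₀ →ₐ[ℚ_[q]] PadicAlgCl q)
  set b' := ∏ σ : L₀ →ₐ[ℚ_[q]] PadicAlgCl q, g σ b with hb'
  set c := ∏ σ : L₀ →ₐ[ℚ_[q]] PadicAlgCl q, g σ b / b with hcdef
  have hc : b' = b ^ m * c := by
    rw [hcdef, Finset.prod_div_distrib, Finset.prod_const, Finset.card_univ,
      mul_div_cancel₀ _ (pow_ne_zero _ hb0)]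
  have hcmem : c ∈ L₀ := prod_mem fun σ _ => hg (g σ)
  have hc0 : c ≠ 0 := Finset.prod_ne_zero_iff.mpr fun σ _ =>
    div_ne_zero ((map_ne_zero (g σ)).mpr hb0) hb0
  refine ⟨b', Algebra.norm ℚ_[q] (⟨b ^ q, hbq⟩ : L₀), Finset.prod_ne_zero_iff.mpr fun σ _ =>
    (map_ne_zero (g σ)).mpr hb0, ?_, ?_⟩
  · rw [Algebra.norm_eq_prod_embeddings, hb', ← Finset.prod_pow]
    refine Finset.prod_congr rfl fun σ _ => ?_
    rw [← map_pow]
    exact hgσ σ ⟨b ^ q, hbq⟩
  · have hm : ¬ q ∣ m := by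
      rw [show m = Module.finrank ℚ_[q] L₀ from AlgHom.card ℚ_[q] L₀ (PadicAlgCl q)]
      exact not_dvd_finrank_lField_two hζ hq2
    obtain ⟨u, v, huv⟩ := (Nat.prime_iff_prime_int.mp hq.out).coprime_iff_not_dvd.mpr
      (fun h => hm (Int.natCast_dvd_natCast.mp h))
    have e : b = (b ^ q) ^ u * (b' / c) ^ v := by
      rw [hc, mul_div_assoc, div_self hc0, mul_one, ← zpow_natCast b q, ← zpow_natCast b m,
        ← zpow_mul, ← zpow_mul, ← zpow_add₀ hb0,
        show ((q : ℕ) : ℤ) * u + ((m : ℕ) : ℤ) * v = 1 by linear_combination huv, zpow_one]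
    rw [e]
    exact mul_mem (zpow_mem (le_sup_left (b := ℚ_[q]⟮b'⟯) hbq) u)
      (zpow_mem (div_mem (le_sup_right (a := L₀) (mem_adjoin_simple_self ℚ_[q] b'))
        (le_sup_left (b := ℚ_[q]⟮b'⟯) hcmem)) v)

/-- The binomial expansion to second order. -/
theorem cube_dvd_pow_sub (x : ℤ_[q]) (n : ℕ) :
    (q : ℤ_[q]) ^ 3 ∣ (1 + q * x) ^ n - (1 + n * (q * x) + (n.choose 2 : ℤ_[q]) * (q * x) ^ 2) := by
  induction n with
  | zero => simp
  | succ n ih =>
    obtain ⟨r, hr⟩ := ih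
    rw [Nat.choose_succ_succ' n 1, Nat.choose_one_right]
    refine ⟨r * (1 + q * x) + (n.choose 2 : ℤ_[q]) * x ^ 3, ?_⟩
    push_cast
    linear_combination (1 + (q : ℤ_[q]) * x) * hr

/-- Units congruent to one modulo `q ^ 2` are `q`th powers. -/
theorem exists_pow_eq_of_sq_dvd (hq2 : q ≠ 2) {v : ℤ_[q]} (h : (q : ℤ_[q]) ^ 2 ∣ v - 1) :
    ∃ z : ℤ_[q], z ^ q = v := by
  obtain ⟨x, hx⟩ := h
  set a : ℤ_[q] := 1 + q * x
  have hF : (q : ℤ_[q]) ^ 3 ∣ a ^ q - v := by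
    obtain ⟨r, hr⟩ := cube_dvd_pow_sub x q
    obtain ⟨l, hl⟩ := hq.out.odd_of_ne_two hq2
    have hc : q.choose 2 = q * l := by
      rw [Nat.choose_two_right, hl, Nat.add_sub_cancel, mul_comm (2 * l + 1) (2 * l),
        mul_assoc, Nat.mul_div_cancel_left _ two_pos, mul_comm]
    rw [hc] at hr
    refine ⟨r + (l : ℤ_[q]) * x ^ 2, ?_⟩
    push_cast at hr
    linear_combination hr - hx
  have hnorm : ‖(X ^ q - C v).aeval a‖ < ‖(X ^ q - C v).derivative.aeval a‖ ^ 2 := by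
    have ha1 : ‖a‖ = 1 := by
      have hlt : ‖(q : ℤ_[q]) * x‖ < 1 := by
        rw [norm_mul, PadicInt.norm_p]
        exact lt_of_le_of_lt (mul_le_of_le_one_right (by positivity) (PadicInt.norm_le_one x))
          (inv_lt_one_of_one_lt₀ (by exact_mod_cast hq.out.one_lt))
      rw [IsUltrametricDist.norm_add_eq_max_of_norm_ne_norm (by rw [norm_one]; exact hlt.ne'),
        norm_one, max_eq_left hlt.le]
    obtain ⟨r, hr⟩ := hF
    simp only [map_sub, map_pow, aeval_X, aeval_C, derivative_X_pow, derivative_C,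
      sub_zero, map_mul]
    rw [Algebra.algebraMap_self, RingHom.id_apply, RingHom.id_apply, hr, norm_mul, norm_mul,
      norm_pow, norm_pow, PadicInt.norm_p, ha1, one_pow, mul_one]
    calc ((q : ℝ)⁻¹) ^ 3 * ‖r‖ ≤ ((q : ℝ)⁻¹) ^ 3 :=
          mul_le_of_le_one_right (by positivity) (PadicInt.norm_le_one r)
      _ < ((q : ℝ)⁻¹) ^ 2 := pow_lt_pow_right_of_lt_one₀ (by
            exact inv_pos.mpr (by exact_mod_cast hq.out.pos))
          (inv_lt_one_of_one_lt₀ (by exact_mod_cast hq.out.one_lt)) (by norm_num)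
  obtain ⟨z, hz, -⟩ := hensels_lemma hnorm
  exact ⟨z, by simpa [sub_eq_zero] using hz⟩

include hζ in
/-- **The case of a radicand of valuation divisible by `q`.** -/
theorem apply_eq_of_dvd_valuation (hq2 : q ≠ 2) {b : PadicAlgCl q} {r : ℚ_[q]} (hb0 : b ≠ 0)
    (hb : b ^ q = algebraMap ℚ_[q] (PadicAlgCl q) r) (hv : (q : ℤ) ∣ r.valuation) {s : Gal' q}
    (hsζ : s ζ = ζ) (hsw : s (wRoot q) = wRoot q) : s b = b := by
  have : NeZero q := ⟨hq.out.ne_zero⟩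
  set φ := algebraMap ℚ_[q] (PadicAlgCl q)
  obtain ⟨k, hk⟩ := hv
  have hr0 : r ≠ 0 := fun h => pow_ne_zero q hb0 (by rw [hb, h, map_zero])
  have hq0 : (q : ℚ_[q]) ≠ 0 := Nat.cast_ne_zero.mpr hq.out.ne_zero
  set u := r / (q : ℚ_[q]) ^ r.valuation
  have hu : ‖u‖ = 1 := by
    rw [norm_div, Padic.norm_p_zpow, Padic.norm_eq_zpow_neg_valuation hr0,
      div_self (zpow_ne_zero _ (Nat.cast_ne_zero.mpr hq.out.ne_zero))]
  set d := b / φ ((q : ℚ_[q]) ^ k)
  have hd0 : d ≠ 0 := div_ne_zero hb0 ((map_ne_zero φ).mpr (zpow_ne_zero k hq0))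
  have hd : d ^ q = φ u := by
    rw [div_pow, hb, ← map_pow, ← map_div₀, ← zpow_natCast ((q : ℚ_[q]) ^ k), ← zpow_mul,
      mul_comm, ← hk]
  suffices hfix : s d = d by
    rw [show b = d * φ ((q : ℚ_[q]) ^ k) from (div_mul_cancel₀ b ((map_ne_zero φ).mpr
      (zpow_ne_zero k hq0))).symm, map_mul, hfix, AlgEquiv.commutes]
  set u₁ : ℤ_[q] := ⟨u, hu.le⟩
  obtain ⟨x, hx⟩ : (q : ℤ_[q]) ∣ u₁ ^ (q - 1) - 1 := by
    rw [← pow_one (q : ℤ_[q]), ← Ideal.mem_span_singleton, pow_one,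
      ← PadicInt.maximalIdeal_eq_span_p, ← PadicInt.ker_toZMod, RingHom.mem_ker, map_sub, map_pow,
      map_one, ZMod.pow_card_sub_one_eq_one, sub_self]
    intro h0
    rw [← RingHom.mem_ker, PadicInt.ker_toZMod, IsLocalRing.mem_maximalIdeal,
      PadicInt.mem_nonunits, PadicInt.norm_def] at h0
    exact h0.ne hu
  obtain ⟨e, y, hy⟩ : ∃ (e : ℕ) (y : ℤ_[q]), x - e = q * y := by
    refine ⟨(PadicInt.toZMod x).val, ?_⟩
    have hm : x - ((PadicInt.toZMod x).val : ℤ_[q]) ∈ RingHom.ker (PadicInt.toZMod (p := q)) := by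
      rw [RingHom.mem_ker, map_sub, map_natCast, ZMod.natCast_zmod_val, sub_self]
    rw [PadicInt.ker_toZMod, PadicInt.maximalIdeal_eq_span_p, Ideal.mem_span_singleton] at hm
    exact hm
  obtain ⟨t, ht⟩ := cube_dvd_pow_sub (1 : ℤ_[q]) e
  rw [mul_one] at ht
  have hunit : IsUnit ((1 + (q : ℤ_[q])) ^ e) := by
    refine IsUnit.pow e (PadicInt.isUnit_iff.mpr ?_)
    have hlt : ‖(q : ℤ_[q])‖ < 1 := by
      rw [PadicInt.norm_p]; exact inv_lt_one_of_one_lt₀ (by exact_mod_cast hq.out.one_lt)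
    rw [IsUltrametricDist.norm_add_eq_max_of_norm_ne_norm (by rw [norm_one]; exact hlt.ne'),
      norm_one, max_eq_left hlt.le]
  obtain ⟨z, hz⟩ : ∃ z : ℤ_[q], (1 + (q : ℤ_[q])) ^ e * z ^ q = u₁ ^ (q - 1) := by
    obtain ⟨z, hz⟩ := exists_pow_eq_of_sq_dvd hq2
      (v := (↑hunit.unit⁻¹ : ℤ_[q]) * u₁ ^ (q - 1))
      ⟨(↑hunit.unit⁻¹ : ℤ_[q]) * (y - (e.choose 2 : ℤ_[q]) - q * t), by
        have h1 : (↑hunit.unit⁻¹ : ℤ_[q]) * (1 + (q : ℤ_[q])) ^ e = 1 := hunit.val_inv_mul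
        linear_combination (↑hunit.unit⁻¹ : ℤ_[q]) * hx + (↑hunit.unit⁻¹ : ℤ_[q]) * q * hy
          - (↑hunit.unit⁻¹ : ℤ_[q]) * ht + h1⟩
    exact ⟨z, by rw [hz, ← mul_assoc, IsUnit.mul_val_inv, one_mul]⟩
  set z' : PadicAlgCl q := φ (z : ℚ_[q])
  have hd' : (d ^ (q - 1)) ^ q = (wRoot q ^ e * z') ^ q := by
    rw [mul_pow, ← pow_mul, mul_comm (q - 1) q, pow_mul, hd, ← map_pow, ← pow_mul, mul_comm e q,
      pow_mul, wRoot_pow, ← map_natCast φ q, ← map_one φ, ← map_add, ← map_pow, ← map_pow,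
      ← map_mul]
    refine congrArg φ ?_
    have := congrArg (fun a : ℤ_[q] => (a : ℚ_[q])) hz
    push_cast at this
    exact this.symm
  have hw0 : wRoot q ≠ 0 := norm_pos_iff.mp ((norm_wRoot (q := q)).symm ▸ one_pos)
  have hne : wRoot q ^ e * z' ≠ 0 := fun h0 => pow_ne_zero (q - 1) hd0
    ((pow_eq_zero_iff hq.out.ne_zero).mp (by rw [hd', h0, zero_pow hq.out.ne_zero]))
  obtain ⟨i, -, hi⟩ := hζ.eq_pow_of_pow_eq_one (ξ := d ^ (q - 1) / (wRoot q ^ e * z'))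
    (by rw [div_pow, hd', div_self (pow_ne_zero q hne)])
  rw [eq_div_iff hne] at hi
  have h1 : s d ^ (q - 1) = d ^ (q - 1) := by
    rw [← map_pow, ← hi, map_mul, map_mul, map_pow, map_pow, hsζ, hsw, AlgEquiv.commutes]
  have h2 : s d ^ q = d ^ q := by rw [← map_pow, hd, AlgEquiv.commutes]
  rw [← pow_sub_one_mul hq.out.ne_zero, ← pow_sub_one_mul hq.out.ne_zero d, h1] at h2
  exact mul_left_cancel₀ (pow_ne_zero _ hd0) h2

theorem norm_pow_ramIdx {F : IntermediateField ℚ_[q] (PadicAlgCl q)} [FiniteDimensional ℚ_[q] F]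
    {a : PadicAlgCl q} (ha : a ∈ F) (h0 : a ≠ 0) :
    ‖a‖ ^ ramIdx F = ‖(q : PadicAlgCl q)‖ ^ ord F a := by
  rw [norm_eq_zpow_ord F ha h0, norm_q_eq F, ← zpow_natCast, ← zpow_natCast, ← zpow_mul,
    ← zpow_mul, mul_comm]

/-- Terms of a sum with distinct norms. -/
theorem norm_le_norm_sum {ι : Type*} {S : Finset ι} {f : ι → PadicAlgCl q}
    (hd : ∀ i ∈ S, ∀ j ∈ S, i ≠ j → f i ≠ 0 → ‖f i‖ ≠ ‖f j‖) {i : ι} (hi : i ∈ S) :
    ‖f i‖ ≤ ‖∑ j ∈ S, f j‖ := by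
  classical
  obtain ⟨k, hk, hmax⟩ := S.exists_max_image (fun j => ‖f j‖) ⟨i, hi⟩
  refine (hmax i hi).trans ?_
  by_cases h0 : f k = 0
  · rw [h0, norm_zero]; exact norm_nonneg _
  rw [← Finset.add_sum_erase S f hk]
  have hlt : ‖∑ j ∈ S.erase k, f j‖ < ‖f k‖ := by
    refine Finset.sum_induction f (fun x => ‖x‖ < ‖f k‖) (fun a b ha hb =>
      lt_of_le_of_lt (IsUltrametricDist.norm_add_le_max a b) (max_lt ha hb))
      (by rw [norm_zero]; exact norm_pos_iff.mpr h0) fun j hj => ?_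
    obtain ⟨hne, hjS⟩ := Finset.mem_erase.mp hj
    exact lt_of_le_of_ne (hmax j hjS) (hd k hk j hjS (Ne.symm hne) h0).symm
  rw [IsUltrametricDist.norm_add_eq_max_of_norm_ne_norm hlt.ne', max_eq_left hlt.le]

include hζ in
/-- **The case of a radicand of valuation prime to `q`.** -/
theorem norm_apply_sub_lt_of_not_dvd {b : PadicAlgCl q} {r : ℚ_[q]} (hb0 : b ≠ 0)
    (hb : b ^ q = algebraMap ℚ_[q] (PadicAlgCl q) r) (hv : ¬ (q : ℤ) ∣ r.valuation)
    {x : PadicAlgCl q} (hx : x ∈ L₀ ⊔ ℚ_[q]⟮b⟯) {s : Gal' q} (hs : s ∈ (L₀).fixingSubgroup)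
    {k : ℤ} (hxk : ‖x‖ = ‖(q : PadicAlgCl q)‖ ^ k) :
    ‖s x - x‖ < ‖(q : PadicAlgCl q)‖ ^ k * ‖ζ - 1‖ := by
  classical
  have : NeZero q := ⟨hq.out.ne_zero⟩
  set φ := algebraMap ℚ_[q] (PadicAlgCl q)
  have hbL : (X ^ q - C (⟨φ r, IntermediateField.algebraMap_mem _ r⟩ : L₀)).aeval b = 0 := by
    simp [hb]
  have hmon : (X ^ q - C (⟨φ r, IntermediateField.algebraMap_mem _ r⟩ : L₀)).Monic :=
    monic_X_pow_sub_C _ hq.out.ne_zero
  -- expansion
  obtain ⟨a, hsum⟩ : ∃ a : ℕ → L₀, x = ∑ i ∈ Finset.range q, (a i : PadicAlgCl q) * b ^ i := by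
    have hle : L₀ ⊔ ℚ_[q]⟮b⟯ ≤ IntermediateField.restrictScalars ℚ_[q] (L₀)⟮b⟯ := by
      refine sup_le (fun y hy => ?_) (adjoin_simple_le_iff.mpr ?_)
      · rw [IntermediateField.mem_restrictScalars]
        exact IntermediateField.algebraMap_mem _ (⟨y, hy⟩ : L₀)
      · rw [IntermediateField.mem_restrictScalars]
        exact mem_adjoin_simple_self _ b
    have hx' := hle hx
    have halg : IsAlgebraic L₀ b := ⟨_, hmon.ne_zero, hbL⟩
    rw [IntermediateField.mem_restrictScalars, ← IntermediateField.mem_toSubalgebra,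
      IntermediateField.adjoin_simple_toSubalgebra_of_isAlgebraic halg,
      Algebra.adjoin_singleton_eq_range_aeval] at hx'
    obtain ⟨P, hP⟩ := hx'
    set R := P %ₘ (X ^ q - C (⟨φ r, IntermediateField.algebraMap_mem _ r⟩ : L₀))
    have hR : R.aeval b = x :=
      (Polynomial.aeval_modByMonic_eq_self_of_root hbL).trans hP
    have hdeg : R.natDegree < q :=
      (natDegree_modByMonic_lt P hmon fun h => by
        have := congrArg natDegree h
        rw [natDegree_X_pow_sub_C, natDegree_one] at this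
        exact hq.out.ne_zero this).trans_eq natDegree_X_pow_sub_C
    exact ⟨R.coeff, by rw [← hR, aeval_eq_sum_range' hdeg]; rfl⟩
  set e := ramIdx L₀
  have he : ¬ (q : ℤ) ∣ e := by
    intro hd
    have h1 := (Nat.le_of_dvd (ramIdx_pos L₀) (Int.natCast_dvd_natCast.mp hd)).trans
      (ramIdx_lField hζ 2)
    have := hq.out.one_lt
    omega
  set N := ‖(q : PadicAlgCl q)‖
  have hN : 0 < N := norm_q_pos
  have hN1 : N ≠ 1 := norm_q_lt_one.ne
  have hr0 : r ≠ 0 := fun h => pow_ne_zero q hb0 (by rw [hb, h, map_zero])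
  have hbn : ‖b‖ ^ q = N ^ r.valuation := by
    rw [← norm_pow, hb, PadicAlgCl.norm_extends, Padic.norm_eq_zpow_neg_valuation hr0,
      show N = (q : ℝ)⁻¹ from norm_q, inv_zpow, zpow_neg]
  have hterm : ∀ i, (a i : PadicAlgCl q) * b ^ i ≠ 0 → ∃ n : ℤ,
      ‖(a i : PadicAlgCl q) * b ^ i‖ ^ (q * e) = N ^ (q * n + e * r.valuation * i) := by
    intro i hi
    refine ⟨ord L₀ (a i), ?_⟩
    rw [norm_mul, norm_pow, mul_pow, mul_comm q e, pow_mul,
      norm_pow_ramIdx (a i).2 (left_ne_zero_of_mul hi), ← pow_mul ‖b‖,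
      show i * (e * q) = q * (e * i) by ring, pow_mul, hbn, zpow_add₀ hN.ne',
      ← zpow_natCast (N ^ ord L₀ (a i : PadicAlgCl q)), ← zpow_mul,
      ← zpow_natCast (N ^ r.valuation), ← zpow_mul]
    push_cast
    ring_nf
  have hinj := zpow_right_injective₀ hN hN1
  have hkey : ∀ m : ℤ, (q : ℤ) ∣ e * r.valuation * m → (q : ℤ) ∣ m := fun m hm =>
    ((Nat.prime_iff_prime_int.mp hq.out).dvd_or_dvd hm).resolve_left fun h =>
      ((Nat.prime_iff_prime_int.mp hq.out).dvd_or_dvd h).elim he hv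
  have hdist : ∀ i ∈ Finset.range q, ∀ j ∈ Finset.range q, i ≠ j →
      (a i : PadicAlgCl q) * b ^ i ≠ 0 →
      ‖(a i : PadicAlgCl q) * b ^ i‖ ≠ ‖(a j : PadicAlgCl q) * b ^ j‖ := by
    intro i hi j hj hij h0 heq
    obtain ⟨n, hn⟩ := hterm i h0
    obtain ⟨n', hn'⟩ := hterm j fun h => h0 (norm_eq_zero.mp (heq.trans (by rw [h, norm_zero])))
    rw [heq, hn'] at hn
    have h1 := hkey ((i : ℤ) - j) ⟨n' - n, by linear_combination -(hinj hn)⟩
    have h2 := Int.eq_zero_of_dvd_of_natAbs_lt_natAbs h1 (by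
      rw [Int.natAbs_natCast]
      have := Finset.mem_range.mp hi
      have := Finset.mem_range.mp hj
      omega)
    exact hij (by omega)
  obtain ⟨j, hj⟩ : ∃ j : ℕ, s b = ζ ^ j * b := by
    obtain ⟨j, -, hj⟩ := hζ.eq_pow_of_pow_eq_one (ξ := s b / b)
      (by rw [div_pow, ← map_pow, hb, AlgEquiv.commutes, div_self ((map_ne_zero φ).mpr hr0)])
    exact ⟨j, by rw [hj, div_mul_cancel₀ _ hb0]⟩
  have hsx : s x - x = ∑ i ∈ Finset.range q, (a i : PadicAlgCl q) * b ^ i * (ζ ^ (j * i) - 1) := by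
    rw [hsum, map_sum, ← Finset.sum_sub_distrib]
    refine Finset.sum_congr rfl fun i _ => ?_
    rw [map_mul, map_pow, hj, (mem_fixingSubgroup_iff _ s).mp hs _ (a i).2]
    ring
  have hζn : ∀ l, ‖ζ ^ l - 1‖ ≤ ‖ζ - 1‖ := fun l => by
    rw [← mul_geom_sum, norm_mul]
    refine mul_le_of_le_one_right (norm_nonneg _) ?_
    refine IsUltrametricDist.norm_sum_le_of_forall_le_of_nonneg zero_le_one fun i _ => ?_
    rw [norm_pow, norm_eq_one_of_pow_eq_one hq.out.ne_zero hζ.pow_eq_one, one_pow]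
  have hz1 : 0 < ‖ζ - 1‖ := norm_pos_iff.mpr (sub_ne_zero.mpr (hζ.ne_one hq.out.one_lt))
  rw [hsx]
  refine Finset.sum_induction _ (fun y => ‖y‖ < N ^ k * ‖ζ - 1‖) (fun y z hy hz =>
    lt_of_le_of_lt (IsUltrametricDist.norm_add_le_max y z) (max_lt hy hz))
    (by rw [norm_zero]; exact mul_pos (zpow_pos hN k) hz1) fun i hi => ?_
  rw [norm_mul]
  rcases Nat.eq_zero_or_pos i with rfl | hipos
  · rw [mul_zero, pow_zero, pow_zero ζ, sub_self, norm_zero, mul_zero]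
    exact mul_pos (zpow_pos hN k) hz1
  by_cases h0 : (a i : PadicAlgCl q) * b ^ i = 0
  · rw [h0, norm_zero, zero_mul]; exact mul_pos (zpow_pos hN k) hz1
  refine mul_lt_mul_of_lt_of_le_of_nonneg_of_pos ?_ (hζn _) (norm_nonneg _) hz1
  have hle : ‖(a i : PadicAlgCl q) * b ^ i‖ ≤ N ^ k :=
    hxk ▸ hsum ▸ norm_le_norm_sum hdist hi
  refine lt_of_le_of_ne hle fun heq => ?_
  obtain ⟨n, hn⟩ := hterm i h0
  rw [heq, ← zpow_natCast (N ^ k), ← zpow_mul] at hn
  have h1 := hkey i ⟨k * e - n, by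
    have := hinj hn
    push_cast at this
    linear_combination -this⟩
  exact absurd (Nat.le_of_dvd hipos (Int.natCast_dvd_natCast.mp h1))
    (not_le.mpr (Finset.mem_range.mp hi))

end FermatAgent.BAD.TwoP
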