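import Fermat.Agent.BAD.NodeMaps
import Fermat.Agent.BAD.PSFactor

/-!
# Differences of a unit times a `q`-th power under a small semilinear map

`σ` is congruent to the identity modulo `π ^ 2` and multiplies `π` by `1 + π η`; on the node
`X Y = π` it is lifted by fixing `X`.
-/

set_option autoImplicit false

open IsLocalRing

noncomputable section

namespace FermatAgent.BAD.TwoP

/-- `X d/dX`. -/
def thetaPS {k : Type} [CommRing k] (s : PowerSeries k) : PowerSeries k :=
  PowerSeries.mk fun e => (e : k) * PowerSeries.coeff e s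

/-- The coefficients of `X d/dX`. -/
theorem coeff_thetaPS {k : Type} [CommRing k] (s : PowerSeries k) (e : ℕ) :
    PowerSeries.coeff e (thetaPS s) = (e : k) * PowerSeries.coeff e s :=
  PowerSeries.coeff_mk e fun e => (e : k) * PowerSeries.coeff e s

/-- `X d/dX` keeps divisibility by powers of `X`. -/
theorem X_pow_dvd_thetaPS {k : Type} [CommRing k] {s : PowerSeries k} {r : ℕ}
    (h : PowerSeries.X ^ r ∣ s) : PowerSeries.X ^ r ∣ thetaPS s := by
  rw [PowerSeries.X_pow_dvd_iff] at h ⊢
  intro e he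
  rw [coeff_thetaPS, h e he, mul_zero]

/-- The coefficient at the bottom of a product with a power. -/
theorem coeff_mul_pow_of_dvd {k : Type} [CommRing k] {B : PowerSeries k} {r n : ℕ}
    (h : PowerSeries.X ^ r ∣ B) (A : PowerSeries k) :
    PowerSeries.coeff (r * n) (A * B ^ n) =
      PowerSeries.constantCoeff A * PowerSeries.coeff r B ^ n := by
  obtain ⟨V, rfl⟩ := h
  have e1 : PowerSeries.coeff r (PowerSeries.X ^ r * V) = PowerSeries.constantCoeff V := by
    simpa using PowerSeries.coeff_X_pow_mul V r 0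
  rw [e1, show A * (PowerSeries.X ^ r * V) ^ n = PowerSeries.X ^ (r * n) * (A * V ^ n) by
    rw [mul_pow, ← pow_mul]; ring, ← map_pow, ← map_mul]
  simpa using PowerSeries.coeff_X_pow_mul (A * V ^ n) (r * n) 0

variable {O : Type} [CommRing O] [IsDomain O] [IsDiscreteValuationRing O] {π : O}
  (hπ : Irreducible π) {σ : O →+* O} (hσ : ∀ r, π ^ 2 ∣ σ r - r) {q : ℕ} [hqp : Fact q.Prime]
  (hq : π ^ (q + 1) ∣ (q : O))

include hπ hσ in
theorem residue_small (r : O) : residue O (σ r) = residue O r := by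
  obtain ⟨w, hw⟩ := hσ r
  rw [← sub_eq_zero, ← map_sub, hw, residue_eq_zero_iff, hπ.maximalIdeal_eq,
    Ideal.mem_span_singleton]
  exact ⟨π * w, by ring⟩

include hπ hσ hq in
/-- **One variable.** -/
theorem series_step {y z U H : PowerSeries O} (hy : y = U * H ^ q) (hH : psRes H ≠ 0) {j : ℕ}
    (hj : j ≤ q) (hz : PowerSeries.map σ y - y = PowerSeries.C π ^ j * z) :
    ∃ W, psRes z = W * psRes H ^ q := by
  set w := PowerSeries.C π
  set τ := PowerSeries.map σ
  obtain ⟨D, hD⟩ : ∃ D, τ H - H = w ^ 2 * D := by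
    choose d hd using fun i => hσ (PowerSeries.coeff i H)
    exact ⟨PowerSeries.mk d, by
      ext i
      rw [map_sub, PowerSeries.coeff_map, ← map_pow, PowerSeries.coeff_C_mul, PowerSeries.coeff_mk,
        hd]⟩
  obtain ⟨R, hR⟩ := exists_add_pow_prime_eq hqp.out H (w ^ 2 * D)
  obtain ⟨c, hc⟩ : w ^ (q + 1) ∣ (q : PowerSeries O) := by
    rw [← map_pow, ← map_natCast (PowerSeries.C (R := O))]
    exact map_dvd _ hq
  have hτH : τ H = H + w ^ 2 * D := by rw [← hD]; ring
  have hwq : w ^ (q + 1) ∣ (w ^ 2 * D) ^ q := by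
    rw [mul_pow, ← pow_mul]
    exact Dvd.dvd.mul_right (pow_dvd_pow _ (by have := hqp.out.one_le; omega)) _
  obtain ⟨c', hc'⟩ := hwq
  set M := c' + c * H * (w ^ 2 * D) * R
  have hpow : τ H ^ q = H ^ q + w ^ (q + 1) * M := by
    rw [hτH, hR, hc']
    simp only [M]
    linear_combination (H * (w ^ 2 * D) * R) * hc
  have e : w ^ j * z = (τ U - U) * τ H ^ q + w ^ (q + 1) * (U * M) := by
    rw [← hz, hy, map_mul, map_pow, hpow]
    ring
  have hH' : psRes (τ H) = psRes H := by
    ext i
    rw [PowerSeries.coeff_map, PowerSeries.coeff_map, PowerSeries.coeff_map,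
      residue_small hπ hσ]
  have hreg : RegMod w (τ H ^ q) := by
    refine RegMod.pow (fun x hx => ?_) q
    obtain ⟨x', hx'⟩ := hx
    refine dvd_of_psRes_eq_zero hπ ?_
    have h1 := congrArg psRes hx'
    rw [map_mul, map_mul, hH', psRes_C_unif hπ, zero_mul] at h1
    exact (mul_eq_zero.mp h1).resolve_left hH
  have hw0 : ∀ x, w * x = 0 → x = 0 := fun x hx => (mul_eq_zero.mp hx).resolve_left
    fun h0 => hπ.ne_zero (PowerSeries.C_injective (h0.trans (map_zero _).symm))
  obtain ⟨W, hW⟩ : w ^ j ∣ τ U - U := by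
    refine hreg.dvd_pow hw0 ⟨z - w ^ (q + 1 - j) * (U * M), ?_⟩
    have hp : w ^ j * w ^ (q + 1 - j) = w ^ (q + 1) := by
      rw [← pow_add, Nat.add_sub_cancel' (by omega)]
    linear_combination (U * M) * hp - e
  have hz' : z = W * τ H ^ q + w ^ (q + 1 - j) * (U * M) := by
    have hwne : w ≠ 0 := fun h0 => one_ne_zero (hw0 1 (by rw [h0, zero_mul]))
    have hp : w ^ j * w ^ (q + 1 - j) = w ^ (q + 1) := by
      rw [← pow_add, Nat.add_sub_cancel' (by omega)]
    refine mul_left_cancel₀ (pow_ne_zero j hwne) ?_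
    linear_combination e + τ H ^ q * hW - (U * M) * hp
  refine ⟨psRes W, ?_⟩
  rw [hz', map_add, map_mul, map_mul, map_pow, map_pow, psRes_C_unif hπ, hH', zero_pow (by omega),
    zero_mul, add_zero]

/-- Both branches have the same constant term. -/
theorem constantCoeff_branch {c : O} (hc : c ∈ maximalIdeal O) (i : Fin 2) (x : Node O c) :
    PowerSeries.constantCoeff (branch hc i x) =
      PowerSeries.constantCoeff (branch hc 0 x) := by
  obtain ⟨f, rfl⟩ := nodeMk_surjective c x
  simp only [← PowerSeries.coeff_zero_eq_constantCoeff_apply, branch_nodeMk, coeff_axisHom,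
    axisExp, Finsupp.single_zero]

variable {η : O} (hπσ : σ π = π * (1 + π * η))

omit [IsDomain O] [IsDiscreteValuationRing O] in
include hπσ in
/-- The twist fixes the first coordinate of the node. -/
theorem twist_cond : σ π = ![(1 : O), 1 + π * η] 0 * ![(1 : O), 1 + π * η] 1 * π ^ 1 := by
  simp [hπσ, mul_comm]

/-- The lift of `σ` to the node `X Y = π` fixing `X`. -/
def twist : Node O π →+* Node O π := nodeDiag (twist_cond hπσ)

include hπ hσ in
/-- The twist moves `H` by `π` times `η Y ∂H/∂Y`. -/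
theorem exists_twist_sub (H : Node O π) :
    ∃ Z, twist hπσ H = H + nodeC π π * Z ∧ branch (unif_mem hπ) 0 Z = 0 ∧
      branch (unif_mem hπ) 1 Z =
        PowerSeries.C (residue O η) * thetaPS (branch (unif_mem hπ) 1 H) := by
  obtain ⟨F, rfl⟩ := nodeMk_surjective π H
  have hd : ∀ d : Fin 2 →₀ ℕ, ∃ e, (1 + π * η) ^ d 1 * σ (MvPowerSeries.coeff d F) -
      MvPowerSeries.coeff d F =
      π * ((d 1 : O) * η * MvPowerSeries.coeff d F + π * e) := fun d => by
    obtain ⟨s, hs⟩ := hσ (MvPowerSeries.coeff d F)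
    obtain ⟨r, hr⟩ : π ^ 2 ∣ (1 + π * η) ^ d 1 - 1 - (d 1 : O) * (π * η) := by
      obtain ⟨r, hr⟩ := sq_dvd_add_pow_sub_sub (π * η) (1 : O) (d 1)
      exact ⟨η ^ 2 * r, by
        simp only [one_pow] at hr
        linear_combination hr⟩
    exact ⟨r * σ (MvPowerSeries.coeff d F) + s + (d 1 : O) * η * π * s, by
      linear_combination (σ (MvPowerSeries.coeff d F)) * hr + (1 + (d 1 : O) * (π * η)) * hs⟩
  choose e he using hd
  set D : MvPowerSeries (Fin 2) O :=
    fun d => (d 1 : O) * η * MvPowerSeries.coeff d F + π * e d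
  have hDc : ∀ d, MvPowerSeries.coeff d D =
      (d 1 : O) * η * MvPowerSeries.coeff d F + π * e d := fun d => rfl
  have hπ0 : residue O π = 0 := residue_uniformiser hπ.maximalIdeal_eq
  refine ⟨nodeMk π D, ?_, ?_, ?_⟩
  · rw [twist, nodeDiag_nodeMk, nodeC, RingHom.comp_apply, ← map_mul, ← map_add]
    congr 1
    ext d
    have h := coeff_diagMap_smul σ ![(1 : O), 1 + π * η] 1 F d
    rw [one_smul] at h
    rw [h, map_add, MvPowerSeries.coeff_C_mul, hDc, ← he d]
    simp
  · ext i
    rw [branch_nodeMk, coeff_axisHom, hDc, map_zero]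
    simp [axisExp, hπ0]
  · ext i
    rw [branch_nodeMk, branch_nodeMk, coeff_axisHom, hDc, PowerSeries.coeff_C_mul, coeff_thetaPS,
      coeff_axisHom]
    simp [axisExp, hπ0]
    ring

include hπ hσ hq in
/-- **The node.** -/
theorem node_step {y z U H : Node O π} (hy : y = U * H ^ q)
    (hH : ∀ i, branch (unif_mem hπ) i H ≠ 0) {j : ℕ} (hj : j ≤ q)
    (hz : twist hπσ y - y = nodeC π π ^ j * z) :
    ∃ W : Node O π,
      branch (unif_mem hπ) 0 z = branch (unif_mem hπ) 0 W * branch (unif_mem hπ) 0 H ^ q ∧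
      branch (unif_mem hπ) 1 z = branch (unif_mem hπ) 1 W * branch (unif_mem hπ) 1 H ^ q +
        if j = q then branch (unif_mem hπ) 1 U *
          (PowerSeries.C (residue O η) * thetaPS (branch (unif_mem hπ) 1 H)) ^ q else 0 := by
  have := node_isDomain hπ
  set w := nodeC π π
  set τ := twist hπσ
  obtain ⟨Z, hτH, hZ0, hZ1⟩ := exists_twist_sub hπ hσ hπσ H
  obtain ⟨R, hR⟩ := exists_add_pow_prime_eq hqp.out H (w * Z)
  obtain ⟨c, hc⟩ : w ^ (q + 1) ∣ (q : Node O π) := by
    rw [← map_pow, ← map_natCast (nodeC π)]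
    exact map_dvd _ hq
  have hτH' : τ H = H + w * Z := hτH
  set M := c * H * (w * Z) * R
  have hpow : τ H ^ q = H ^ q + w ^ q * Z ^ q + w ^ (q + 1) * M := by
    rw [hτH', hR, mul_pow]
    linear_combination (H * (w * Z) * R) * hc
  have e : w ^ j * z = (τ U - U) * τ H ^ q + w ^ q * (U * Z ^ q + w * (U * M)) := by
    rw [← hz, hy, map_mul, map_pow, hpow, pow_succ w q]
    ring
  have hw : ∀ i, branch (unif_mem hπ) i w = 0 := fun i => by
    rw [branch_nodeC, residue_uniformiser hπ.maximalIdeal_eq, map_zero]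
  have hH' : ∀ i, branch (unif_mem hπ) i (τ H) = branch (unif_mem hπ) i H := fun i => by
    rw [hτH', map_add, map_mul, hw, zero_mul, add_zero]
  have hw0 : ∀ x, w * x = 0 → x = 0 := fun x hx =>
    nodeC_uniformiser_regular (unif_mem hπ) hπ.maximalIdeal_eq hπ.ne_zero hx
  obtain ⟨W, hW⟩ : w ^ j ∣ τ U - U := by
    refine ((regMod_of_branches (unif_mem hπ) hπ.maximalIdeal_eq fun i => by
      rw [hH']; exact hH i).pow q).dvd_pow hw0
        ⟨z - w ^ (q - j) * (U * Z ^ q + w * (U * M)), ?_⟩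
    have hp : w ^ j * w ^ (q - j) = w ^ q := by rw [← pow_add, Nat.add_sub_cancel' hj]
    linear_combination (U * Z ^ q + w * (U * M)) * hp - e
  have hz' : z = W * τ H ^ q + w ^ (q - j) * (U * Z ^ q + w * (U * M)) := by
    have hwne : w ≠ 0 := fun h0 => one_ne_zero (hw0 1 (by rw [h0, zero_mul]))
    have hp : w ^ j * w ^ (q - j) = w ^ q := by rw [← pow_add, Nat.add_sub_cancel' hj]
    refine mul_left_cancel₀ (pow_ne_zero j hwne) ?_
    linear_combination e + τ H ^ q * hW - (U * Z ^ q + w * (U * M)) * hp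
  refine ⟨W, ?_, ?_⟩
  · rw [hz']
    simp only [map_add, map_mul, map_pow, hH', hw, hZ0, zero_pow hqp.out.ne_zero, zero_mul,
      mul_zero, add_zero]
  · rw [hz']
    split_ifs with hjq
    · subst hjq
      simp only [map_add, map_mul, map_pow, hH', hw, hZ1, zero_mul, add_zero, Nat.sub_self,
        pow_zero, one_mul]
    · simp only [map_add, map_mul, map_pow, hH', hw, zero_pow (Nat.sub_ne_zero_of_lt
        (lt_of_le_of_ne hj hjq)), zero_mul, add_zero]

end FermatAgent.BAD.TwoP
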