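import Fermat.Agent.BAD.TwoP.Tau

/-!
# Orders along charts on the component at `∞`

Along a chart at a point of the component at `∞` the order of a function is the multiplicity of
its residual polynomial at the value of `t`, times the order of `t` less that value.
-/

set_option autoImplicit false

open UpperHalfPlane CongruenceSubgroup IsLocalRing
open scoped MatrixGroups

noncomputable section

namespace FermatAgent.BAD.TwoP

open FermatAgent.ES (BSub BRing act zetaC AuxLevel CPlace GoodRoot GoodPoint)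
open Polynomial (rootMultiplicity)

/-! ### Series -/

section Series

variable {k : Type} [Field k]

theorem order_X_pow_mul {w : PowerSeries k} (hw : IsUnit w) (e : ℕ) :
    HahnSeries.ofPowerSeries ℤ k (PowerSeries.X ^ e * w) ≠ 0 ∧
      (HahnSeries.ofPowerSeries ℤ k (PowerSeries.X ^ e * w)).order = e := by
  have h0 : PowerSeries.constantCoeff w ≠ 0 :=
    (PowerSeries.isUnit_iff_constantCoeff.mp hw).ne_zero
  refine order_eq_of_coeff (d := (e : ℤ)) ?_ fun n hn => ?_
  · rw [HahnSeries.ofPowerSeries_apply_coeff]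
    simpa using (PowerSeries.coeff_X_pow_mul w e 0).trans_ne (by simpa using h0)
  · rcases le_or_gt 0 n with h | h
    · lift n to ℕ using h
      rw [HahnSeries.ofPowerSeries_apply_coeff, PowerSeries.coeff_X_pow_mul', if_neg (by omega)]
    · rw [HahnSeries.ofPowerSeries_apply, HahnSeries.embDomain_of_notMem_range]
      rintro ⟨i, hi⟩
      simp at hi
      omega

/-- The order of a power series as a Laurent series. -/
theorem order_toNat_ofPS {x : PowerSeries k} (hx : x ≠ 0) :
    (HahnSeries.ofPowerSeries ℤ k x).order = x.order.toNat := by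
  obtain ⟨w, hw⟩ : IsUnit (PowerSeries.divXPowOrder x) :=
    PowerSeries.isUnit_iff_constantCoeff.mpr (isUnit_iff_ne_zero.mpr
      fun h0 => hx (PowerSeries.constantCoeff_divXPowOrder_eq_zero_iff.mp h0))
  conv_lhs => rw [← PowerSeries.X_pow_order_mul_divXPowOrder (f := x), ← hw]
  exact (order_X_pow_mul w.isUnit _).2

end Series

variable {q M : ℕ} [hqp : Fact q.Prime] [NeZero M] {O : Subring ℂ} (haux : AuxLevel M 2)
  (hA : GoodRoot M O (zetaC M)) {P : CPlace q} (hO : O ≤ P.ring) (hO' : P.IsCDVR O)
  (hM : M.Coprime q) (hζ : zetaC (q * M) ∈ O) (hq2 : q ≠ 2) (T : TauData q M P O)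
  [IsDiscreteValuationRing O]

include haux hA hζ in
/-- The ring of level `q M` over the coefficient ring is Noetherian. -/
theorem noetherian_LRing : IsNoetherianRing (LRing q M O) :=
  isNoetherianRing_LRing haux hA hζ

/-- A residue with a good point fixed by the automorphism over it. -/
def GoodRes (a : ResidueField O) : Prop :=
  ∃ (τ0 : ℍ) (hg : GoodPoint haux O τ0),
    residue O ⟨_, hg.val.mem⟩ = a ∧ T.D.σO ⟨_, hg.val.mem⟩ = ⟨_, hg.val.mem⟩

omit [IsDiscreteValuationRing ↥O] in
/-- `t` is its value plus the parameter at a point. -/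
theorem tL_eq_const_add {τ0 : ℍ} (hg : GoodPoint haux O τ0) :
    (tL haux hA : LRing q M O) = constL ⟨_, hg.val.mem⟩ + raiseL M (tPar haux hA hg) := by
  rw [tPar, map_sub, show (raiseL M ⟨_, ES.const_mem_BRing hg.val.mem⟩ : LRing q M O) =
    constL ⟨_, hg.val.mem⟩ from rfl, tL, add_sub_cancel]

/-! ### Divisibility witnesses -/

include haux hA in
/-- On a node a function with divisible zeros is a unit times an `n`-th power. -/
theorem exists_node_factor [IsAdicComplete (maximalIdeal O) O] {π : O} (hπ : Irreducible π)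
    {n : ℕ} {y : LRing q M O} (hdiv : Divisible q M O n (y : ℍ → ℂ))
    (F : LRing q M O →+* Node O π) (hF : ∀ r, F (constL r) = nodeC π r)
    (hy : ∀ i, branch (unif_mem hπ) i (F y) ≠ 0) :
    ∃ (U : (Node O π)ˣ) (H : Node O π), F y = U * H ^ n := by
  exact exists_node_factor_of_witness hπ O.subtype O.subtype_injective hy fun ψ hψ h0 =>
    exists_witness_of_divisible haux hA hdiv F ψ (fun r => by rw [hF, hψ]; rfl) h0

/-! ### Places from charts -/

theorem isPlace_of_hom (β : LRing q M O →+* PowerSeries (ResidueField O))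
    (hC : ∀ r, β (constL r) = PowerSeries.C (residue O r)) (hinf : ∀ f ∈ pInf hO, β f = 0) :
    IsPlace hO ((HahnSeries.ofPowerSeries ℤ (ResidueField O)).comp β) :=
  ⟨fun r => by rw [RingHom.comp_apply, hC, HahnSeries.ofPowerSeries_C],
    fun f hf => by rw [RingHom.comp_apply, hinf f hf, map_zero]⟩

/-- The order of an invariant function along a chart in which `t - a` has order `d`. -/
theorem order_chart {β : LRing q M O →+* PowerSeries (ResidueField O)}
    (hC : ∀ r, β (constL r) = PowerSeries.C (residue O r)) (hinf : ∀ f ∈ pInf hO, β f = 0)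
    {τ0 : ℍ} (hg : GoodPoint haux O τ0) {w : PowerSeries (ResidueField O)} (hw : IsUnit w)
    {d : ℕ} (hd : 0 < d) (ht : β (raiseL M (tPar haux hA hg)) = PowerSeries.X ^ d * w)
    {f : LRing q M O} {e : ℕ} {F : Polynomial O} (hf : HasPoly haux hA hO f e F)
    (hF : F.map (residue O) ≠ 0) :
    β f ≠ 0 ∧ ((β f).order.toNat : ℤ) =
      d * mlt e (F.map (residue O)) (residue O ⟨_, hg.val.mem⟩) := by
  obtain ⟨hu, hud⟩ := order_X_pow_mul hw d
  obtain ⟨h1, h2⟩ := (isPlace_of_hom hO β hC hinf).order_eq haux hA hO hf hF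
    (a := residue O ⟨_, hg.val.mem⟩) (u := HahnSeries.ofPowerSeries ℤ _ (PowerSeries.X ^ d * w))
    (by rw [RingHom.comp_apply, tL_eq_const_add haux hA hg, map_add, hC, ht, map_add,
      HahnSeries.ofPowerSeries_C]) hu (by rw [hud]; exact_mod_cast hd)
  rw [RingHom.comp_apply] at h1 h2
  have hne : β f ≠ 0 := fun h => h1 (by rw [h, map_zero])
  refine ⟨hne, ?_⟩
  rw [← order_toNat_ofPS hne, h2, hud]

include haux hA in
/-- Divisibility along a chart bounds the multiplicities. -/
theorem le_mlt_of_dvd {β : LRing q M O →+* PowerSeries (ResidueField O)}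
    (hC : ∀ r, β (constL r) = PowerSeries.C (residue O r)) (hinf : ∀ f ∈ pInf hO, β f = 0)
    {τ0 : ℍ} (hg : GoodPoint haux O τ0) {w : PowerSeries (ResidueField O)} (hw : IsUnit w)
    {d : ℕ} (hd : 0 < d) (ht : β (raiseL M (tPar haux hA hg)) = PowerSeries.X ^ d * w)
    {y z : LRing q M O} {e e' : ℕ} {F G : Polynomial O} (hy : HasPoly haux hA hO y e F)
    (hF : F.map (residue O) ≠ 0) (hz : HasPoly haux hA hO z e' G) (hG : G.map (residue O) ≠ 0)
    (hdvd : PowerSeries.X ^ (β y).order.toNat ∣ β z) :
    mlt e (F.map (residue O)) (residue O ⟨_, hg.val.mem⟩) ≤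
      mlt e' (G.map (residue O)) (residue O ⟨_, hg.val.mem⟩) := by
  obtain ⟨hy0, hyo⟩ := order_chart haux hA hO hC hinf hg hw hd ht hy hF
  obtain ⟨hz0, hzo⟩ := order_chart haux hA hO hC hinf hg hw hd ht hz hG
  obtain ⟨r, hr⟩ := hdvd
  have hle : (β y).order.toNat ≤ (β z).order.toNat := by
    have h1 : ((β y).order.toNat : ℕ∞) ≤ (β z).order := by
      refine PowerSeries.nat_le_order _ _ fun i hi => ?_
      rw [hr, PowerSeries.coeff_X_pow_mul', if_neg (by omega)]
    rw [← ENat.natCast_toNat (PowerSeries.order_finite_iff_ne_zero.mpr hz0).ne] at h1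
    exact_mod_cast h1
  nlinarith

omit hqp in
/-- `X ^ ord` divides a multiple of the power. -/
theorem X_pow_order_dvd_mul_pow {k : Type} [Field k] {U H W : PowerSeries k} (hU : IsUnit U)
    (hH : H ≠ 0) : PowerSeries.X ^ (U * H ^ q).order.toNat ∣ W * H ^ q ∧
      (U * H ^ q).order.toNat = q * H.order.toNat := by
  obtain ⟨hd1, hd2, -⟩ := order_ofPS_of_step (q := q) (W := W) hU hH
  have hne : U * H ^ q ≠ 0 := mul_ne_zero hU.ne_zero (pow_ne_zero q hH)
  have e : (U * H ^ q).order.toNat = q * H.order.toNat := by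
    have h1 : U.order = 0 := PowerSeries.order_zero_of_unit hU
    rw [PowerSeries.order_mul, h1, zero_add, PowerSeries.order_pow, nsmul_eq_mul,
      ENat.toNat_mul, ENat.toNat_natCast]
  refine ⟨?_, e⟩
  rw [e, mul_comm q, pow_mul]
  exact Dvd.dvd.mul_left (pow_dvd_pow_of_dvd PowerSeries.X_pow_order_dvd q) W

end FermatAgent.BAD.TwoP
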