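import Fermat.Agent.BAD.TwoP.Local
import Fermat.Agent.BAD.TwoP.Rat
import Fermat.Agent.BAD.GaloisConj
import Fermat.Agent.BAD.CuspRoot

/-!
# The automorphism congruent to the identity modulo `π ^ 2` and its effect at the cusps

At a cusp over `∞` the residual order of a function with divisible zeros is divisible by `q` and
is at most that of the quotient of its difference by a power of `π`.
-/

set_option autoImplicit false

open UpperHalfPlane CongruenceSubgroup IsLocalRing
open scoped MatrixGroups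

noncomputable section

namespace FermatAgent.BAD.TwoP

open FermatAgent.ES (BSub BRing SerIn lexp lexp_eq act zetaC AuxLevel CPlace GoodRoot liftSer)

/-- An automorphism fixing the roots of unity of order `q M`, congruent to the identity modulo
`π ^ 2` and multiplying the uniformiser by `1 + π η`, where `q` is `π ^ (q (q - 1))` up to a
unit. -/
structure TauData (q M : ℕ) [Fact q.Prime] (P : CPlace q) (O : Subring ℂ) where
  /-- The underlying automorphism. -/
  D : InertData M P O
  /-- The uniformiser. -/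
  π : O
  /-- The slope of the automorphism. -/
  η : O
  /-- The unit part of `q`. -/
  a1 : Oˣ
  irr : Irreducible π
  isUnit_η : IsUnit η
  exp_one : (D.a : ZMod (q * M)) = 1
  q_eq : (q : O) = a1 * π ^ (q * (q - 1))
  sq : ∀ r, π ^ 2 ∣ D.σO r - r
  map_π : D.σO π = π * (1 + π * η)

variable {q M : ℕ} [hqp : Fact q.Prime] [NeZero M] {P : CPlace q} {O : Subring ℂ}
  (T : TauData q M P O)

omit [NeZero M] in
/-- `q` is divisible by `π ^ (q + 1)`. -/
theorem TauData.q_dvd (hq2 : q ≠ 2) : T.π ^ (q + 1) ∣ (q : O) := by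
  rw [T.q_eq]
  refine Dvd.dvd.mul_left (pow_dvd_pow _ ?_) _
  obtain ⟨r, rfl⟩ : ∃ r, q = r + 3 := ⟨q - 3, by have := hqp.out.two_le; omega⟩
  rw [show r + 3 - 1 = r + 2 by omega]
  nlinarith

omit [NeZero M] in
/-- The automorphism fixes every cusp. -/
theorem TauData.galRel_self (γ : SL(2, ℤ)) : ES.GalRel (T.D.a : ZMod (q * M)) γ γ := by
  rw [ES.GalRel, T.exp_one,
    show (!![1, 0; 0, 1] : Matrix (Fin 2) (Fin 2) (ZMod (q * M))) = 1 from Matrix.one_fin_two.symm,
    one_mul, mul_one]

variable (haux : AuxLevel M 2) (hM : M.Coprime q)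

/-- Conjugation acts on the expansions through the coefficients. -/
theorem TauData.serO_conjL (f : LRing q M O) (γ : SL(2, ℤ)) :
    serO M O q γ (T.D.conjL haux f) = liftSer T.D.σO (serO M O q γ f) :=
  T.D.serO_conjL haux f (T.galRel_self γ)

/-- Conjugation acts on the expansions at the cusps over `∞` through the coefficients. -/
theorem TauData.infSer_conjL (f : LRing q M O) {γ : SL(2, ℤ)} (hγ : γ ∈ Gamma0 q) :
    infSer γ hγ (T.D.conjL haux f) = liftSer T.D.σO (infSer γ hγ f) :=
  expandL_injective q (by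
    rw [expandL_infSer, T.serO_conjL, ← liftSer_expandL, expandL_infSer])

/-- Conjugation commutes with the Atkin operator. -/
theorem TauData.conjL_atkinEquiv (hζ : zetaC (q * M) ∈ O) (f : LRing q M O) :
    T.D.conjL haux (atkinEquiv hM hζ f) = atkinEquiv hM hζ (T.D.conjL haux f) := by
  refine serAt_injective 1 ?_
  rw [T.D.serAt_conjL haux _ (T.galRel_self 1)]
  obtain ⟨γ', h01, h00, h10, h11, h⟩ := exists_dil_conj q (1 : SL(2, ℤ))
    (by simp : (q : ℤ) ∣ (1 : SL(2, ℤ)) 1 0)
  have key : ∀ g : LRing q M O, serAt M O q 1 (atkinEquiv hM hζ g) =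
      expandL q (serAt M O q (atkinMat hM * γ') g) := fun g => by
    refine lexp_eq ((hasLExp_dilFun q (ES.hasLExp_lexp g.2.2.1 (atkinMat hM * γ'))).congr_fun
      fun τ => ?_)
    show atkin hM (g : ℍ → ℂ) ((1 : SL(2, ℤ)) • τ) = _
    rw [atkin_apply_pt, h, dilFun_apply, ES.act_apply, mul_smul]
  rw [key, key, T.D.serAt_conjL haux f (T.galRel_self _)]
  exact liftSer_expandL _ _

/-! ### Factorisations from divisible multiplicities -/

variable (hA : GoodRoot M O (zetaC M)) [IsDiscreteValuationRing O]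

include haux hA in
/-- The expansion of `y` at a cusp is a unit times a `q`-th power, up to a power of the
parameter. -/
theorem exists_cusp_factor [IsAdicComplete (maximalIdeal O) O] {y : LRing q M O}
    (hdiv : Divisible q M O q (y : ℍ → ℂ)) (F : LRing q M O →+* LaurentSeries O)
    (hF : ∀ r, F (constL r) = HahnSeries.C r) (hy : liftSer (residue O) (F y) ≠ 0)
    (hord : (q : ℤ) ∣ (F y).order) :
    ∃ (N : ℕ) (U H : PowerSeries O), IsUnit U ∧ psRes H ≠ 0 ∧
      HahnSeries.single (((q * N : ℕ)) : ℤ) 1 * F y =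
        HahnSeries.ofPowerSeries ℤ O (U * H ^ q) := by
  have hy0 : F y ≠ 0 := fun h => hy (by rw [h, map_zero])
  set g := (F y).powerSeriesPart
  have hyg : F y = HahnSeries.single (F y).order 1 * HahnSeries.ofPowerSeries ℤ O g :=
    (LaurentSeries.single_order_mul_powerSeriesPart _).symm
  have hg : psRes g ≠ 0 := fun h => hy (by
    ext n
    rw [HahnSeries.coeff_zero, ES.coeff_liftSer]
    by_cases hn : (F y).order ≤ n
    · obtain ⟨i, hi⟩ := Int.eq_ofNat_of_zero_le (sub_nonneg.mpr hn)
      have h1 := congrArg (PowerSeries.coeff i) h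
      rw [PowerSeries.coeff_map, map_zero, LaurentSeries.powerSeriesPart_coeff,
        show (F y).order + i = n by omega] at h1
      exact h1
    · rw [HahnSeries.coeff_eq_zero_of_lt_order (not_le.mp hn), map_zero])
  obtain ⟨U, H, hUH⟩ := exists_factor_of_witness (n := q) O.subtype Subtype.val_injective hg
    fun ψ hψC h0 => by
    have hX : ψ PowerSeries.X ≠ 0 := fun hX0 => by
      have h1 := h0
      rw [g.eq_X_mul_shift_add_const, map_add, map_mul, hX0, zero_mul, zero_add, hψC,
        ← PowerSeries.coeff_zero_eq_constantCoeff_apply, LaurentSeries.powerSeriesPart_coeff,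
        Nat.cast_zero, add_zero] at h1
      exact HahnSeries.coeff_order_eq_zero.not.mpr hy0 (Subtype.ext h1)
    exact exists_witness_at_point F (ι := constL) hF (n := q) (fun Φ hΦ h1 => by
      obtain ⟨i, d, e, h, he, hh, heq⟩ :=
        exists_witness_of_divisible haux hA hdiv (RingHom.id _) Φ hΦ h1
      exact ⟨i, e, d, h, he, hh, heq⟩) hyg hψC h0 hX
  obtain ⟨i, hi⟩ := hord
  obtain ⟨l, hl⟩ := Int.eq_ofNat_of_zero_le (show 0 ≤ ((-i).toNat : ℤ) + i by omega)
  refine ⟨(-i).toNat, U, PowerSeries.X ^ l * H, U.isUnit, fun h => ?_, ?_⟩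
  · rw [map_mul, map_pow, PowerSeries.map_X, mul_eq_zero] at h
    refine h.elim (pow_ne_zero _ PowerSeries.X_ne_zero) fun hH => hg ?_
    rw [hUH, map_mul, map_pow, hH, zero_pow hqp.out.ne_zero, mul_zero]
  · rw [hyg, ← mul_assoc, HahnSeries.single_mul_single, one_mul, hUH, mul_pow, ← pow_mul,
      show (↑U : PowerSeries O) * (PowerSeries.X ^ (l * q) * H ^ q) =
        PowerSeries.X ^ (l * q) * ((↑U : PowerSeries O) * H ^ q) by ring,
      map_mul _ (PowerSeries.X ^ _),
      HahnSeries.ofPowerSeries_X_pow]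
    congr 2
    push_cast
    rw [hi, ← hl]
    ring_nf

/-! ### Orders -/

omit hqp in
/-- The orders of a unit and of a multiple of a `q`-th power. -/
theorem order_ofPS_of_step {k : Type} [Field k] {U H W : PowerSeries k} (hU : IsUnit U)
    (hH : H ≠ 0) :
    HahnSeries.ofPowerSeries ℤ k (U * H ^ q) ≠ 0 ∧
      (q : ℤ) ∣ (HahnSeries.ofPowerSeries ℤ k (U * H ^ q)).order ∧
      (HahnSeries.ofPowerSeries ℤ k (W * H ^ q) = 0 ∨
        (HahnSeries.ofPowerSeries ℤ k (U * H ^ q)).order ≤
          (HahnSeries.ofPowerSeries ℤ k (W * H ^ q)).order) := by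
  have inj : ∀ {x : PowerSeries k}, x ≠ 0 → HahnSeries.ofPowerSeries ℤ k x ≠ 0 := fun hx h0 =>
    hx (HahnSeries.ofPowerSeries_injective (h0.trans (map_zero _).symm))
  have hord : ∀ x : PowerSeries k, 0 ≤ (HahnSeries.ofPowerSeries ℤ k x).order := fun x => by
    rcases eq_or_ne x 0 with rfl | hx
    · simp
    by_contra h
    refine HahnSeries.coeff_order_eq_zero.not.mpr (inj hx) ?_
    rw [HahnSeries.ofPowerSeries_apply, HahnSeries.embDomain_of_notMem_range]
    rintro ⟨i, hi⟩
    simp [HahnSeries.ofPowerSeries_apply] at hi h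
    omega
  obtain ⟨V, hV⟩ := hU.exists_right_inv
  have hU0 : (HahnSeries.ofPowerSeries ℤ k U).order = 0 := by
    have h1 := congrArg (fun x => (HahnSeries.ofPowerSeries ℤ k x).order) hV
    simp only [map_mul, map_one, HahnSeries.order_one] at h1
    rw [HahnSeries.order_mul (inj hU.ne_zero) (inj (right_ne_zero_of_mul_eq_one hV))] at h1
    have := hord U
    have := hord V
    omega
  have hHp := pow_ne_zero q (inj hH)
  have e : (HahnSeries.ofPowerSeries ℤ k (U * H ^ q)).order =
      (q : ℤ) * (HahnSeries.ofPowerSeries ℤ k H).order := by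
    rw [map_mul, map_pow, HahnSeries.order_mul (inj hU.ne_zero) hHp, hU0, order_pow' (inj hH),
      zero_add]
  refine ⟨inj (mul_ne_zero hU.ne_zero (pow_ne_zero q hH)), ⟨_, e⟩, ?_⟩
  rcases eq_or_ne W 0 with rfl | hW
  · left; simp
  · right
    rw [e, map_mul, map_pow, HahnSeries.order_mul (inj hW) hHp, order_pow' (inj hH)]
    have := hord W
    omega

/-- The step at a cusp. -/
theorem TauData.cusp_step [IsAdicComplete (maximalIdeal O) O] (hA : GoodRoot M O (zetaC M))
    (hq2 : q ≠ 2) {y z : LRing q M O} (hdiv : Divisible q M O q (y : ℍ → ℂ))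
    {γ : SL(2, ℤ)} (hγ : γ ∈ Gamma0 q) (hy : resInf γ hγ y ≠ 0)
    (hord : (q : ℤ) ∣ (infSer γ hγ y).order) {j : ℕ} (hj : j ≤ q)
    (hz : T.D.conjL haux y - y = constL T.π ^ j * z) :
    (q : ℤ) ∣ (resInf γ hγ y).order ∧
      (resInf γ hγ z = 0 ∨ (resInf γ hγ y).order ≤ (resInf γ hγ z).order) := by
  obtain ⟨N, U, H, hU, hH, hA0⟩ :=
    exists_cusp_factor haux hA hdiv (infSer γ hγ) (infSer_constL γ hγ) hy hord
  set s : LaurentSeries O := HahnSeries.single (((q * N : ℕ)) : ℤ) 1
  set A := U * H ^ q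
  have hzA : HahnSeries.ofPowerSeries ℤ O (PowerSeries.map T.D.σO A - A) =
      HahnSeries.C (T.π ^ j) * (s * infSer γ hγ z) := by
    have h1 := congrArg (infSer γ hγ) hz
    rw [map_sub, T.infSer_conjL haux y hγ, map_mul, map_pow, infSer_constL, ← map_pow] at h1
    rw [map_sub, ← ES.liftSer_ofPowerSeries, ← hA0, map_mul, ES.liftSer_single, map_one,
      ← mul_sub, h1]
    ring
  have hπ0 : T.π ^ j ≠ 0 := pow_ne_zero _ T.irr.ne_zero
  obtain ⟨Z, hZ⟩ : ∃ Z : PowerSeries O,
      HahnSeries.ofPowerSeries ℤ O Z = s * infSer γ hγ z := by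
    refine ⟨PowerSeries.mk fun i => (s * infSer γ hγ z).coeff i,
      HahnSeries.ext (funext fun n => ?_)⟩
    rcases le_or_gt 0 n with hn | hn
    · lift n to ℕ using hn
      rw [HahnSeries.ofPowerSeries_apply_coeff, PowerSeries.coeff_mk]
    · have h2 := congrArg (fun x : LaurentSeries O => x.coeff n) hzA
      simp only [HahnSeries.C_mul_eq_smul, HahnSeries.coeff_smul, smul_eq_mul] at h2
      have hneg : ∀ x : PowerSeries O, (HahnSeries.ofPowerSeries ℤ O x).coeff n = 0 := fun x => by
        rw [HahnSeries.ofPowerSeries_apply, HahnSeries.embDomain_of_notMem_range]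
        rintro ⟨i, hi⟩
        simp at hi
        omega
      rw [hneg] at h2
      rw [hneg, (mul_eq_zero.mp h2.symm).resolve_left hπ0]
  obtain ⟨W, hW⟩ := series_step T.irr T.sq (T.q_dvd hq2) (y := A) (z := Z) (U := U) (H := H) rfl
    hH hj (HahnSeries.ofPowerSeries_injective (Γ := ℤ) (by
      rw [hzA]
      simp only [map_mul, map_pow, HahnSeries.ofPowerSeries_C, hZ]))
  obtain ⟨hne, hdvd, hle⟩ := order_ofPS_of_step (q := q) (W := W) (hU.map psRes) hH
  rw [← hW] at hle
  have ey : HahnSeries.single (((q * N : ℕ)) : ℤ) (1 : ResidueField O) * resInf γ hγ y =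
      HahnSeries.ofPowerSeries ℤ _ (psRes U * psRes H ^ q) := by
    rw [resInf, RingHom.comp_apply, ← map_one (residue O), ← ES.liftSer_single (residue O),
      ← map_mul, hA0, ES.liftSer_ofPowerSeries, map_mul, map_pow]
  have ez : HahnSeries.single (((q * N : ℕ)) : ℤ) (1 : ResidueField O) * resInf γ hγ z =
      HahnSeries.ofPowerSeries ℤ _ (psRes Z) := by
    rw [resInf, RingHom.comp_apply, ← map_one (residue O), ← ES.liftSer_single (residue O),
      ← map_mul, ← hZ, ES.liftSer_ofPowerSeries]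
  have hs : (HahnSeries.single (((q * N : ℕ)) : ℤ) (1 : ResidueField O)) ≠ 0 :=
    HahnSeries.single_ne_zero one_ne_zero
  rw [← ey] at hdvd hle
  rw [← ez] at hle
  rw [HahnSeries.order_mul hs hy, HahnSeries.order_single one_ne_zero] at hdvd hle
  refine ⟨(dvd_add_right (by push_cast; exact dvd_mul_right _ _)).mp hdvd, ?_⟩
  rcases eq_or_ne (resInf γ hγ z) 0 with h | h
  · exact Or.inl h
  · right
    rcases hle with h' | h'
    · exact absurd ((mul_eq_zero.mp h').resolve_left hs) h
    · rw [HahnSeries.order_mul hs h, HahnSeries.order_single one_ne_zero] at h'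
      omega

end FermatAgent.BAD.TwoP
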